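/-
S56, node [S56-KUMT] (helper3), file (T5'): THE PURE STEP FOR A GENERAL POLYNOMIAL.

The Kummer step of `Tame.lean`/`Trace.lean`/`Main.lean` only uses: `B = α - 1` is a root of a monic
polynomial `g` of degree `p` fixed by `Stab(π)`, and `v B ^ p = v π ^ i` with `p ∤ i`.  Here the
same statements for such a general pair `(g, B)`; the application is LEVEL `0`
(`g = X ^ p - x`, `v x = v π ^ i`, `B = α`, `α ^ p = x`) and its `e = 1` companion
(`tres ramifie` : `K(u ^ (1/p))`, `v u = v p ^ i`).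

* `s56kt_pure_indep`, `s56kt_pure_int`, `s56kt_pure_trace` : the integral basis
  `B ^ k π ^ (-⌊i k / p⌋)` and the trace statement;
* `s56kt_pure_main_trans`, `s56kt_pure_main_gen` : the element
  `θ Q = π ^ (i (p - 1) / p) / (e π ^ (e - 1) g'(B))` of the inverse different;
* `s56kt_root_main_gen`, `s56kt_root_main` : `g = X ^ p - x`; `v (p ^ 2 θ Q ^ 2) > 1` always and
  `v (p ^ 3 θ Q ^ 2) > 1` if `2 ≤ e`.
Prefix `s56kt_`.
-/
import Fermat.Agent.S56.KumT.Main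

set_option autoImplicit false
set_option linter.unusedSectionVars false
set_option linter.style.haveILetI false

open Polynomial

namespace Fermat.Agent.S56

section Pure

variable {L : Type*} [Field L] {Γ₀ : Type*} [LinearOrderedCommGroupWithZero Γ₀]
  {v : Valuation L Γ₀} {Γ : Type*} [Group Γ] [MulSemiringAction Γ L] {p : ℕ}

theorem s56kt_derivative_smul {G : Type*} [Group G] [MulSemiringAction G L] (σ : G) (g : L[X]) :
    derivative (σ • g) = σ • derivative g := by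
  rw [Polynomial.smul_eq_map]
  exact derivative_map _ _

theorem s56kt_smul_deriv_eval {G : Type*} [Group G] [MulSemiringAction G L] (σ : G) (g : L[X])
    (hg : σ • g = g) (b : L) : σ • (derivative g).eval b = (derivative g).eval (σ • b) := by
  have h := Polynomial.smul_eval_smul L σ (derivative g) b
  rw [← s56kt_derivative_smul, hg] at h
  exact h.symm

section PureStep

variable (hS : s56kt_Setting v Γ p) {e : ℕ} (he : 0 < e) {π : L} (hπ : π ^ e = -(p : L))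
  {g : L[X]} (hmonic : g.Monic) (hdeg : g.natDegree = p)
  (hgfix : ∀ σ : MulAction.stabilizer Γ π, σ • g = g)
  {B : L} (hroot : g.eval B = 0) {i : ℕ} (hval : v B ^ p = v π ^ i) (hip : ¬ p ∣ i)

include hS he hπ hval hip

theorem s56kt_pure_coprime : Nat.Coprime i p :=
  ((Nat.Prime.coprime_iff_not_dvd hS.hp).mpr hip).symm

theorem s56kt_pure_valG (a : L) (ha : ∀ σ : MulAction.stabilizer Γ π, σ • a = a) (ha0 : a ≠ 0) :
    ∃ m : ℤ, v a = v π ^ m :=
  s56kt_tame_val hS he hπ a (fun σ hσ => ha ⟨σ, hσ⟩) ha0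

/-- `1, B, …, B ^ (p - 1)` are linearly independent over `K(π)`. -/
theorem s56kt_pure_indep : s56kt_Indep (MulAction.stabilizer Γ π) B p := by
  intro c hc h0 j hj
  exact s56kt_coeff_eq_zero v π B p i (s56kt_pi_ne_zero hS he hπ)
    (s56kt_val_pi_lt hS he hπ) hval (s56kt_pure_coprime hS he hπ hval hip) c
    (fun j hj0 => s56kt_pure_valG hS he hπ hval hip (c j) (hc j) hj0) h0 j hj

/-- **integrality in the pure step**: if `∑ k < p, d k * B ^ k` is integral (`d k ∈ K(π)`), then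
`d k * π ^ (i * k / p)` is integral. -/
theorem s56kt_pure_int (d : ℕ → L) (hd : ∀ k (σ : MulAction.stabilizer Γ π), σ • d k = d k)
    (hle : v (∑ k ∈ Finset.range p, d k * B ^ k) ≤ 1) (k : ℕ) (hk : k < p) :
    v (d k * π ^ (i * k / p)) ≤ 1 := by
  by_cases hdk : d k = 0
  · rw [hdk, zero_mul, map_zero]; exact zero_le_one
  have hpos := s56kt_val_pi_pos hS he hπ
  have hlt := s56kt_val_pi_lt hS he hπ
  have h1 := s56kt_term_le_sum v π B p i (s56kt_pi_ne_zero hS he hπ) hlt hval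
    (s56kt_pure_coprime hS he hπ hval hip) d
    (fun j hj0 => s56kt_pure_valG hS he hπ hval hip (d j) (hd j) hj0) k hk
  have h2 : v (d k * B ^ k) ≤ 1 := le_trans h1 hle
  obtain ⟨m, hm⟩ := s56kt_pure_valG hS he hπ hval hip (d k) (hd k) hdk
  have h3 : v (d k * B ^ k) ^ p = v π ^ ((p : ℤ) * m + (i * k : ℕ)) := by
    rw [map_mul, map_pow, mul_pow, ← pow_mul, mul_comm k p, pow_mul, hval, hm, ← pow_mul,
      zpow_add₀ hpos.ne', zpow_natCast, ← zpow_natCast (v π ^ m) p, ← zpow_mul, mul_comm m]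
  have h4 : v π ^ ((p : ℤ) * m + (i * k : ℕ)) ≤ 1 := by
    rw [← h3]; exact pow_le_one₀ zero_le h2
  rw [zpow_le_one_iff_right_of_lt_one₀ hpos hlt] at h4
  have h5 : v (d k * π ^ (i * k / p)) = v π ^ (m + ((i * k / p : ℕ) : ℤ)) := by
    rw [map_mul, map_pow, hm, zpow_add₀ hpos.ne', zpow_natCast]
  rw [h5, zpow_le_one_iff_right_of_lt_one₀ hpos hlt]
  have hp0 : 0 < p := hS.hp.pos
  set q := i * k / p with hq
  have hdiv : (i * k : ℕ) = p * q + (i * k) % p := (Nat.div_add_mod (i * k) p).symm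
  have hmod : (i * k) % p < p := Nat.mod_lt _ hp0
  by_contra hneg
  rw [not_le] at hneg
  have hmq : m + (q : ℤ) ≤ -1 := by omega
  have : (p : ℤ) * m + (p : ℤ) * q ≤ -(p : ℤ) := by nlinarith
  have hcast : ((i * k : ℕ) : ℤ) = (p : ℤ) * q + ((i * k) % p : ℕ) := by exact_mod_cast hdiv
  have hmod' : (((i * k) % p : ℕ) : ℤ) < p := by exact_mod_cast hmod
  omega

include hmonic hdeg hgfix hroot in
open Classical in
/-- **pure trace**: `Y` a finite `Stab(π)`-set with an equivariant map `ϑ` to the roots of `g`,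
`ψ` equivariant and integral: then `π ^ (i (p - 1) / p) * ∑ y, ψ y / g'(ϑ y)` is integral. -/
theorem s56kt_pure_trace
    {Y : Type*} [Fintype Y] [MulAction (MulAction.stabilizer Γ π) Y]
    (ϑ : Y → L) (hϑ : ∀ (σ : MulAction.stabilizer Γ π) (y : Y), ϑ (σ • y) = σ • ϑ y)
    (hϑroot : ∀ y, g.eval (ϑ y) = 0)
    (ψ : Y → L) (hψ : ∀ (σ : MulAction.stabilizer Γ π) (y : Y), ψ (σ • y) = σ • ψ y)
    (hψint : ∀ y, v (ψ y) ≤ 1) :
    v (π ^ (i * (p - 1) / p) * ∑ y, ψ y / (derivative g).eval (ϑ y)) ≤ 1 := by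
  have hp0 : 0 < p := hS.hp.pos
  have hind : s56kt_Indep (MulAction.stabilizer Γ π) B g.natDegree := by
    rw [hdeg]; exact s56kt_pure_indep hS he hπ hval hip
  set w := ∑ y ∈ Finset.univ.filter (fun y => ϑ y = B), ψ y with hw
  have hwint : v w ≤ 1 := by
    rw [hw]
    exact Valuation.map_sum_le v fun y _ => hψint y
  have hwfix : ∀ σ : MulAction.stabilizer Γ π, σ • B = B → σ • w = w := by
    intro σ hσ
    rw [hw, s56kt_fibre_sum_smul ϑ hϑ ψ hψ σ B, hσ]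
  obtain ⟨c, hcfix, hcexp⟩ := s56kt_fixed_eq_poly B g hmonic hgfix hroot hind w hwfix
  have hfib := s56kt_fib B g hmonic hgfix hroot hind ϑ hϑ hϑroot ψ hψ c hcexp
  rw [hfib]
  have h1 := hcexp 1
  rw [one_smul, one_smul, hdeg] at h1
  rw [hdeg, mul_comm]
  refine s56kt_pure_int hS he hπ hval hip c hcfix ?_ (p - 1) (by omega)
  rw [← h1]
  exact hwint

end PureStep

open Classical in
/-- **PURE MAIN, transitive form.** -/
theorem s56kt_pure_main_trans (hS : s56kt_Setting v Γ p) {e : ℕ} (he : 0 < e) {π : L}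
    (hπ : π ^ e = -(p : L)) {g : L[X]} (hmonic : g.Monic) (hdeg : g.natDegree = p)
    (hgfix : ∀ σ : Γ, σ • π = π → σ • g = g)
    {B : L} (hroot : g.eval B = 0) {i : ℕ} (hval : v B ^ p = v π ^ i) (hip : ¬ p ∣ i)
    {X : Type*} [Fintype X] [MulAction Γ X] (Q : X) (htr : ∀ x : X, ∃ σ : Γ, σ • Q = x)
    (hQ : ∀ σ : Γ, σ • Q = Q → σ • π = π ∧ σ • B = B) :
    ∃ θ : X → L, (∀ (σ : Γ) (x : X), θ (σ • x) = σ • θ x) ∧
      (∀ ψ : X → L, (∀ (σ : Γ) (x : X), ψ (σ • x) = σ • ψ x) → (∀ x, v (ψ x) ≤ 1) →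
        v (∑ x, θ x * ψ x) ≤ 1) ∧
      θ Q = π ^ (i * (p - 1) / p) / ((e : L) * π ^ (e - 1) * (derivative g).eval B) := by
  set m := i * (p - 1) / p with hm
  set D := (derivative g).eval B with hD
  have hQπ : ∀ σ : Γ, σ • Q = Q → σ • π = π := fun σ h => (hQ σ h).1
  have hQB : ∀ σ : Γ, σ • Q = Q → σ • B = B := fun σ h => (hQ σ h).2
  have hQD : ∀ σ : Γ, σ • Q = Q → σ • D = D := by
    intro σ h
    rw [hD, s56kt_smul_deriv_eval σ g (hgfix σ (hQπ σ h)), hQB σ h]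
  set ϑπ : X → L := s56kt_pt Q htr π with hϑπ
  set ϑB : X → L := s56kt_pt Q htr B with hϑB
  set ϑD : X → L := s56kt_pt Q htr D with hϑD
  have hϑπs : ∀ (σ : Γ) (x : X), ϑπ (σ • x) = σ • ϑπ x := s56kt_pt_smul Q htr π hQπ
  have hϑBs : ∀ (σ : Γ) (x : X), ϑB (σ • x) = σ • ϑB x := s56kt_pt_smul Q htr B hQB
  have hϑDs : ∀ (σ : Γ) (x : X), ϑD (σ • x) = σ • ϑD x := s56kt_pt_smul Q htr D hQD
  have hϑπQ : ϑπ Q = π := s56kt_pt_base Q htr π hQπ
  have hϑBQ : ϑB Q = B := s56kt_pt_base Q htr B hQB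
  have hϑDQ : ϑD Q = D := s56kt_pt_base Q htr D hQD
  have hnat : ∀ (σ : Γ) (n : ℕ), σ • (n : L) = n := s56kt_smul_natCast
  have hϑπroot : ∀ x, ϑπ x ^ e = -(p : L) := by
    intro x
    obtain ⟨σ, rfl⟩ := htr x
    rw [hϑπs, hϑπQ, ← smul_pow', hπ, smul_neg, hnat]
  refine ⟨fun x => ϑπ x ^ m / ((e : L) * ϑπ x ^ (e - 1) * ϑD x), ?_, ?_, ?_⟩
  · intro σ x
    simp only [hϑπs, hϑDs, smul_div₀', smul_mul', smul_pow', hnat]
  · intro ψ hψ hψint
    set FA : X → L := fun x => ϑπ x ^ m * (ψ x / ϑD x) with hFA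
    have hFAs : ∀ (σ : Γ) (x : X), FA (σ • x) = σ • FA x := by
      intro σ x
      simp only [hFA, hϑπs, hϑDs, hψ, smul_div₀', smul_mul', smul_pow']
    have hrew : ∑ x, ϑπ x ^ m / ((e : L) * ϑπ x ^ (e - 1) * ϑD x) * ψ x
        = ∑ x, FA x / ((e : L) * ϑπ x ^ (e - 1)) := by
      refine Finset.sum_congr rfl fun x _ => ?_
      rw [hFA]
      ring
    rw [hrew]
    refine s56kt_tame_trace hS he hπ ϑπ hϑπs hϑπroot FA hFAs ?_
    let Y := {x : X // ϑπ x = π}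
    letI : MulAction (MulAction.stabilizer Γ π) Y :=
      { smul := fun σ y => ⟨(σ : Γ) • y.1, by rw [hϑπs, y.2]; exact σ.2⟩
        one_smul := fun y => Subtype.ext (one_smul Γ y.1)
        mul_smul := fun σ τ y => Subtype.ext (mul_smul (σ : Γ) (τ : Γ) y.1) }
    have hsm : ∀ (σ : MulAction.stabilizer Γ π) (y : Y), (σ • y).1 = (σ : Γ) • y.1 :=
      fun _ _ => rfl
    -- on the fibre over `π`
    have hfibre : ∀ y : Y, g.eval (ϑB y.1) = 0 ∧ ϑD y.1 = (derivative g).eval (ϑB y.1) := by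
      intro y
      obtain ⟨σ, hσ⟩ := htr y.1
      have h1 : ϑπ y.1 = σ • π := by rw [← hσ, hϑπs, hϑπQ]
      have h2 : σ • π = π := by rw [← h1, y.2]
      have h3 : σ • g = g := hgfix σ h2
      refine ⟨?_, ?_⟩
      · rw [← hσ, hϑBs, hϑBQ]
        have h := Polynomial.smul_eval_smul L σ g B
        rw [h3, hroot, smul_zero] at h
        exact h
      · rw [← hσ, hϑDs, hϑDQ, hϑBs, hϑBQ, hD, s56kt_smul_deriv_eval σ g h3]
    have hfib : ∑ x ∈ Finset.univ.filter (fun x => ϑπ x = π), FA x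
        = π ^ m * ∑ y : Y, ψ y.1 / (derivative g).eval (ϑB y.1) := by
      rw [Finset.sum_subtype (Finset.univ.filter (fun x => ϑπ x = π)) (p := fun x => ϑπ x = π)
        (fun x => by simp) FA, Finset.mul_sum]
      refine Finset.sum_congr rfl fun y _ => ?_
      rw [hFA]
      simp only
      rw [y.2, (hfibre y).2]
    rw [hfib, hm]
    refine s56kt_pure_trace hS he hπ hmonic hdeg (fun σ => hgfix σ.1 σ.2) hroot hval hip
      (fun y : Y => ϑB y.1) ?_ (fun y => (hfibre y).1) (fun y : Y => ψ y.1) ?_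
      (fun y => hψint y.1)
    · intro σ y
      rw [hsm, hϑBs, Subgroup.smul_def]
    · intro σ y
      rw [hsm, hψ, Subgroup.smul_def]
  · simp only [hϑπQ, hϑDQ]

open Classical in
/-- extension by zero from the orbit of `Q` to an arbitrary finite `Γ`-set. -/
theorem s56kt_extend_orbit {X : Type*} [Fintype X] [MulAction Γ X] (Q : X) (c : L)
    (h : ∃ θ' : MulAction.orbit Γ Q → L,
      (∀ (σ : Γ) (x : MulAction.orbit Γ Q), θ' (σ • x) = σ • θ' x) ∧
      (∀ ψ : MulAction.orbit Γ Q → L, (∀ (σ : Γ) (x : MulAction.orbit Γ Q), ψ (σ • x) = σ • ψ x) →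
        (∀ x, v (ψ x) ≤ 1) → v (∑ x, θ' x * ψ x) ≤ 1) ∧
      θ' ⟨Q, MulAction.mem_orbit_self Q⟩ = c) :
    ∃ θ : X → L, (∀ (σ : Γ) (x : X), θ (σ • x) = σ • θ x) ∧
      (∀ ψ : X → L, (∀ (σ : Γ) (x : X), ψ (σ • x) = σ • ψ x) → (∀ x, v (ψ x) ≤ 1) →
        v (∑ x, θ x * ψ x) ≤ 1) ∧
      θ Q = c := by
  let O := MulAction.orbit Γ Q
  obtain ⟨θ', hθ's, hθ'int, hθ'Q⟩ := h
  refine ⟨fun y => if h : y ∈ O then θ' ⟨y, h⟩ else 0, ?_, ?_, ?_⟩
  · intro σ y
    by_cases hy : y ∈ O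
    · have hσy : σ • y ∈ O := MulAction.mem_orbit_of_mem_orbit σ hy
      simp only [dif_pos hy, dif_pos hσy]
      rw [← hθ's σ ⟨y, hy⟩]
      rfl
    · have hσy : σ • y ∉ O := by
        intro h
        apply hy
        have := MulAction.mem_orbit_of_mem_orbit σ⁻¹ h
        rwa [inv_smul_smul] at this
      simp only [dif_neg hy, dif_neg hσy, smul_zero]
  · intro ψ hψ hψint
    have hsum : ∑ y, (if h : y ∈ O then θ' ⟨y, h⟩ else 0) * ψ y = ∑ y : O, θ' y * ψ y.1 := by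
      set g : X → L := fun y => (if h : y ∈ O then θ' ⟨y, h⟩ else 0) * ψ y with hg
      have h1 : ∑ y, g y = ∑ y ∈ Finset.univ.filter (fun y => y ∈ O), g y := by
        rw [Finset.sum_filter]
        refine Finset.sum_congr rfl fun y _ => ?_
        by_cases hy : y ∈ O
        · simp [hy]
        · simp [hg, hy]
      rw [h1, Finset.sum_subtype (Finset.univ.filter (fun y => y ∈ O)) (p := fun y => y ∈ O)
        (fun y => by simp) g]
      refine Finset.sum_congr rfl fun y _ => ?_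
      simp only [hg, dif_pos y.2]
      rfl
    rw [hsum]
    have h2 : ∑ y : O, θ' y * ψ y.1 = ∑ y : O, θ' y * (fun y : O => ψ y.1) y := rfl
    rw [h2]
    exact hθ'int (fun y : O => ψ y.1) (fun σ y => hψ σ y.1) (fun y => hψint y.1)
  · have hQO : Q ∈ O := MulAction.mem_orbit_self Q
    simp only [dif_pos hQO]
    exact hθ'Q

open Classical in
/-- **PURE MAIN, general form**: `X` any finite `Γ`-set, `Q : X` with stabiliser fixing `π`, `B`. -/
theorem s56kt_pure_main_gen (hS : s56kt_Setting v Γ p) {e : ℕ} (he : 0 < e) {π : L}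
    (hπ : π ^ e = -(p : L)) {g : L[X]} (hmonic : g.Monic) (hdeg : g.natDegree = p)
    (hgfix : ∀ σ : Γ, σ • π = π → σ • g = g)
    {B : L} (hroot : g.eval B = 0) {i : ℕ} (hval : v B ^ p = v π ^ i) (hip : ¬ p ∣ i)
    {X : Type*} [Fintype X] [MulAction Γ X] (Q : X)
    (hQ : ∀ σ : Γ, σ • Q = Q → σ • π = π ∧ σ • B = B) :
    ∃ θ : X → L, (∀ (σ : Γ) (x : X), θ (σ • x) = σ • θ x) ∧
      (∀ ψ : X → L, (∀ (σ : Γ) (x : X), ψ (σ • x) = σ • ψ x) → (∀ x, v (ψ x) ≤ 1) →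
        v (∑ x, θ x * ψ x) ≤ 1) ∧
      θ Q = π ^ (i * (p - 1) / p) / ((e : L) * π ^ (e - 1) * (derivative g).eval B) := by
  apply s56kt_extend_orbit
  let Q' : MulAction.orbit Γ Q := ⟨Q, MulAction.mem_orbit_self Q⟩
  have htr : ∀ y : MulAction.orbit Γ Q, ∃ σ : Γ, σ • Q' = y := by
    rintro ⟨y, hy⟩
    obtain ⟨σ, hσ⟩ := MulAction.mem_orbit_iff.mp hy
    exact ⟨σ, Subtype.ext hσ⟩
  have hQ' : ∀ σ : Γ, σ • Q' = Q' → σ • π = π ∧ σ • B = B := by
    intro σ hσ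
    exact hQ σ (congrArg Subtype.val hσ)
  exact s56kt_pure_main_trans hS he hπ hmonic hdeg hgfix hroot hval hip Q' htr hQ'

/-! ### the polynomial `X ^ p - x` (level `0`) -/

/-- `X ^ p - x`. -/
noncomputable def s56kt_rootPoly (p : ℕ) (x : L) : L[X] := X ^ p - C x

theorem s56kt_rootPoly_monic {p : ℕ} (hp : 0 < p) (x : L) : (s56kt_rootPoly p x).Monic :=
  monic_X_pow_sub_C x hp.ne'

theorem s56kt_rootPoly_natDegree {p : ℕ} (_hp : 0 < p) (x : L) :
    (s56kt_rootPoly p x).natDegree = p :=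
  natDegree_X_pow_sub_C

theorem s56kt_rootPoly_eval (p : ℕ) (x b : L) : (s56kt_rootPoly p x).eval b = b ^ p - x := by
  simp [s56kt_rootPoly]

theorem s56kt_rootPoly_deriv_eval (p : ℕ) (x b : L) :
    (derivative (s56kt_rootPoly p x)).eval b = (p : L) * b ^ (p - 1) := by
  simp [s56kt_rootPoly, derivative_X_pow]

theorem s56kt_rootPoly_smul {G : Type*} [Group G] [MulSemiringAction G L] (p : ℕ) (x : L) (σ : G)
    (hx : σ • x = x) : σ • s56kt_rootPoly p x = s56kt_rootPoly p x := by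
  unfold s56kt_rootPoly
  rw [smul_sub, smul_pow', Polynomial.smul_X, Polynomial.smul_C, hx]

/-- **MAIN for level `0`, general form**: `v x = v π ^ i`, `p ∤ i`, `α ^ p = x`. -/
theorem s56kt_root_main_gen (hS : s56kt_Setting v Γ p) {e : ℕ} (he : 0 < e) {π : L}
    (hπ : π ^ e = -(p : L)) {x α : L} (hx : ∀ σ : Γ, σ • π = π → σ • x = x) {i : ℕ}
    (hi : v x = v π ^ i) (hip : ¬ p ∣ i) (hα : α ^ p = x)
    {X : Type*} [Fintype X] [MulAction Γ X] (Q : X)
    (hQ : ∀ σ : Γ, σ • Q = Q → σ • π = π ∧ σ • α = α) :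
    ∃ θ : X → L, (∀ (σ : Γ) (x : X), θ (σ • x) = σ • θ x) ∧
      (∀ ψ : X → L, (∀ (σ : Γ) (x : X), ψ (σ • x) = σ • ψ x) → (∀ x, v (ψ x) ≤ 1) →
        v (∑ x, θ x * ψ x) ≤ 1) ∧
      θ Q = π ^ (i * (p - 1) / p) / ((e : L) * π ^ (e - 1) * ((p : L) * α ^ (p - 1))) := by
  have hp0 : 0 < p := hS.hp.pos
  have h := s56kt_pure_main_gen hS he hπ (s56kt_rootPoly_monic hp0 x)
    (s56kt_rootPoly_natDegree hp0 x) (fun σ hσ => s56kt_rootPoly_smul p x σ (hx σ hσ))
    (B := α) (by rw [s56kt_rootPoly_eval, hα, sub_self]) (i := i)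
    (by rw [← map_pow, hα, hi]) hip Q hQ
  simpa only [s56kt_rootPoly_deriv_eval] using h

/-- **MAIN for level `0`, with the numerical conclusions**: `v (p ^ 2 θ Q ^ 2) > 1`, and
`v (p ^ 3 θ Q ^ 2) > 1` if `2 ≤ e`. -/
theorem s56kt_root_main (hS : s56kt_Setting v Γ p) {e : ℕ} (he : 0 < e) (hve : v (e : L) = 1)
    {π : L} (hπ : π ^ e = -(p : L)) {x α : L} (hx : ∀ σ : Γ, σ • π = π → σ • x = x) {i : ℕ}
    (hi : v x = v π ^ i) (hip : ¬ p ∣ i) (hα : α ^ p = x)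
    {X : Type*} [Fintype X] [MulAction Γ X] (Q : X)
    (hQ : ∀ σ : Γ, σ • Q = Q → σ • π = π ∧ σ • α = α) :
    ∃ θ : X → L, (∀ (σ : Γ) (x : X), θ (σ • x) = σ • θ x) ∧
      (∀ ψ : X → L, (∀ (σ : Γ) (x : X), ψ (σ • x) = σ • ψ x) → (∀ x, v (ψ x) ≤ 1) →
        v (∑ x, θ x * ψ x) ≤ 1) ∧
      1 < v ((p : L) ^ 2 * θ Q ^ 2) ∧ (2 ≤ e → 1 < v ((p : L) ^ 3 * θ Q ^ 2)) := by
  obtain ⟨θ, hθs, hθint, hθQ⟩ := s56kt_root_main_gen hS he hπ hx hi hip hα Q hQ
  refine ⟨θ, hθs, hθint, ?_⟩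
  set m := i * (p - 1) / p with hm
  have hpos := s56kt_val_pi_pos hS he hπ
  have hlt := s56kt_val_pi_lt hS he hπ
  have hp1 := s56kt_val_pi_pow hS he hπ
  rw [pow_one] at hp1
  have hp0 : 0 < p := hS.hp.pos
  have hp2 : 2 ≤ p := hS.hp.two_le
  -- `p m < (p - 1) i`
  have hmlt : p * m + 1 ≤ i * (p - 1) := by
    have h1 : p * m ≤ i * (p - 1) := by rw [hm]; exact Nat.mul_div_le _ _
    rcases Nat.lt_or_ge (p * m) (i * (p - 1)) with h | h
    · exact h
    · exfalso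
      have h2 : p ∣ i * (p - 1) := ⟨m, (le_antisymm h1 h).symm⟩
      rcases (Nat.Prime.dvd_mul hS.hp).mp h2 with h3 | h3
      · exact hip h3
      · have := Nat.le_of_dvd (by omega) h3
        omega
  have hvα : v α ^ p = v π ^ i := by rw [← map_pow, hα, hi]
  -- the `p`-th power of the valuation
  have key : ∀ c : ℕ, p * (c * e) + 2 * (p * m) + 2 * p < 4 * (p * e) + 2 * ((p - 1) * i) →
      1 < v ((p : L) ^ c * θ Q ^ 2) := by
    intro c hc
    have hval : v ((p : L) ^ c * θ Q ^ 2) ^ p =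
        v π ^ (p * (c * e) + 2 * (p * m)) / v π ^ (2 * (p * (e - 1)) + 2 * (p * e) + 2 * ((p - 1) * i)) := by
      rw [hθQ, map_mul, map_pow, map_pow, map_div₀, map_mul, map_mul, map_mul, map_pow, map_pow,
        map_pow, hve, ← hp1, one_mul, mul_pow, div_pow, div_pow, mul_pow, mul_pow, mul_pow,
        mul_pow, ← pow_mul, ← pow_mul, ← pow_mul, ← pow_mul, ← pow_mul, ← pow_mul, ← pow_mul,
        ← pow_mul, ← pow_mul, ← pow_mul]
      have h1 : v α ^ ((p - 1) * (2 * p)) = v π ^ (2 * ((p - 1) * i)) := by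
        rw [show (p - 1) * (2 * p) = p * (2 * (p - 1)) by ring, pow_mul, hvα, ← pow_mul]
        congr 1; ring
      rw [h1, mul_div_assoc', ← pow_add, ← pow_add, ← pow_add]
      congr 2 <;> ring
    by_contra hle
    rw [not_lt] at hle
    have h2 : v ((p : L) ^ c * θ Q ^ 2) ^ p ≤ 1 := pow_le_one₀ zero_le hle
    rw [hval, div_le_iff₀ (pow_pos hpos _), one_mul] at h2
    have h3 := (pow_le_pow_iff_right_of_lt_one₀ hpos hlt).mp h2
    have : p * (e - 1) + p = p * e := by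
      rw [← Nat.mul_succ]; congr 1; omega
    omega
  have hpe : p ≤ p * e := Nat.le_mul_of_pos_right p he
  have hcomm : (p - 1) * i = i * (p - 1) := Nat.mul_comm _ _
  refine ⟨key 2 ?_, fun he2 => key 3 ?_⟩
  · have : p * (2 * e) = 2 * (p * e) := by ring
    omega
  · have h1 : p * (3 * e) = 3 * (p * e) := by ring
    have h2 : 2 * p ≤ p * e := by nlinarith
    omega

end Pure

end Fermat.Agent.S56
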