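/-
S56, node [S56-KUMT] (helper3), file (T5-CTX): THE CONSUMER FORM OF (T5) IN THE `mzo_Ctx` VOCABULARY
of [LOC-p-FLAT] (helper27's `s56f_df_main`: `S : Subgroup Γ`, `R : Finset Γ` a left transversal).

* `s56kt_setting_of_ctx` : `mzo_Ctx r O L A Γ → s56kt_Setting A.valuation Γ r`;
* `s56kt_quot_form`      : an equivariant `θ : Γ ⧸ S → L` in the inverse different gives
  `y := θ 1` with `∑ r ∈ R, r • (y * z) ∈ A` for all `S`-fixed `z ∈ A`;
* `s56kt_T5`      : level `i ≥ 1` (`v (u - 1) = v ϖ ^ i`, `p ∤ i`, `2 ⌊i (p-1) / p⌋ + 2 < e`):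
  `∃ y, … ∧ p ^ 3 * y ^ 2 ∉ A`;
* `s56kt_T5_zero` : level `0` (`v u = v ϖ ^ i`, `p ∤ i`): `p ^ 2 * y ^ 2 ∉ A`, and
  `p ^ 3 * y ^ 2 ∉ A` if `2 ≤ e`;
* `s56kt_T5_ss`   : `e = p ^ 2 - 1`, level `2` or `p + 1`;  `s56kt_T5_peu` : `e = 1`, `v u = v p ^ i`.
Prefix `s56kt_`.
-/
import Mathlib
import Fermat.Agent.S56.Flat.Mono
import Fermat.Agent.S56.Flat.DiffCore
import Fermat.Agent.S56.KumT.Pure

set_option autoImplicit false
set_option linter.unusedSectionVars false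
set_option linter.style.haveILetI false

namespace Fermat.Agent.S56

open Fermat.Agent.MZ

section Ctx

variable {r : ℕ} {O : Type} [CommRing O] [IsDomain O] [IsDiscreteValuationRing O]
  {L : Type} [Field L] [Algebra O L] {A : ValuationSubring L}
  {Γ : Type} [Group Γ] [MulSemiringAction Γ L]

theorem s56kt_setting_of_ctx (h : mzo_Ctx r O L A Γ) : s56kt_Setting A.valuation Γ r where
  hp := h.r_prime
  vp := (ValuationSubring.mem_nonunits_iff (A := A)).mp h.r_mem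
  p_ne := h.r_ne
  valK := fun _ ha ha0 => s56fm_val_fixed h ha0 ha

theorem s56kt_ctx_smul_mem (h : mzo_Ctx r O L A Γ) (σ : Γ) {a : L} (ha : a ∈ A) : σ • a ∈ A := by
  have h1 := h.inert σ a ha
  have h2 : σ • a - a ∈ A := ValuationSubring.nonunits_subset h1
  have := A.add_mem _ _ h2 ha
  rwa [sub_add_cancel] at this

/-- the bijection `R ≃ Γ ⧸ S` of a transversal. -/
theorem s56kt_transversal_bij {S : Subgroup Γ} {R : Finset Γ} (hR : s56f_dc_IsTransversal S R) :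
    Function.Bijective (fun r : R => ((r : Γ) : Γ ⧸ S)) := by
  constructor
  · intro a b hab
    have h1 : (a : Γ)⁻¹ * (b : Γ) ∈ S := QuotientGroup.eq.mp hab
    obtain ⟨r, _, hr⟩ := hR (b : Γ)
    have ha := hr a ⟨a.2, h1⟩
    have hb := hr b ⟨b.2, by rw [inv_mul_cancel]; exact S.one_mem⟩
    exact Subtype.ext (ha.trans hb.symm)
  · intro x
    induction x using QuotientGroup.induction_on with
    | H σ =>
      obtain ⟨r, ⟨hrR, hrS⟩, _⟩ := hR σ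
      exact ⟨⟨r, hrR⟩, QuotientGroup.eq.mpr hrS⟩

/-- **from the quotient form to the transversal form.** -/
theorem s56kt_quot_form (h : mzo_Ctx r O L A Γ) {S : Subgroup Γ} {R : Finset Γ}
    (hR : s56f_dc_IsTransversal S R) [Fintype (Γ ⧸ S)] (θ : Γ ⧸ S → L)
    (hθs : ∀ (σ : Γ) (x : Γ ⧸ S), θ (σ • x) = σ • θ x)
    (hθint : ∀ ψ : Γ ⧸ S → L, (∀ (σ : Γ) (x : Γ ⧸ S), ψ (σ • x) = σ • ψ x) →
      (∀ x, A.valuation (ψ x) ≤ 1) → A.valuation (∑ x, θ x * ψ x) ≤ 1) :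
    (∀ s ∈ S, s • θ ((1 : Γ) : Γ ⧸ S) = θ ((1 : Γ) : Γ ⧸ S)) ∧
      ∀ z ∈ A, (∀ s ∈ S, s • z = z) → ∑ r ∈ R, r • (θ ((1 : Γ) : Γ ⧸ S) * z) ∈ A := by
  have hsmul : ∀ σ τ : Γ, σ • ((τ : Γ) : Γ ⧸ S) = ((σ * τ : Γ) : Γ ⧸ S) := fun σ τ => rfl
  refine ⟨?_, ?_⟩
  · intro s hs
    rw [← hθs, hsmul, mul_one]
    congr 1
    exact QuotientGroup.eq.mpr (by rw [mul_one]; exact S.inv_mem hs)
  · intro z hz hzS
    -- the function `σ S ↦ σ • z`
    let ψ : Γ ⧸ S → L := Quotient.lift (fun σ : Γ => σ • z) (by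
      intro a b hab
      have h1 : a⁻¹ * b ∈ S := QuotientGroup.leftRel_apply.mp hab
      have h2 := hzS _ h1
      rw [mul_smul] at h2
      show a • z = b • z
      calc a • z = a • (a⁻¹ • b • z) := by rw [h2]
        _ = b • z := smul_inv_smul a _)
    have hψmk : ∀ σ : Γ, ψ ((σ : Γ) : Γ ⧸ S) = σ • z := fun σ => rfl
    have hψs : ∀ (σ : Γ) (x : Γ ⧸ S), ψ (σ • x) = σ • ψ x := by
      intro σ x
      induction x using QuotientGroup.induction_on with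
      | H τ => rw [hsmul, hψmk, hψmk, mul_smul]
    have hψint : ∀ x, A.valuation (ψ x) ≤ 1 := by
      intro x
      induction x using QuotientGroup.induction_on with
      | H τ =>
        rw [hψmk, ValuationSubring.valuation_le_one_iff]
        exact s56kt_ctx_smul_mem h τ hz
    have h1 := hθint ψ hψs hψint
    rw [ValuationSubring.valuation_le_one_iff] at h1
    have h2 : ∑ x, θ x * ψ x = ∑ r ∈ R, r • (θ ((1 : Γ) : Γ ⧸ S) * z) := by
      rw [← Finset.sum_coe_sort R]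
      symm
      apply Fintype.sum_bijective _ (s56kt_transversal_bij hR)
      intro r
      rw [smul_mul', ← hθs, hsmul, mul_one, hψmk]
    rwa [h2] at h1

theorem s56kt_finite_quot {S : Subgroup Γ} {R : Finset Γ} (hR : s56f_dc_IsTransversal S R) :
    Finite (Γ ⧸ S) :=
  Finite.of_surjective _ (s56kt_transversal_bij hR).2

theorem s56kt_stab_one {S : Subgroup Γ} (σ : Γ)
    (hσ : σ • (((1 : Γ) : Γ ⧸ S)) = (((1 : Γ) : Γ ⧸ S))) : σ ∈ S := by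
  have h1 : (((σ * 1 : Γ)) : Γ ⧸ S) = (((1 : Γ) : Γ ⧸ S)) := hσ
  have h2 := QuotientGroup.eq.mp h1
  rw [mul_one, mul_one] at h2
  simpa using S.inv_mem h2

/-- **(T5), levels `≥ 1`, consumer form**: `ϖ ^ e = -r`, `u` in the field of `ϖ` with
`v (u - 1) = v ϖ ^ i`, `r ∤ i`, `w ^ r = u`, `2 ⌊i (r - 1) / r⌋ + 2 < e`: for every subgroup `S` with
a finite transversal fixing `ϖ` and `w` there is `y` in the trace dual of the integers of `L ^ S`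
with `r ^ 3 y ^ 2` NOT integral. -/
theorem s56kt_T5 (h : mzo_Ctx r O L A Γ) {e : ℕ} (he : 0 < e) (hve : A.valuation (e : L) = 1)
    {ϖ : L} (hϖ : ϖ ^ e = -(r : L)) {u w : L} (hu : ∀ σ : Γ, σ • ϖ = ϖ → σ • u = u) {i : ℕ}
    (hi : A.valuation (u - 1) = A.valuation ϖ ^ i) (hip : ¬ r ∣ i) (hi1 : i * (r - 1) < e * r)
    (hw : w ^ r = u) (hnum : 2 * (i * (r - 1) / r) + 2 < e)
    {S : Subgroup Γ} {R : Finset Γ} (hR : s56f_dc_IsTransversal S R)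
    (hSϖ : ∀ s ∈ S, s • ϖ = ϖ) (hSw : ∀ s ∈ S, s • w = w) :
    ∃ y : L, (∀ s ∈ S, s • y = y) ∧
      (∀ z ∈ A, (∀ s ∈ S, s • z = z) → ∑ r' ∈ R, r' • (y * z) ∈ A) ∧
      (r : L) ^ 3 * y ^ 2 ∉ A := by
  haveI := s56kt_finite_quot hR
  letI := Fintype.ofFinite (Γ ⧸ S)
  obtain ⟨θ, hθs, hθint, hθnum⟩ := s56kt_main (s56kt_setting_of_ctx h) he hve hϖ hu hi hip hi1 hw
    hnum (((1 : Γ) : Γ ⧸ S))
    (fun σ hσ => ⟨hSϖ σ (s56kt_stab_one σ hσ), hSw σ (s56kt_stab_one σ hσ)⟩)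
  obtain ⟨h1, h2⟩ := s56kt_quot_form h hR θ hθs hθint
  refine ⟨θ ((1 : Γ) : Γ ⧸ S), h1, h2, fun hmem => ?_⟩
  exact absurd ((ValuationSubring.valuation_le_one_iff A _).mpr hmem) (not_le.mpr hθnum)

/-- **(T5), level `0`, consumer form**: `v u = v ϖ ^ i`, `r ∤ i`, `w ^ r = u`: `r ^ 2 y ^ 2` is not
integral, and `r ^ 3 y ^ 2` is not integral if `2 ≤ e`. -/
theorem s56kt_T5_zero (h : mzo_Ctx r O L A Γ) {e : ℕ} (he : 0 < e)
    (hve : A.valuation (e : L) = 1)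
    {ϖ : L} (hϖ : ϖ ^ e = -(r : L)) {u w : L} (hu : ∀ σ : Γ, σ • ϖ = ϖ → σ • u = u) {i : ℕ}
    (hi : A.valuation u = A.valuation ϖ ^ i) (hip : ¬ r ∣ i) (hw : w ^ r = u)
    {S : Subgroup Γ} {R : Finset Γ} (hR : s56f_dc_IsTransversal S R)
    (hSϖ : ∀ s ∈ S, s • ϖ = ϖ) (hSw : ∀ s ∈ S, s • w = w) :
    ∃ y : L, (∀ s ∈ S, s • y = y) ∧
      (∀ z ∈ A, (∀ s ∈ S, s • z = z) → ∑ r' ∈ R, r' • (y * z) ∈ A) ∧
      (r : L) ^ 2 * y ^ 2 ∉ A ∧ (2 ≤ e → (r : L) ^ 3 * y ^ 2 ∉ A) := by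
  haveI := s56kt_finite_quot hR
  letI := Fintype.ofFinite (Γ ⧸ S)
  obtain ⟨θ, hθs, hθint, hθ2, hθ3⟩ := s56kt_root_main (s56kt_setting_of_ctx h) he hve hϖ hu hi hip
    hw (((1 : Γ) : Γ ⧸ S))
    (fun σ hσ => ⟨hSϖ σ (s56kt_stab_one σ hσ), hSw σ (s56kt_stab_one σ hσ)⟩)
  obtain ⟨h1, h2⟩ := s56kt_quot_form h hR θ hθs hθint
  refine ⟨θ ((1 : Γ) : Γ ⧸ S), h1, h2, fun hmem => ?_, fun he2 hmem => ?_⟩
  · exact absurd ((ValuationSubring.valuation_le_one_iff A _).mpr hmem) (not_le.mpr hθ2)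
  · exact absurd ((ValuationSubring.valuation_le_one_iff A _).mpr hmem) (not_le.mpr (hθ3 he2))

/-- `v (r ^ 2 - 1) = 1`. -/
theorem s56kt_val_e (h : mzo_Ctx r O L A Γ) : A.valuation (((r ^ 2 - 1 : ℕ)) : L) = 1 := by
  have hr1 : 1 ≤ r ^ 2 := Nat.one_le_pow _ _ h.r_prime.pos
  have hlt : A.valuation (r : L) < 1 := (ValuationSubring.mem_nonunits_iff (A := A)).mp h.r_mem
  rw [Nat.cast_sub hr1, Nat.cast_pow, Nat.cast_one]
  have h2 : A.valuation ((r : L) ^ 2) < A.valuation (1 : L) := by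
    rw [map_one, map_pow]
    exact pow_lt_one₀ zero_le hlt two_ne_zero
  rw [Valuation.map_sub_eq_of_lt_right _ h2, map_one]

/-- **(T5) for the supersingular case**: `e = r ^ 2 - 1`, `r ≠ 2`, level `2` or `r + 1`. -/
theorem s56kt_T5_ss (h : mzo_Ctx r O L A Γ) (hr2 : r ≠ 2)
    {ϖ : L} (hϖ : ϖ ^ (r ^ 2 - 1) = -(r : L)) {u w : L} (hu : ∀ σ : Γ, σ • ϖ = ϖ → σ • u = u)
    {i : ℕ} (hi : A.valuation (u - 1) = A.valuation ϖ ^ i) (hi2 : i = 2 ∨ i = r + 1)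
    (hw : w ^ r = u)
    {S : Subgroup Γ} {R : Finset Γ} (hR : s56f_dc_IsTransversal S R)
    (hSϖ : ∀ s ∈ S, s • ϖ = ϖ) (hSw : ∀ s ∈ S, s • w = w) :
    ∃ y : L, (∀ s ∈ S, s • y = y) ∧
      (∀ z ∈ A, (∀ s ∈ S, s • z = z) → ∑ r' ∈ R, r' • (y * z) ∈ A) ∧
      (r : L) ^ 3 * y ^ 2 ∉ A := by
  have hr3 : 3 ≤ r := by
    have := h.r_prime.two_le
    omega
  obtain ⟨q, rfl⟩ : ∃ q, r = q + 3 := ⟨r - 3, by omega⟩
  have he : (q + 3) ^ 2 - 1 = q ^ 2 + 6 * q + 8 := by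
    apply Nat.sub_eq_of_eq_add
    ring
  have hr1 : q + 3 - 1 = q + 2 := by omega
  have hpr := h.r_prime
  refine s56kt_T5 h (by rw [he]; omega) (s56kt_val_e h) hϖ hu hi ?_ ?_ hw ?_ hR hSϖ hSw
  · rcases hi2 with rfl | rfl
    · intro hd
      have := Nat.le_of_dvd (by omega) hd
      omega
    · intro hd
      have h1 : (q + 3) ∣ 1 := (Nat.dvd_add_right (dvd_refl (q + 3))).mp hd
      have := Nat.le_of_dvd (by omega) h1
      omega
  · rw [he, hr1]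
    rcases hi2 with rfl | rfl
    · nlinarith
    · nlinarith
  · rw [he, hr1]
    rcases hi2 with rfl | rfl
    · have h1 : 2 * (q + 2) / (q + 3) * (q + 3) ≤ 2 * (q + 2) := Nat.div_mul_le_self _ _
      have h2 : 2 * (q + 2) / (q + 3) ≤ 1 := by
        by_contra hc
        rw [not_le] at hc
        nlinarith
      nlinarith
    · have h1 : (q + 3 + 1) * (q + 2) / (q + 3) * (q + 3) ≤ (q + 3 + 1) * (q + 2) :=
        Nat.div_mul_le_self _ _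
      have h2 : (q + 3 + 1) * (q + 2) / (q + 3) ≤ q + 2 := by
        by_contra hc
        rw [not_le] at hc
        nlinarith
      nlinarith

/-- **the `e = 1` companion (PEU, `tres ramifie`)**: `u` fixed by `Γ`, `v u = v r ^ i`, `r ∤ i`,
`w ^ r = u`: `r ^ 2 y ^ 2` is not integral for some `y` in the trace dual of the integers of
`L ^ S`, for every `S` with a finite transversal fixing `w`. -/
theorem s56kt_T5_peu (h : mzo_Ctx r O L A Γ) {u w : L} (hu : ∀ σ : Γ, σ • u = u) {i : ℕ}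
    (hi : A.valuation u = A.valuation (r : L) ^ i) (hip : ¬ r ∣ i) (hw : w ^ r = u)
    {S : Subgroup Γ} {R : Finset Γ} (hR : s56f_dc_IsTransversal S R)
    (hSw : ∀ s ∈ S, s • w = w) :
    ∃ y : L, (∀ s ∈ S, s • y = y) ∧
      (∀ z ∈ A, (∀ s ∈ S, s • z = z) → ∑ r' ∈ R, r' • (y * z) ∈ A) ∧
      (r : L) ^ 2 * y ^ 2 ∉ A := by
  have hfix : ∀ σ : Γ, σ • (-(r : L)) = -(r : L) := fun σ => by
    rw [smul_neg, s56kt_smul_natCast]
  obtain ⟨y, h1, h2, h3, _⟩ := s56kt_T5_zero h (e := 1) one_pos (by rw [Nat.cast_one, map_one])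
    (ϖ := -(r : L)) (pow_one _) (fun σ _ => hu σ) (i := i)
    (by rw [hi, Valuation.map_neg]) hip hw hR (fun s _ => hfix s) hSw
  exact ⟨y, h1, h2, h3⟩

end Ctx

end Fermat.Agent.S56
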