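/-
S56, node [LOC-p-FLAT] / [S56-KUMT] (helper10): THE BRIDGE from helper3's Kummer lemmas
(`KumT/Val.lean`, `KumT/Tame.lean`, `KumT/Ctx.lean`) to the seams of `Flat/SSDefs.lean`:

* `s56ku_uniq : s56fs_Setting … → s56fs_Uniq_stmt …`  (uniqueness of level / leading coefficient);
* `s56ku_T5   : s56fs_Setting … → s56fs_T5_stmt …`    (levels `0`, `2`, `p + 1` have a big different);
* `s56ku_add  : s56fs_Setting … → s56ku_Add_stmt …`   (additivity, WITH `1 ≤ j`: the statement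
  `s56fs_Add_stmt` is false at `j = 0`).
Prefix `s56ku_`.
-/
import Mathlib
import Fermat.Agent.S56.Flat.SSDefs
import Fermat.Agent.S56.KumT.Ctx

set_option autoImplicit false
set_option linter.unusedSectionVars false

namespace Fermat.Agent.S56

open Fermat.Agent.MZ

section Basics

variable {p : ℕ} {O : Type} [CommRing O] [IsDomain O] [IsDiscreteValuationRing O]
  {L : Type} [Field L] [Algebra O L] {A : ValuationSubring L}
  {Γ : Type} [Group Γ] [MulSemiringAction Γ L] {T : Subgroup Γ} {ϖt ζ : L}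

theorem s56ku_setting (h : s56fs_Setting p O L A Γ T ϖt ζ) : s56kt_Setting A.valuation Γ p :=
  s56kt_setting_of_ctx h.hctx

theorem s56ku_e_pos (h : s56fs_Setting p O L A Γ T ϖt ζ) : 0 < p ^ 2 - 1 := by
  have h2 := h.hctx.r_prime.two_le
  have : 4 ≤ p ^ 2 := by nlinarith
  omega

theorem s56ku_val_lt (h : s56fs_Setting p O L A Γ T ϖt ζ) : A.valuation ϖt < 1 :=
  s56kt_val_pi_lt (s56ku_setting h) (s56ku_e_pos h) h.hϖ

theorem s56ku_val_pos (h : s56fs_Setting p O L A Γ T ϖt ζ) : 0 < A.valuation ϖt :=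
  s56kt_val_pi_pos (s56ku_setting h) (s56ku_e_pos h) h.hϖ

theorem s56ku_val_p (h : s56fs_Setting p O L A Γ T ϖt ζ) :
    A.valuation (p : L) = A.valuation ϖt ^ (p ^ 2 - 1) := by
  have := s56kt_val_pi_pow (s56ku_setting h) (s56ku_e_pos h) h.hϖ
  rw [pow_one] at this
  exact this.symm

/-- the value group of `K_t = L ^ T` is `v ϖt ^ ℤ`. -/
theorem s56ku_valT (h : s56fs_Setting p O L A Γ T ϖt ζ) {a : L} (ha : ∀ s ∈ T, s • a = a)
    (ha0 : a ≠ 0) : ∃ m : ℤ, A.valuation a = A.valuation ϖt ^ m :=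
  s56kt_tame_val (s56ku_setting h) (s56ku_e_pos h) h.hϖ a
    (fun σ hσ => ha σ ((h.hT σ).mpr hσ)) ha0

theorem s56ku_val_O (h : s56fs_Setting p O L A Γ T ϖt ζ) (x : O) :
    A.valuation (algebraMap O L x) ≤ 1 :=
  (A.valuation_le_one_iff _).mpr (h.hctx.mem_A x)

theorem s56ku_val_unit (h : s56fs_Setting p O L A Γ T ϖt ζ) {x : O} (hx : IsUnit x) :
    A.valuation (algebraMap O L x) = 1 := by
  refine le_antisymm (s56ku_val_O h x) ?_
  by_contra hlt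
  rw [not_le] at hlt
  have : algebraMap O L x ∈ A.nonunits := (ValuationSubring.mem_nonunits_iff (A := A)).mpr hlt
  exact (h.hctx.nonunit_iff x).mp this hx

/-- exponents: `v ϖt ^ m = v ϖt ^ n → m = n` (integers). -/
theorem s56ku_zpow_inj (h : s56fs_Setting p O L A Γ T ϖt ζ) {m n : ℤ}
    (hmn : A.valuation ϖt ^ m = A.valuation ϖt ^ n) : m = n :=
  zpow_right_injective₀ (s56ku_val_pos h) (s56ku_val_lt h).ne hmn

/-- a `p`-th power in `K_t` has valuation `v ϖt ^ m` with `p ∣ m`. -/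
theorem s56ku_pow_dvd (h : s56fs_Setting p O L A Γ T ϖt ζ) {a : L} (ha : ∀ s ∈ T, s • a = a)
    (ha0 : a ≠ 0) {m : ℕ} (hm : A.valuation a ^ p = A.valuation ϖt ^ m) : p ∣ m := by
  obtain ⟨n, hn⟩ := s56ku_valT h ha ha0
  rw [hn, ← zpow_natCast, ← zpow_mul, ← zpow_natCast (A.valuation ϖt) m] at hm
  have h1 := s56ku_zpow_inj h hm
  have h2 : (p : ℤ) ∣ (m : ℤ) := ⟨n, by rw [← h1]; ring⟩
  exact Int.natCast_dvd_natCast.mp h2

/-- **the core**: no `t ∈ K_t` has `v (t ^ p - 1) = v ϖt ^ j` with `p ∤ j`, `j < p² + p`. -/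
theorem s56ku_core (h : s56fs_Setting p O L A Γ T ϖt ζ) {t : L} (ht : ∀ s ∈ T, s • t = t)
    {j : ℕ} (hj : ¬ p ∣ j) (hjlt : j < p ^ 2 + p)
    (hv : A.valuation (t ^ p - 1) = A.valuation ϖt ^ j) : False := by
  have hpr := h.hctx.r_prime
  have hpos := s56ku_val_pos h
  have hlt := s56ku_val_lt h
  have hbig : A.valuation (p : L) ^ p < A.valuation (t ^ p - 1) ^ (p - 1) := by
    rw [hv, s56ku_val_p h, ← pow_mul, ← pow_mul]
    apply pow_lt_pow_right_of_lt_one₀ hpos hlt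
    obtain ⟨q, rfl⟩ : ∃ q, p = q + 2 := ⟨p - 2, by have := hpr.two_le; omega⟩
    have he : (q + 2) ^ 2 - 1 = q ^ 2 + 4 * q + 3 := by
      apply Nat.sub_eq_of_eq_add
      ring
    have h1 : q + 2 - 1 = q + 1 := by omega
    rw [he, h1]
    nlinarith
  have h1 := s56kt_val_root A.valuation hpr t (t ^ p) rfl hbig
  rw [hv] at h1
  have ht1 : t - 1 ≠ 0 := by
    intro h0
    rw [h0, map_zero, zero_pow hpr.ne_zero] at h1
    exact (pow_pos hpos j).ne h1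
  have ht1T : ∀ s ∈ T, s • (t - 1) = t - 1 := fun s hs => by
    rw [smul_sub, ht s hs, smul_one]
  exact hj (s56ku_pow_dvd h ht1T ht1 h1)

/-- `v (u - 1 - a) < c`, `v a ≤ c`, `c < 1` ⟹ `v (u - 1) ≤ c` and `v u = 1`. -/
theorem s56ku_nf_unit {u a : L} {c : A.ValueGroup} (hc : c < 1)
    (hlt : A.valuation (u - 1 - a) < c) (hva : A.valuation a ≤ c) :
    A.valuation (u - 1) ≤ c ∧ A.valuation u = 1 := by
  have h1 : A.valuation (u - 1) ≤ c := by
    have : u - 1 = (u - 1 - a) + a := by ring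
    rw [this]
    exact le_trans (A.valuation.map_add _ _) (max_le hlt.le hva)
  refine ⟨h1, ?_⟩
  have h2 : u = (u - 1) + 1 := by ring
  rw [h2]
  have h3 : A.valuation (u - 1) < A.valuation (1 : L) := by
    rw [map_one]; exact lt_of_le_of_lt h1 hc
  rw [Valuation.map_add_eq_of_lt_right _ h3, map_one]

/-- leading coefficient a unit ⟹ `v (u - 1) = v ϖt ^ j` exactly. -/
theorem s56ku_nf_val (h : s56fs_Setting p O L A Γ T ϖt ζ) {u : L} {x : O} (hx : IsUnit x) {j : ℕ}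
    (hlt : A.valuation (u - 1 - algebraMap O L x * ϖt ^ j) < A.valuation ϖt ^ j) :
    A.valuation (u - 1) = A.valuation ϖt ^ j := by
  have hva : A.valuation (algebraMap O L x * ϖt ^ j) = A.valuation ϖt ^ j := by
    rw [map_mul, map_pow, s56ku_val_unit h hx, one_mul]
  have : u - 1 = (u - 1 - algebraMap O L x * ϖt ^ j) + algebraMap O L x * ϖt ^ j := by ring
  rw [this, Valuation.map_add_eq_of_lt_right _ (by rw [hva]; exact hlt), hva]

theorem s56ku_val_a (h : s56fs_Setting p O L A Γ T ϖt ζ) (x : O) (j : ℕ) :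
    A.valuation (algebraMap O L x * ϖt ^ j) ≤ A.valuation ϖt ^ j := by
  rw [map_mul, map_pow]
  exact mul_le_of_le_one_left zero_le (s56ku_val_O h x)

theorem s56ku_pow_lt_one (h : s56fs_Setting p O L A Γ T ϖt ζ) {j : ℕ} (hj : 1 ≤ j) :
    A.valuation ϖt ^ j < 1 :=
  pow_lt_one₀ zero_le (s56ku_val_lt h) (by omega)

/-- quotient of two `T`-fixed elements. -/
theorem s56ku_fix_div {z z' : L} (hz : ∀ s ∈ T, s • z = z) (hz' : ∀ s ∈ T, s • z' = z') :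
    ∀ s ∈ T, s • (z' * z⁻¹) = z' * z⁻¹ := fun s hs => by
  rw [smul_mul', smul_inv'', hz s hs, hz' s hs]

theorem s56ku_pow_split {w z z' : L} (hz0 : z ≠ 0) (n : ℕ) :
    (w * z') ^ n = (w * z) ^ n * (z' * z⁻¹) ^ n := by
  rw [← mul_pow]
  congr 1
  field_simp

/-- **(UNIQ)(i)** -/
theorem s56ku_uniq1 (h : s56fs_Setting p O L A Γ T ϖt ζ) {w : L} {j j' : ℕ} {x x' : O}
    (hN : s56fs_NF A p T ϖt w j x) (hN' : s56fs_NF A p T ϖt w j' x') (hx' : IsUnit x')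
    (hj1 : 1 ≤ j') (hjlt : j' < p ^ 2 + p) (hpj : ¬ p ∣ j') (hle : j' ≤ j) :
    j = j' ∧ ¬ IsUnit (x - x') := by
  obtain ⟨z, hz0, hzT, hlt⟩ := hN
  obtain ⟨z', hz0', hzT', hlt'⟩ := hN'
  have hlt1 := s56ku_val_lt h
  have hpos := s56ku_val_pos h
  have hcj : A.valuation ϖt ^ j ≤ A.valuation ϖt ^ j' := pow_le_pow_of_le_one zero_le hlt1.le hle
  have hcj1 : A.valuation ϖt ^ j' < 1 := s56ku_pow_lt_one h hj1
  obtain ⟨hu1, hvu⟩ := s56ku_nf_unit (lt_of_le_of_lt hcj hcj1) hlt (s56ku_val_a h x j)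
  have hsplit := s56ku_pow_split (w := w) (z' := z') hz0 p
  have htT := s56ku_fix_div hzT hzT'
  -- the key: `v (a' - a) = c ^ j'` is impossible
  have key : A.valuation (algebraMap O L x' * ϖt ^ j' - algebraMap O L x * ϖt ^ j)
      = A.valuation ϖt ^ j' → False := by
    intro hD
    apply s56ku_core h htT hpj hjlt
    have hu0 : (w * z) ^ p ≠ 0 := by
      intro h0
      rw [h0, map_zero] at hvu
      exact zero_ne_one hvu
    have h1 : (z' * z⁻¹) ^ p - 1 = ((w * z') ^ p - (w * z) ^ p) * ((w * z) ^ p)⁻¹ := by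
      rw [hsplit, sub_mul, mul_inv_cancel₀ hu0, mul_comm ((w * z) ^ p) ((z' * z⁻¹) ^ p),
        mul_assoc, mul_inv_cancel₀ hu0, mul_one]
    rw [h1, map_mul, map_inv₀, hvu, inv_one, mul_one]
    have h2 : (w * z') ^ p - (w * z) ^ p
        = (((w * z') ^ p - 1 - algebraMap O L x' * ϖt ^ j')
            - ((w * z) ^ p - 1 - algebraMap O L x * ϖt ^ j))
          + (algebraMap O L x' * ϖt ^ j' - algebraMap O L x * ϖt ^ j) := by ring
    rw [h2]
    have h3 : A.valuation (((w * z') ^ p - 1 - algebraMap O L x' * ϖt ^ j')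
            - ((w * z) ^ p - 1 - algebraMap O L x * ϖt ^ j)) < A.valuation ϖt ^ j' :=
      lt_of_le_of_lt (A.valuation.map_sub _ _) (max_lt hlt' (lt_of_lt_of_le hlt hcj))
    rw [Valuation.map_add_eq_of_lt_right _ (by rw [hD]; exact h3), hD]
  have hjj : j = j' := by
    by_contra hne
    have hlt2 : j' < j := lt_of_le_of_ne hle (Ne.symm hne)
    apply key
    have ha' : A.valuation (algebraMap O L x' * ϖt ^ j') = A.valuation ϖt ^ j' := by
      rw [map_mul, map_pow, s56ku_val_unit h hx', one_mul]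
    have ha : A.valuation (algebraMap O L x * ϖt ^ j) < A.valuation ϖt ^ j' :=
      lt_of_le_of_lt (s56ku_val_a h x j) (pow_lt_pow_right_of_lt_one₀ hpos hlt1 hlt2)
    rw [Valuation.map_sub_eq_of_lt_left _ (by rw [ha']; exact ha), ha']
  refine ⟨hjj, fun hunit => ?_⟩
  subst hjj
  apply key
  have h1 : algebraMap O L x' * ϖt ^ j - algebraMap O L x * ϖt ^ j
      = algebraMap O L (-(x - x')) * ϖt ^ j := by
    rw [map_neg, map_sub]; ring
  rw [h1, map_mul, map_pow, s56ku_val_unit h hunit.neg, one_mul]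

/-- **(UNIQ)(ii)** -/
theorem s56ku_uniq2 (h : s56fs_Setting p O L A Γ T ϖt ζ) {w : L} {j : ℕ} {x : O} (hj : 1 ≤ j)
    (hN : s56fs_NF A p T ϖt w j x) : ¬ s56fs_NF0 A p T ϖt w := by
  rintro ⟨z', hz0', hzT', m, hpm, hv⟩
  obtain ⟨z, hz0, hzT, hlt⟩ := hN
  obtain ⟨-, hvu⟩ := s56ku_nf_unit (s56ku_pow_lt_one h hj) hlt (s56ku_val_a h x j)
  rw [s56ku_pow_split (w := w) (z' := z') hz0 p, map_mul, hvu, one_mul, map_pow] at hv
  have ht0 : z' * z⁻¹ ≠ 0 := mul_ne_zero hz0' (inv_ne_zero hz0)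
  exact hpm (s56ku_pow_dvd h (s56ku_fix_div hzT hzT') ht0 hv)

/-- **(UNIQ)(iii)** -/
theorem s56ku_uniq3 (h : s56fs_Setting p O L A Γ T ϖt ζ) {w : L} {a : Γ → ZMod p}
    (hrad : s56fs_IsRad p T ζ w a) (ha : ∀ s ∈ T, a s = 0) : ¬ s56fs_NF0 A p T ϖt w := by
  rintro ⟨z', hz0', hzT', m, hpm, hv⟩
  have hwT : ∀ s ∈ T, s • w = w := fun s hs => by
    rw [hrad.2 s hs, ha s hs]
    have : NeZero p := ⟨h.hctx.r_prime.ne_zero⟩
    rw [ZMod.val_zero, pow_zero, one_mul]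
  rw [map_pow] at hv
  have hfix : ∀ s ∈ T, s • (w * z') = w * z' := fun s hs => by
    rw [smul_mul', hwT s hs, hzT' s hs]
  exact hpm (s56ku_pow_dvd h hfix (mul_ne_zero hrad.1 hz0') hv)

/-- **(UNIQ)**, in the shape of `Flat/SSDefs.lean`. -/
theorem s56ku_uniq (h : s56fs_Setting p O L A Γ T ϖt ζ) : s56fs_Uniq_stmt p O L A Γ T ϖt ζ :=
  ⟨fun _ _ _ _ _ _ _ hN hN' hx' hj1 hjlt hpj hle => s56ku_uniq1 h hN hN' hx' hj1 hjlt hpj hle,
    fun _ _ _ _ _ hj hN => s56ku_uniq2 h hj hN,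
    fun _ _ hrad ha => s56ku_uniq3 h hrad ha⟩

/-! ### (T5) -/

/-- `(w z) ^ p` lies in `K_t` for a radical `w` and `z ∈ K_t`. -/
theorem s56ku_rad_pow_fixed (h : s56fs_Setting p O L A Γ T ϖt ζ) {w : L} {a : Γ → ZMod p}
    (hrad : s56fs_IsRad p T ζ w a) {z : L} (hz : ∀ s ∈ T, s • z = z) (σ : Γ)
    (hσ : σ • ϖt = ϖt) : σ • (w * z) ^ p = (w * z) ^ p := by
  have hσT := (h.hT σ).mpr hσ
  rw [smul_pow', smul_mul', hrad.2 σ hσT, hz σ hσT, mul_assoc, mul_pow, ← pow_mul,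
    mul_comm _ p, pow_mul, h.hζ.pow_eq_one, one_pow, one_mul]

/-- **(T5)**, in the shape of `Flat/SSDefs.lean`. -/
theorem s56ku_T5 (h : s56fs_Setting p O L A Γ T ϖt ζ) : s56fs_T5_stmt p O L A Γ T ϖt ζ := by
  intro w a hrad hcase S R hR hST hSw
  have hSϖ : ∀ s ∈ S, s • ϖt = ϖt := fun s hs => (h.hT s).mp (hST hs)
  have hSwz : ∀ z : L, (∀ s ∈ T, s • z = z) → ∀ s ∈ S, s • (w * z) = w * z := fun z hz s hs => by
    rw [smul_mul', hSw s hs, hz s (hST hs)]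
  have he2 : 2 ≤ p ^ 2 - 1 := by
    have h2 := h.hctx.r_prime.two_le
    have : 4 ≤ p ^ 2 := by nlinarith
    omega
  rcases hcase with ⟨z, hz0, hzT, m, hpm, hv⟩ | ⟨x, hx, z, hz0, hzT, hlt⟩ | ⟨x, hx, z, hz0, hzT, hlt⟩
  · obtain ⟨y, h1, h2, -, h3⟩ := s56kt_T5_zero h.hctx (s56ku_e_pos h) (s56kt_val_e h.hctx) h.hϖ
      (s56ku_rad_pow_fixed h hrad hzT) hv hpm rfl hR hSϖ (hSwz z hzT)
    exact ⟨y, ⟨h1, h2⟩, h3 he2⟩
  · obtain ⟨y, h1, h2, h3⟩ := s56kt_T5_ss h.hctx h.hp2 h.hϖ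
      (s56ku_rad_pow_fixed h hrad hzT) (s56ku_nf_val h hx hlt) (Or.inl rfl) rfl hR hSϖ (hSwz z hzT)
    exact ⟨y, ⟨h1, h2⟩, h3⟩
  · obtain ⟨y, h1, h2, h3⟩ := s56kt_T5_ss h.hctx h.hp2 h.hϖ
      (s56ku_rad_pow_fixed h hrad hzT) (s56ku_nf_val h hx hlt) (Or.inr rfl) rfl hR hSϖ (hSwz z hzT)
    exact ⟨y, ⟨h1, h2⟩, h3⟩

/-! ### (ADD), with `1 ≤ j` -/

/-- **(ADD)** with the hypothesis `1 ≤ j` (the statement `s56fs_Add_stmt` is false at `j = 0`). -/
def s56ku_Add_stmt (p : ℕ) (O : Type) [CommRing O] (L : Type) [Field L] [Algebra O L]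
    (A : ValuationSubring L) (Γ : Type) [Group Γ] [MulSemiringAction Γ L]
    (T : Subgroup Γ) (ϖt : L) : Prop :=
  (∀ (w w' : L) (j : ℕ) (x x' : O), 1 ≤ j → s56fs_NF A p T ϖt w j x → s56fs_NF A p T ϖt w' j x' →
    s56fs_NF A p T ϖt (w * w') j (x + x')) ∧
  (∀ (w : L) (j : ℕ) (x : O), 1 ≤ j → w ≠ 0 → s56fs_NF A p T ϖt w j x →
    s56fs_NF A p T ϖt w⁻¹ j (-x))

theorem s56ku_add1 (h : s56fs_Setting p O L A Γ T ϖt ζ) {w w' : L} {j : ℕ} {x x' : O} (hj : 1 ≤ j)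
    (hN : s56fs_NF A p T ϖt w j x) (hN' : s56fs_NF A p T ϖt w' j x') :
    s56fs_NF A p T ϖt (w * w') j (x + x') := by
  obtain ⟨z, hz0, hzT, hlt⟩ := hN
  obtain ⟨z', hz0', hzT', hlt'⟩ := hN'
  refine ⟨z * z', mul_ne_zero hz0 hz0', fun s hs => by rw [smul_mul', hzT s hs, hzT' s hs], ?_⟩
  have hc1 := s56ku_pow_lt_one h hj
  have hpos : 0 < A.valuation ϖt ^ j := pow_pos (s56ku_val_pos h) j
  obtain ⟨hu1, hvu⟩ := s56ku_nf_unit hc1 hlt (s56ku_val_a h x j)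
  obtain ⟨hu1', hvu'⟩ := s56ku_nf_unit hc1 hlt' (s56ku_val_a h x' j)
  obtain ⟨u, hu⟩ : ∃ u, u = (w * z) ^ p := ⟨_, rfl⟩
  obtain ⟨u', hu'⟩ : ∃ u', u' = (w' * z') ^ p := ⟨_, rfl⟩
  obtain ⟨a, ha⟩ : ∃ a, a = algebraMap O L x * ϖt ^ j := ⟨_, rfl⟩
  obtain ⟨a', ha'⟩ : ∃ a', a' = algebraMap O L x' * ϖt ^ j := ⟨_, rfl⟩
  have hva : A.valuation a ≤ A.valuation ϖt ^ j := ha ▸ s56ku_val_a h x j
  have hva' : A.valuation a' ≤ A.valuation ϖt ^ j := ha' ▸ s56ku_val_a h x' j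
  rw [← hu] at hlt hu1 hvu
  rw [← ha] at hlt
  rw [← hu'] at hlt' hu1' hvu'
  rw [← ha'] at hlt'
  have hid : (w * w' * (z * z')) ^ p - 1 - algebraMap O L (x + x') * ϖt ^ j
      = (u - 1 - a) * u' + (1 + a) * (u' - 1 - a') + a * a' := by
    rw [hu, hu', ha, ha', map_add]; ring
  rw [hid]
  have h1a : A.valuation (1 + a) ≤ 1 := by
    refine le_trans (A.valuation.map_add _ _) (max_le (by rw [map_one]) ?_)
    exact le_trans hva hc1.le
  have t1 : A.valuation ((u - 1 - a) * u') < A.valuation ϖt ^ j := by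
    rw [map_mul, hvu', mul_one]; exact hlt
  have t2 : A.valuation ((1 + a) * (u' - 1 - a')) < A.valuation ϖt ^ j := by
    rw [map_mul]
    exact lt_of_le_of_lt (mul_le_of_le_one_left zero_le h1a) hlt'
  have t3 : A.valuation (a * a') < A.valuation ϖt ^ j := by
    rw [map_mul]
    calc A.valuation a * A.valuation a' ≤ A.valuation ϖt ^ j * A.valuation ϖt ^ j :=
          mul_le_mul' hva hva'
      _ < A.valuation ϖt ^ j := mul_lt_of_lt_one_left hpos hc1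
  exact lt_of_le_of_lt (A.valuation.map_add _ _) (max_lt
    (lt_of_le_of_lt (A.valuation.map_add _ _) (max_lt t1 t2)) t3)

theorem s56ku_add2 (h : s56fs_Setting p O L A Γ T ϖt ζ) {w : L} {j : ℕ} {x : O} (hj : 1 ≤ j)
    (hN : s56fs_NF A p T ϖt w j x) : s56fs_NF A p T ϖt w⁻¹ j (-x) := by
  obtain ⟨z, hz0, hzT, hlt⟩ := hN
  refine ⟨z⁻¹, inv_ne_zero hz0, fun s hs => by rw [smul_inv'', hzT s hs], ?_⟩
  have hc1 := s56ku_pow_lt_one h hj
  have hpos : 0 < A.valuation ϖt ^ j := pow_pos (s56ku_val_pos h) j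
  obtain ⟨hu1, hvu⟩ := s56ku_nf_unit hc1 hlt (s56ku_val_a h x j)
  obtain ⟨u, hu⟩ : ∃ u, u = (w * z) ^ p := ⟨_, rfl⟩
  obtain ⟨a, ha⟩ : ∃ a, a = algebraMap O L x * ϖt ^ j := ⟨_, rfl⟩
  have hva : A.valuation a ≤ A.valuation ϖt ^ j := ha ▸ s56ku_val_a h x j
  rw [← hu] at hlt hu1 hvu
  rw [← ha] at hlt
  have hu0 : u ≠ 0 := by
    intro h0
    rw [h0, map_zero] at hvu
    exact zero_ne_one hvu
  have hid : (w⁻¹ * z⁻¹) ^ p - 1 - algebraMap O L (-x) * ϖt ^ j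
      = (-(u - 1 - a) + a * (u - 1)) * u⁻¹ := by
    have : (w⁻¹ * z⁻¹) ^ p = u⁻¹ := by rw [hu, ← mul_inv, inv_pow]
    rw [this, map_neg, neg_mul, ← ha]
    field_simp
    ring
  rw [hid, map_mul, map_inv₀, hvu, inv_one, mul_one]
  have t1 : A.valuation (-(u - 1 - a)) < A.valuation ϖt ^ j := by
    rw [Valuation.map_neg]; exact hlt
  have t2 : A.valuation (a * (u - 1)) < A.valuation ϖt ^ j := by
    rw [map_mul]
    calc A.valuation a * A.valuation (u - 1) ≤ A.valuation ϖt ^ j * A.valuation ϖt ^ j :=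
          mul_le_mul' hva hu1
      _ < A.valuation ϖt ^ j := mul_lt_of_lt_one_left hpos hc1
  exact lt_of_le_of_lt (A.valuation.map_add _ _) (max_lt t1 t2)

/-- **(ADD)** with `1 ≤ j`. -/
theorem s56ku_add (h : s56fs_Setting p O L A Γ T ϖt ζ) : s56ku_Add_stmt p O L A Γ T ϖt :=
  ⟨fun _ _ _ _ _ hj hN hN' => s56ku_add1 h hj hN hN', fun _ _ _ hj _ hN => s56ku_add2 h hj hN⟩

end Basics

end Fermat.Agent.S56
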