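/-
S56, node [S56-KUMT] (helper3): THE SEAM `s56fs_KNF_stmt` of `Flat/SSDefs.lean` (helper27), i.e.
existence of the Kummer normal form of a radical over `K_t = L^T`, from `s56fs_Setting`.

* `s56kt_res_of_setting` : the residue-field hypotheses `s56kt_Res` of `Knf.lean`;
* `s56kt_knf`            : `s56fs_Setting p O L A Γ T ϖt ζ → s56fs_KNF_stmt p O L A Γ T ϖt ζ`.
Prefix `s56kt_`.
-/
import Mathlib
import Fermat.Agent.S56.Flat.SSDefs
import Fermat.Agent.S56.KumT.Ctx
import Fermat.Agent.S56.KumT.Knf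

set_option autoImplicit false
set_option linter.unusedSectionVars false

namespace Fermat.Agent.S56

open Fermat.Agent.MZ

section KnfSeam

variable {p : ℕ} {O : Type} [CommRing O] [IsDomain O] [IsDiscreteValuationRing O]
  {L : Type} [Field L] [Algebra O L] {A : ValuationSubring L}
  {Γ : Type} [Group Γ] [MulSemiringAction Γ L] {T : Subgroup Γ} {ϖt ζ : L}

theorem s56kt_res_of_setting (h : s56fs_Setting p O L A Γ T ϖt ζ) :
    s56kt_Res A.valuation Γ p where
  lt := by
    intro σ a ha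
    have haA : a ∈ A := (ValuationSubring.valuation_le_one_iff A a).mp ha.le
    have h1 := (ValuationSubring.mem_nonunits_iff (A := A)).mp (h.hctx.inert σ a haA)
    have : σ • a = a + (σ • a - a) := by ring
    rw [this]
    exact Valuation.map_add_lt _ ha h1
  res := by
    intro a ha
    have haA : a ∈ A := (ValuationSubring.valuation_le_one_iff A a).mp ha
    obtain ⟨o, ho⟩ := h.hctx.res_full a haA
    exact ⟨algebraMap O L o, h.hctx.fixed o, (ValuationSubring.mem_nonunits_iff (A := A)).mp ho⟩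
  perf := by
    intro o' hfix hle
    have hoA : o' ∈ A := (ValuationSubring.valuation_le_one_iff A o').mp hle
    obtain ⟨x, rfl⟩ := h.hctx.exists_of_fixed hoA hfix
    obtain ⟨y, hy⟩ := h.hperf x
    refine ⟨algebraMap O L y, h.hctx.fixed y, ?_⟩
    have := (ValuationSubring.mem_nonunits_iff (A := A)).mp hy
    have e : algebraMap O L (y ^ p - x) = algebraMap O L y ^ p - algebraMap O L x := by
      rw [map_sub, map_pow]
    rwa [e] at this
  as := by
    intro o' hfix hle
    have hoA : o' ∈ A := (ValuationSubring.valuation_le_one_iff A o').mp hle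
    obtain ⟨x, rfl⟩ := h.hctx.exists_of_fixed hoA hfix
    have h1 : algebraMap O L (1 : O) ∉ A.nonunits := by
      rw [h.hctx.nonunit_iff]
      exact not_not.mpr isUnit_one
    obtain ⟨y, hy⟩ := h.hAS 1 x h1
    refine ⟨algebraMap O L y, h.hctx.fixed y, ?_⟩
    have := (ValuationSubring.mem_nonunits_iff (A := A)).mp hy
    have e : algebraMap O L (y ^ p - 1 * y - x) =
        algebraMap O L y ^ p - algebraMap O L y - algebraMap O L x := by
      rw [one_mul, map_sub, map_sub, map_pow]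
    rwa [e] at this

/-- **the seam (KNF)**. -/
theorem s56kt_knf (h : s56fs_Setting p O L A Γ T ϖt ζ) : s56fs_KNF_stmt p O L A Γ T ϖt ζ := by
  intro w a hrad
  obtain ⟨hw0, hw⟩ := hrad
  have hS := s56kt_setting_of_ctx h.hctx
  have hR := s56kt_res_of_setting h
  have hp := h.hctx.r_prime
  have : NeZero p := ⟨hp.ne_zero⟩
  have hp2 : 2 ≤ p := hp.two_le
  have he : 0 < p ^ 2 - 1 := by
    have : 2 ^ 2 ≤ p ^ 2 := Nat.pow_le_pow_left hp2 2
    omega
  have hTK : ∀ {z : L}, s56kt_Kt Γ ϖt z → ∀ s ∈ T, s • z = z :=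
    fun hz s hs => hz s ((h.hT s).mp hs)
  have hζK : s56kt_Kt Γ ϖt ζ := fun σ hσ => h.hζT σ ((h.hT σ).mpr hσ)
  have hwK : s56kt_Kt Γ ϖt (w ^ p) := by
    intro σ hσ
    rw [smul_pow', hw σ ((h.hT σ).mpr hσ), mul_pow, ← pow_mul, mul_comm (a σ).val p, pow_mul,
      h.hζ.pow_eq_one, one_pow, one_mul]
  obtain ⟨z, hzK, hz0, hcases⟩ := s56kt_knf_exists hS he h.hϖ hR h.hζ hζK hw0 hwK
  rcases hcases with h1 | ⟨i, hpi, hval⟩ | ⟨j, hj0, hpj, hjlt, hval⟩
  · -- trivial
    left
    intro s hs
    have hwfix : s • w = w := by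
      have h2 : w = w * z * z⁻¹ := by rw [mul_assoc, mul_inv_cancel₀ hz0, mul_one]
      rw [h2, smul_mul', hTK h1 s hs, smul_inv'', hTK hzK s hs]
    have h3 := hw s hs
    rw [hwfix] at h3
    have h4 : ζ ^ (a s).val = 1 := by
      have : ζ ^ (a s).val * w = 1 * w := by rw [one_mul]; exact h3.symm
      exact mul_right_cancel₀ hw0 this
    have h5 : p ∣ (a s).val := (h.hζ.pow_eq_one_iff_dvd _).mp h4
    have h6 : (a s).val = 0 := Nat.eq_zero_of_dvd_of_lt h5 (ZMod.val_lt _)
    exact (ZMod.val_eq_zero _).mp h6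
  · right; left
    exact ⟨z, hz0, fun s hs => hTK hzK s hs, i, hpi, hval⟩
  · right; right
    have hπ0 : ϖt ≠ 0 := s56kt_pi_ne_zero hS he h.hϖ
    have hP0 : ϖt ^ j ≠ 0 := pow_ne_zero _ hπ0
    have hcpos : 0 < A.valuation ϖt ^ j := by
      rw [← map_pow, Valuation.pos_iff]; exact hP0
    set a' := ((w * z) ^ p - 1) / ϖt ^ j with ha'
    have hva' : A.valuation a' = 1 := by
      rw [ha', map_div₀, hval, map_pow, div_self hcpos.ne']
    have ha'A : a' ∈ A := (ValuationSubring.valuation_le_one_iff A a').mp hva'.le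
    obtain ⟨x, hx⟩ := h.hctx.res_full a' ha'A
    have hxlt := (ValuationSubring.mem_nonunits_iff (A := A)).mp hx
    have hxunit : IsUnit x := by
      by_contra hnu
      have h1 := (ValuationSubring.mem_nonunits_iff (A := A)).mp ((h.hctx.nonunit_iff x).mpr hnu)
      have h2 : a' = (a' - algebraMap O L x) + algebraMap O L x := by ring
      have h3 : A.valuation a' < 1 := by
        rw [h2]; exact Valuation.map_add_lt _ hxlt h1
      rw [hva'] at h3
      exact lt_irrefl _ h3
    refine ⟨j, x, hj0, ?_, hpj, hxunit, z, hz0, fun s hs => hTK hzK s hs, ?_⟩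
    · -- `j < p ^ 2 + p`
      obtain ⟨q, rfl⟩ : ∃ q, p = q + 2 := ⟨p - 2, by omega⟩
      have h1 : (q + 2) ^ 2 - 1 = (q + 1) * (q + 3) := by
        apply Nat.sub_eq_of_eq_add; ring
      rw [h1, show q + 2 - 1 = q + 1 by omega] at hjlt
      have h2 : j * (q + 1) < (q + 2) ^ 2 * (q + 1) + (q + 2) * (q + 1) := by nlinarith
      have h3 : j * (q + 1) < ((q + 2) ^ 2 + (q + 2)) * (q + 1) := by nlinarith
      exact Nat.lt_of_mul_lt_mul_right h3
    · have h1 : (w * z) ^ p - 1 - algebraMap O L x * ϖt ^ j = (a' - algebraMap O L x) * ϖt ^ j := by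
        rw [ha']; field_simp
      rw [h1, map_mul, map_pow]
      exact mul_lt_of_lt_one_left hcpos hxlt

end KnfSeam

end Fermat.Agent.S56
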