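/-
S56, node [LOC-p-FLAT] / [S56-KUMT] (helper10): `s56fs_Add_stmt` (the version with `1 ≤ j` of
`Flat/SSDefs.lean`) VERBATIM, from `KumT/Uniq.lean`.  Prefix `s56ku_`.
-/
import Mathlib
import Fermat.Agent.S56.KumT.Uniq

set_option autoImplicit false
set_option linter.unusedSectionVars false

namespace Fermat.Agent.S56

open Fermat.Agent.MZ

variable {p : ℕ} {O : Type} [CommRing O] [IsDomain O] [IsDiscreteValuationRing O]
  {L : Type} [Field L] [Algebra O L] {A : ValuationSubring L}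
  {Γ : Type} [Group Γ] [MulSemiringAction Γ L] {T : Subgroup Γ} {ϖt ζ : L}

/-- **(ADD)**, in the shape of `Flat/SSDefs.lean`. -/
theorem s56ku_add_stmt (h : s56fs_Setting p O L A Γ T ϖt ζ) : s56fs_Add_stmt p O L A Γ T ϖt :=
  ⟨fun _ _ _ _ _ hj hN hN' => s56ku_add1 h hj hN hN', fun _ _ _ hj _ hN => s56ku_add2 h hj hN⟩

end Fermat.Agent.S56
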