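/-
S56, node [S56-KUMT] (helper3), file (KNF-1): `p`-th roots of unity and the binomial expansion in a
valued field.  Mathlib only.

* `s56kt_val_root_of_unity` : `η ^ p = 1 → v η = 1`;
* `s56kt_val_zeta_sub_one`  : `η ^ p = 1`, `η ≠ 1`, `ζ` primitive: `v (η - 1) = v (ζ - 1)`;
* `s56kt_val_zeta_pow`      : `v (ζ - 1) ^ (p - 1) = v p`;
* `s56kt_binom`             : `v Y ≤ 1 → ∃ s, v s ≤ 1 ∧ (1 + Y) ^ p = 1 + Y ^ p + p Y + p Y ^ 2 s`;
* `s56kt_closest_root`      : `β ^ p` deep (`v (β ^ p - 1) ^ (p - 1) < v p ^ p`) ⟹ some `μ β`,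
  `μ ^ p = 1`, has `v (μ β - 1) < v (ζ - 1)`.
Prefix `s56kt_`.
-/
import Mathlib

set_option autoImplicit false
set_option linter.unusedSectionVars false

open Polynomial

namespace Fermat.Agent.S56

section Zeta

variable {L : Type*} [Field L] {Γ₀ : Type*} [LinearOrderedCommGroupWithZero Γ₀]
  (v : Valuation L Γ₀)

theorem s56kt_val_root_of_unity {n : ℕ} (hn : n ≠ 0) {η : L} (hη : η ^ n = 1) : v η = 1 := by
  have h1 : v η ^ n = 1 := by rw [← map_pow, hη, map_one]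
  rcases lt_trichotomy (v η) 1 with h | h | h
  · exact absurd h1 (pow_lt_one₀ zero_le h hn).ne
  · exact h
  · exact absurd h1 (one_lt_pow₀ h hn).ne'

/-- `v (η ^ k - 1) ≤ v (η - 1)` for a unit `η`. -/
theorem s56kt_val_pow_sub_one_le {η : L} (hη : v η = 1) (k : ℕ) : v (η ^ k - 1) ≤ v (η - 1) := by
  rw [← geom_sum_mul, map_mul]
  have h1 : v (∑ i ∈ Finset.range k, η ^ i) ≤ 1 :=
    Valuation.map_sum_le v fun i _ => by rw [map_pow, hη, one_pow]
  exact mul_le_of_le_one_left zero_le h1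

/-- all `p`-th roots of unity `≠ 1` have the same distance to `1`. -/
theorem s56kt_val_zeta_sub_one {p : ℕ} (hp : p.Prime) {ζ η : L} (hζ : IsPrimitiveRoot ζ p)
    (hη : η ^ p = 1) (hη1 : η ≠ 1) : v (η - 1) = v (ζ - 1) := by
  have : NeZero p := ⟨hp.ne_zero⟩
  have hvζ : v ζ = 1 := s56kt_val_root_of_unity v hp.ne_zero hζ.pow_eq_one
  have hvη : v η = 1 := s56kt_val_root_of_unity v hp.ne_zero hη
  obtain ⟨k, hkp, rfl⟩ := hζ.eq_pow_of_pow_eq_one hη
  apply le_antisymm (s56kt_val_pow_sub_one_le v hvζ k)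
  -- `ζ = (ζ ^ k) ^ m`
  have hk0 : k ≠ 0 := by
    rintro rfl
    exact hη1 (pow_zero ζ)
  have hcop : Nat.Coprime k p :=
    (Nat.Prime.coprime_iff_not_dvd hp).mpr (fun hd => hk0 (Nat.eq_zero_of_dvd_of_lt hd hkp)) |>.symm
  obtain ⟨m, -, hm⟩ := Nat.exists_mul_mod_eq_one_of_coprime hcop hp.one_lt
  have h1 : (ζ ^ k) ^ m = ζ := by
    rw [← pow_mul, ← Nat.div_add_mod (k * m) p, hm, pow_add, pow_mul, hζ.pow_eq_one, one_pow,
      one_mul, pow_one]
  calc v (ζ - 1) = v ((ζ ^ k) ^ m - 1) := by rw [h1]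
    _ ≤ v (ζ ^ k - 1) := s56kt_val_pow_sub_one_le v hvη m

/-- `v (ζ - 1) ^ (p - 1) = v p`. -/
theorem s56kt_val_zeta_pow {p : ℕ} (hp : p.Prime) {ζ : L} (hζ : IsPrimitiveRoot ζ p) :
    v (ζ - 1) ^ (p - 1) = v (p : L) := by
  obtain ⟨n, rfl⟩ : ∃ n, p = n + 1 := ⟨p - 1, by have := hp.pos; omega⟩
  have h1 := hζ.prod_one_sub_pow_eq_order
  have h2 : v (∏ k ∈ Finset.range n, (1 - ζ ^ (k + 1))) = v (ζ - 1) ^ n := by
    rw [map_prod]
    rw [Finset.prod_eq_pow_card (b := v (ζ - 1))]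
    · rw [Finset.card_range]
    · intro k hk
      rw [Finset.mem_range] at hk
      rw [← Valuation.map_neg, neg_sub]
      apply s56kt_val_zeta_sub_one v hp hζ
      · rw [← pow_mul, mul_comm, pow_mul, hζ.pow_eq_one, one_pow]
      · intro h
        have := hζ.dvd_of_pow_eq_one _ h
        have := Nat.le_of_dvd (by omega) this
        omega
  rw [Nat.add_sub_cancel, ← h2, h1]
  push_cast
  rfl

/-- **binomial expansion**: `(1 + Y) ^ p = 1 + Y ^ p + p Y + p Y ^ 2 s` with `s` integral. -/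
theorem s56kt_binom {p : ℕ} (hp : p.Prime) {Y : L} (hY : v Y ≤ 1) :
    ∃ s : L, v s ≤ 1 ∧ (1 + Y) ^ p = 1 + Y ^ p + (p : L) * Y + (p : L) * Y ^ 2 * s := by
  obtain ⟨q, rfl⟩ : ∃ q, p = q + 2 := ⟨p - 2, by have := hp.two_le; omega⟩
  refine ⟨∑ m ∈ Finset.range q, Y ^ m * (((q + 2).choose (m + 2) / (q + 2) : ℕ) : L), ?_, ?_⟩
  · refine Valuation.map_sum_le v fun m _ => ?_
    rw [map_mul, map_pow]
    have h1 : v Y ^ m ≤ 1 := pow_le_one₀ zero_le hY
    have h2 : v ((((q + 2).choose (m + 2) / (q + 2) : ℕ)) : L) ≤ 1 := by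
      have := natCast_mem (v.integer) ((q + 2).choose (m + 2) / (q + 2))
      exact this
    exact mul_le_one₀ h1 zero_le h2
  · rw [add_comm 1 Y, add_pow, Finset.sum_range_succ, Finset.sum_range_succ', Finset.sum_range_succ']
    simp only [one_pow, mul_one, pow_zero, Nat.choose_zero_right, Nat.cast_one, Nat.choose_self,
      zero_add, pow_one, Nat.choose_one_right, Nat.sub_self]
    have hterm : ∀ m ∈ Finset.range q, Y ^ (m + 1 + 1) * (((q + 2).choose (m + 1 + 1) : ℕ) : L) =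
        ((q + 2 : ℕ) : L) * Y ^ 2 * (Y ^ m * (((q + 2).choose (m + 2) / (q + 2) : ℕ) : L)) := by
      intro m hm
      rw [Finset.mem_range] at hm
      have hdvd : (q + 2) ∣ (q + 2).choose (m + 2) :=
        hp.dvd_choose_self (by omega) (by omega)
      obtain ⟨c, hc⟩ := hdvd
      have hdiv : (q + 2).choose (m + 2) / (q + 2) = c := by
        rw [hc, Nat.mul_div_cancel_left _ (by omega)]
      rw [hdiv, show m + 1 + 1 = m + 2 by ring, hc]
      push_cast
      ring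
    rw [Finset.sum_congr rfl hterm, ← Finset.mul_sum]
    push_cast
    ring

/-- **the root closest to `1`**: if `β ^ p` is deep, some `μ β` (`μ ^ p = 1`) is closer to `1` than
`ζ`. -/
theorem s56kt_closest_root {p : ℕ} (hp : p.Prime) {ζ : L} (hζ : IsPrimitiveRoot ζ p) (β : L)
    (hdeep : v (β ^ p - 1) ^ (p - 1) < v (p : L) ^ p) :
    ∃ μ : L, μ ^ p = 1 ∧ v (μ * β - 1) < v (ζ - 1) := by
  by_contra hcon
  push Not at hcon
  have hprod := hζ.pow_sub_pow_eq_prod_sub_mul (1 : L) β hp.pos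
  rw [one_pow] at hprod
  have hcard : (nthRootsFinset p (1 : L)).card = p := hζ.card_nthRootsFinset
  have h1 : v (ζ - 1) ^ p ≤ v (1 - β ^ p) := by
    rw [hprod, map_prod]
    have h0 : v (ζ - 1) ^ p = v (ζ - 1) ^ (nthRootsFinset p (1 : L)).card := by rw [hcard]
    rw [h0]
    apply Finset.pow_card_le_prod
    intro μ hμ
    have hμ1 : μ ^ p = 1 := (mem_nthRootsFinset hp.pos 1).mp hμ
    have := hcon μ hμ1
    rwa [← Valuation.map_neg v (μ * β - 1), neg_sub] at this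
  have h2 : v (1 - β ^ p) = v (β ^ p - 1) := by rw [← Valuation.map_neg, neg_sub]
  rw [h2] at h1
  have h3 : (v (ζ - 1) ^ p) ^ (p - 1) ≤ v (β ^ p - 1) ^ (p - 1) := pow_le_pow_left₀ zero_le h1 _
  rw [← pow_mul, mul_comm, pow_mul, s56kt_val_zeta_pow v hp hζ] at h3
  exact absurd (lt_of_le_of_lt h3 hdeep) (lt_irrefl _)

end Zeta

end Fermat.Agent.S56
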