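/-
S56, node [S56-KUMT] (helper3), file (KNF-2): EXISTENCE OF THE KUMMER NORMAL FORM over
`K_t = L ^ Stab(π)`, `π ^ e = -p`, in the abstract valued-field setting of `Tame.lean`.

Extra hypotheses `s56kt_Res v Γ p` (all true for `mzo_Ctx` + perfect residue field + Artin–Schreier):
`Γ` preserves `{v < 1}`; every integral element is congruent to a `Γ`-fixed one; `p`-th roots and
Artin–Schreier roots exist among the `Γ`-fixed elements modulo `{v < 1}`.

* `s56kt_Kt Γ π a` : `a ∈ K_t` (fixed by `Stab(π)`);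
* `s56kt_knf_deep` : `β ^ p ∈ K_t` deep (`v (β ^ p - 1) ≤ v π ^ j`, `j (p - 1) > e p`) ⟹ `β ∈ K_t`;
* `s56kt_knf_step` : at a level `j = p i` with `i (p - 1) ≤ e` the level can be improved by a
  `p`-th power of `K_t`;
* `s56kt_knf_exists` : **(KNF-EX)** for `β ≠ 0` with `β ^ p ∈ K_t` there is `z ∈ K_t^×` with
  `β z ∈ K_t`, or `v ((β z) ^ p) = v π ^ i` (`p ∤ i`), or `v ((β z) ^ p - 1) = v π ^ j`
  (`0 < j`, `p ∤ j`, `j (p - 1) < e p`).
Prefix `s56kt_`.
-/
import Fermat.Agent.S56.KumT.Tame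
import Fermat.Agent.S56.KumT.Zeta

set_option autoImplicit false
set_option linter.unusedSectionVars false

open Polynomial

namespace Fermat.Agent.S56

section Knf

variable {L : Type*} [Field L] {Γ₀ : Type*} [LinearOrderedCommGroupWithZero Γ₀]
  {v : Valuation L Γ₀} {Γ : Type*} [Group Γ] [MulSemiringAction Γ L] {p : ℕ}

/-- `a ∈ K_t = L ^ Stab(π)`. -/
def s56kt_Kt (Γ : Type*) [Group Γ] [MulSemiringAction Γ L] (π a : L) : Prop :=
  ∀ σ : Γ, σ • π = π → σ • a = a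

theorem s56kt_Kt_of_fixed {π a : L} (ha : ∀ σ : Γ, σ • a = a) : s56kt_Kt Γ π a := fun σ _ => ha σ

theorem s56kt_Kt_pi (π : L) : s56kt_Kt Γ π π := fun _ h => h

theorem s56kt_Kt_one (π : L) : s56kt_Kt Γ π 1 := fun σ _ => smul_one σ

theorem s56kt_Kt_mul {π a b : L} (ha : s56kt_Kt Γ π a) (hb : s56kt_Kt Γ π b) :
    s56kt_Kt Γ π (a * b) := fun σ h => by rw [smul_mul', ha σ h, hb σ h]

theorem s56kt_Kt_add {π a b : L} (ha : s56kt_Kt Γ π a) (hb : s56kt_Kt Γ π b) :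
    s56kt_Kt Γ π (a + b) := fun σ h => by rw [smul_add, ha σ h, hb σ h]

theorem s56kt_Kt_sub {π a b : L} (ha : s56kt_Kt Γ π a) (hb : s56kt_Kt Γ π b) :
    s56kt_Kt Γ π (a - b) := fun σ h => by rw [smul_sub, ha σ h, hb σ h]

theorem s56kt_Kt_inv {π a : L} (ha : s56kt_Kt Γ π a) : s56kt_Kt Γ π a⁻¹ :=
  fun σ h => by rw [smul_inv'', ha σ h]

theorem s56kt_Kt_div {π a b : L} (ha : s56kt_Kt Γ π a) (hb : s56kt_Kt Γ π b) :
    s56kt_Kt Γ π (a / b) := by
  rw [div_eq_mul_inv]; exact s56kt_Kt_mul ha (s56kt_Kt_inv hb)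

theorem s56kt_Kt_pow {π a : L} (ha : s56kt_Kt Γ π a) (n : ℕ) : s56kt_Kt Γ π (a ^ n) :=
  fun σ h => by rw [smul_pow', ha σ h]

theorem s56kt_Kt_zpow {π a : L} (ha : s56kt_Kt Γ π a) (n : ℤ) : s56kt_Kt Γ π (a ^ n) := by
  cases n with
  | ofNat n => rw [Int.ofNat_eq_natCast, zpow_natCast]; exact s56kt_Kt_pow ha n
  | negSucc n => rw [zpow_negSucc]; exact s56kt_Kt_inv (s56kt_Kt_pow ha _)

/-- the residue-field hypotheses. -/
structure s56kt_Res (v : Valuation L Γ₀) (Γ : Type*) [Group Γ] [MulSemiringAction Γ L] (p : ℕ) :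
    Prop where
  lt : ∀ (σ : Γ) (a : L), v a < 1 → v (σ • a) < 1
  res : ∀ a : L, v a ≤ 1 → ∃ o : L, (∀ σ : Γ, σ • o = o) ∧ v (a - o) < 1
  perf : ∀ o : L, (∀ σ : Γ, σ • o = o) → v o ≤ 1 →
    ∃ y : L, (∀ σ : Γ, σ • y = y) ∧ v (y ^ p - o) < 1
  as : ∀ o : L, (∀ σ : Γ, σ • o = o) → v o ≤ 1 →
    ∃ y : L, (∀ σ : Γ, σ • y = y) ∧ v (y ^ p - y - o) < 1

section Setting

variable (hS : s56kt_Setting v Γ p) {e : ℕ} (he : 0 < e) {π : L} (hπ : π ^ e = -(p : L))

include hS he hπ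

/-- the value group step: an element of `K_t` smaller than `v π ^ j` is `≤ v π ^ (j + 1)`. -/
theorem s56kt_Kt_val_succ {a : L} (ha : s56kt_Kt Γ π a) {j : ℕ} (hlt : v a < v π ^ j) :
    v a ≤ v π ^ (j + 1) := by
  by_cases ha0 : a = 0
  · rw [ha0, map_zero]; exact zero_le
  obtain ⟨m, hm⟩ := s56kt_tame_val hS he hπ a ha ha0
  have hpos := s56kt_val_pi_pos hS he hπ
  have hlt1 := s56kt_val_pi_lt hS he hπ
  rw [hm, ← zpow_natCast, zpow_lt_zpow_iff_right_of_lt_one₀ hpos hlt1] at hlt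
  rw [hm, ← zpow_natCast, zpow_le_zpow_iff_right_of_lt_one₀ hpos hlt1]
  push_cast
  omega

/-- **deep elements are `p`-th powers**: the root closest to `1` is fixed by `Stab(π)`. -/
theorem s56kt_knf_deep (hR : s56kt_Res v Γ p) {ζ : L} (hζ : IsPrimitiveRoot ζ p)
    (hζK : s56kt_Kt Γ π ζ) {β : L} (hβ0 : β ≠ 0) (hβ : s56kt_Kt Γ π (β ^ p)) {j : ℕ}
    (hj : e * p < j * (p - 1)) (hle : v (β ^ p - 1) ≤ v π ^ j) : s56kt_Kt Γ π β := by
  have hp := hS.hp
  have : NeZero p := ⟨hp.ne_zero⟩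
  have hpos := s56kt_val_pi_pos hS he hπ
  have hlt1 := s56kt_val_pi_lt hS he hπ
  have hp1 := s56kt_val_pi_pow hS he hπ
  rw [pow_one] at hp1
  have hdeep : v (β ^ p - 1) ^ (p - 1) < v (p : L) ^ p := by
    calc v (β ^ p - 1) ^ (p - 1) ≤ (v π ^ j) ^ (p - 1) := pow_le_pow_left₀ zero_le hle _
      _ = v π ^ (j * (p - 1)) := by rw [← pow_mul]
      _ < v π ^ (e * p) := pow_lt_pow_right_of_lt_one₀ hpos hlt1 hj
      _ = v (p : L) ^ p := by rw [pow_mul, hp1]
  obtain ⟨μ, hμ, hclose⟩ := s56kt_closest_root v hp hζ β hdeep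
  obtain ⟨k, _, rfl⟩ := hζ.eq_pow_of_pow_eq_one hμ
  have hμK : s56kt_Kt Γ π (ζ ^ k) := s56kt_Kt_pow hζK k
  have hμ0 : ζ ^ k ≠ 0 := pow_ne_zero _ (hζ.ne_zero hp.ne_zero)
  set β' := ζ ^ k * β with hβ'
  have hβ'0 : β' ≠ 0 := mul_ne_zero hμ0 hβ0
  have hζ1 : ζ ≠ 1 := hζ.ne_one hp.one_lt
  have hvζ : 0 < v (ζ - 1) := by
    rw [Valuation.pos_iff]; exact sub_ne_zero.mpr hζ1
  -- `β'` is fixed
  have hfix : s56kt_Kt Γ π β' := by
    intro σ hσ
    by_contra hne
    set η := σ • β' / β' with hη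
    have hηp : η ^ p = 1 := by
      rw [hη, div_pow, ← smul_pow', hβ', mul_pow, hμ, one_mul, hβ σ hσ]
      exact div_self (pow_ne_zero _ hβ0)
    have hη1 : η ≠ 1 := by
      intro h1
      apply hne
      rw [hη, div_eq_one_iff_eq hβ'0] at h1
      exact h1
    have hvη : v (η - 1) = v (ζ - 1) := s56kt_val_zeta_sub_one v hp hζ hηp hη1
    have hvη1 : v η = 1 := s56kt_val_root_of_unity v hp.ne_zero hηp
    have hσβ : σ • β' - 1 = η * (β' - 1) + (η - 1) := by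
      rw [hη]; field_simp; ring
    have hval : v (σ • β' - 1) = v (ζ - 1) := by
      rw [hσβ, ← hvη]
      apply Valuation.map_add_eq_of_lt_right
      rw [map_mul, hvη1, one_mul, hvη]
      exact hclose
    -- the quotient `(β' - 1) / (ζ - 1)`
    have hc : v ((β' - 1) / (ζ - 1)) < 1 := by
      rw [map_div₀, div_lt_one₀ hvζ]
      exact hclose
    have h1 := hR.lt σ _ hc
    rw [smul_div₀', smul_sub, smul_sub, smul_one, hζK σ hσ, map_div₀, hval,
      div_self hvζ.ne'] at h1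
    exact lt_irrefl _ h1
  -- hence `β = (ζ ^ k)⁻¹ β'`
  have : β = (ζ ^ k)⁻¹ * β' := by
    rw [hβ', ← mul_assoc, inv_mul_cancel₀ hμ0, one_mul]
  rw [this]
  exact s56kt_Kt_mul (s56kt_Kt_inv hμK) hfix

end Setting

/-- integrality of a solution of `y ^ p ≡ o`. -/
theorem s56kt_int_of_perf {o y : L} (ho : v o ≤ 1) (hp0 : p ≠ 0) (hy : v (y ^ p - o) < 1) :
    v y ≤ 1 := by
  by_contra hcon
  rw [not_le] at hcon
  have h1 : 1 < v (y ^ p) := by rw [map_pow]; exact one_lt_pow₀ hcon hp0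
  have h2 : v (y ^ p - o) = v (y ^ p) :=
    Valuation.map_sub_eq_of_lt_left v (lt_of_le_of_lt ho h1)
  rw [h2] at hy
  exact absurd (lt_trans hy h1) (lt_irrefl _)

/-- integrality of a solution of `y ^ p - y ≡ o`. -/
theorem s56kt_int_of_as {o y : L} (ho : v o ≤ 1) (hp1 : 1 < p) (hy : v (y ^ p - y - o) < 1) :
    v y ≤ 1 := by
  by_contra hcon
  rw [not_le] at hcon
  have h0 : v y < v (y ^ p) := by
    rw [map_pow]
    calc v y = v y ^ 1 := (pow_one _).symm
      _ < v y ^ p := pow_lt_pow_right₀ hcon hp1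
  have h1 : 1 < v (y ^ p) := lt_trans hcon h0
  have h2 : v (y ^ p - y) = v (y ^ p) := Valuation.map_sub_eq_of_lt_left v h0
  have h3 : v (y ^ p - y - o) = v (y ^ p - y) :=
    Valuation.map_sub_eq_of_lt_left v (by rw [h2]; exact lt_of_le_of_lt ho h1)
  rw [h3, h2] at hy
  exact absurd (lt_trans hy h1) (lt_irrefl _)

section Setting2

variable (hS : s56kt_Setting v Γ p) {e : ℕ} (he : 0 < e) {π : L} (hπ : π ^ e = -(p : L))

include hS he hπ

/-- **the improvement step** at a level `p i` with `i (p - 1) ≤ e`. -/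
theorem s56kt_knf_step (hR : s56kt_Res v Γ p) {x : L} {i : ℕ} (hi : 0 < i)
    (hie : i * (p - 1) ≤ e) (hval : v (x - 1) = v π ^ (p * i)) :
    ∃ z : L, s56kt_Kt Γ π z ∧ v z = 1 ∧ v (x * z ^ p - 1) < v π ^ (p * i) := by
  have hp := hS.hp
  have hp2 : 2 ≤ p := hp.two_le
  have hpos := s56kt_val_pi_pos hS he hπ
  have hlt1 := s56kt_val_pi_lt hS he hπ
  have hp1 := s56kt_val_pi_pow hS he hπ
  rw [pow_one] at hp1
  have hπ0 := s56kt_pi_ne_zero hS he hπ
  set P := π ^ (p * i) with hP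
  have hP0 : P ≠ 0 := pow_ne_zero _ hπ0
  have hcpos : 0 < v P := by rw [Valuation.pos_iff]; exact hP0
  have hvP : v P = v π ^ (p * i) := by rw [hP, map_pow]
  set a := (x - 1) / P with ha
  have haP : a * P = x - 1 := by rw [ha, div_mul_cancel₀ _ hP0]
  have hva : v a = 1 := by rw [ha, map_div₀, hval, hvP, div_self (pow_ne_zero _ hpos.ne')]
  obtain ⟨o, hofix, hao⟩ := hR.res a hva.le
  have hvo : v o ≤ 1 := by
    have : o = a - (a - o) := by ring
    rw [this]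
    exact le_trans (Valuation.map_sub v _ _) (max_le hva.le hao.le)
  have hvno : v (-o) ≤ 1 := by rwa [Valuation.map_neg]
  have hnofix : ∀ σ : Γ, σ • (-o) = -o := fun σ => by rw [smul_neg, hofix σ]
  -- the common part, given `y`
  have hmain : ∀ y : L, (∀ σ : Γ, σ • y = y) → v y ≤ 1 →
      ((i * (p - 1) < e ∧ v (y ^ p - -o) < 1) ∨ (i * (p - 1) = e ∧ v (y ^ p - y - -o) < 1)) →
      ∃ z : L, s56kt_Kt Γ π z ∧ v z = 1 ∧ v (x * z ^ p - 1) < v π ^ (p * i) := by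
    intro y hyfix hvy hcase
    set Y := y * π ^ i with hY
    have hvπi : v π ^ i < 1 := pow_lt_one₀ zero_le hlt1 hi.ne'
    have hvY : v Y ≤ v π ^ i := by
      rw [hY, map_mul, map_pow]
      exact mul_le_of_le_one_left zero_le hvy
    have hvY1 : v Y < 1 := lt_of_le_of_lt hvY hvπi
    obtain ⟨s, hvs, hbin⟩ := s56kt_binom v hp hvY1.le
    have hYp : Y ^ p = y ^ p * P := by rw [hY, mul_pow, ← pow_mul, hP, mul_comm i p]
    refine ⟨1 + Y, ?_, ?_, ?_⟩
    · exact s56kt_Kt_add (s56kt_Kt_one π)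
        (s56kt_Kt_mul (s56kt_Kt_of_fixed hyfix) (s56kt_Kt_pow (s56kt_Kt_pi π) i))
    · have := Valuation.map_add_eq_of_lt_left v (x := (1 : L)) (y := Y) (by rwa [map_one])
      rw [this, map_one]
    · -- valuations of the pieces
      have hvp : v (p : L) = v π ^ e := hp1.symm
      have hvpY : v ((p : L) * Y) ≤ v π ^ (e + i) := by
        rw [map_mul, hvp, pow_add]
        exact mul_le_mul_right hvY _
      have hvpY1 : v ((p : L) * Y) < 1 :=
        lt_of_le_of_lt hvpY (pow_lt_one₀ zero_le hlt1 (by omega))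
      have hvYp : v (Y ^ p) < 1 := by
        rw [map_pow]; exact pow_lt_one₀ zero_le hvY1 hp.ne_zero
      have hvpY2 : v ((p : L) * Y ^ 2 * s) ≤ v ((p : L) * Y) * v Y := by
        have : (p : L) * Y ^ 2 * s = (p : L) * Y * Y * s := by ring
        rw [this, map_mul, map_mul v ((p : L) * Y) Y]
        exact mul_le_of_le_one_right zero_le hvs
      have hvpY2' : v ((p : L) * Y ^ 2 * s) < 1 :=
        lt_of_le_of_lt hvpY2 (mul_lt_one_of_nonneg_of_lt_one_left zero_le hvpY1 hvY1.le)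
      have hZ1 : v ((1 + Y) ^ p - 1) < 1 := by
        have : (1 + Y) ^ p - 1 = Y ^ p + (p : L) * Y + (p : L) * Y ^ 2 * s := by
          rw [hbin]; ring
        rw [this]
        exact Valuation.map_add_lt v (Valuation.map_add_lt v hvYp hvpY1) hvpY2'
      have hT4 : v ((x - 1) * ((1 + Y) ^ p - 1)) < v π ^ (p * i) := by
        rw [map_mul, hval]
        exact mul_lt_of_lt_one_right (pow_pos hpos _) hZ1
      rcases hcase with ⟨hlt, hy⟩ | ⟨heq, hy⟩
      · -- case A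
        have hE : x * (1 + Y) ^ p - 1 = (a + y ^ p) * P + ((p : L) * Y + (p : L) * Y ^ 2 * s) +
            (x - 1) * ((1 + Y) ^ p - 1) := by
          linear_combination (-1 : L) * haP + x * hbin - x * hbin + hbin + hYp
        rw [hE]
        have hT1 : v ((a + y ^ p) * P) < v π ^ (p * i) := by
          rw [map_mul, hvP]
          apply mul_lt_of_lt_one_left (pow_pos hpos _)
          have : a + y ^ p = (a - o) + (y ^ p - -o) := by ring
          rw [this]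
          exact Valuation.map_add_lt v hao hy
        have hei : p * i < e + i := by
          have : p * i = i * (p - 1) + i := by
            obtain ⟨q, rfl⟩ : ∃ q, p = q + 1 := ⟨p - 1, by omega⟩
            rw [Nat.add_sub_cancel]; ring
          omega
        have hT2 : v ((p : L) * Y) < v π ^ (p * i) :=
          lt_of_le_of_lt hvpY (pow_lt_pow_right_of_lt_one₀ hpos hlt1 hei)
        have hT3 : v ((p : L) * Y ^ 2 * s) < v π ^ (p * i) :=
          lt_of_le_of_lt (le_trans hvpY2 (mul_le_of_le_one_right zero_le hvY1.le)) hT2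
        exact Valuation.map_add_lt v (Valuation.map_add_lt v hT1 (Valuation.map_add_lt v hT2 hT3))
          hT4
      · -- case B
        have hei : e + i = p * i := by
          have : p * i = i * (p - 1) + i := by
            obtain ⟨q, rfl⟩ : ∃ q, p = q + 1 := ⟨p - 1, by omega⟩
            rw [Nat.add_sub_cancel]; ring
          omega
        have hpY : (p : L) * Y = -(y * P) := by
          have h1 : (p : L) = -(π ^ e) := by rw [hπ, neg_neg]
          rw [h1, hY, hP, ← hei, pow_add]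
          ring
        have hE : x * (1 + Y) ^ p - 1 = (a + y ^ p - y) * P + (p : L) * Y ^ 2 * s +
            (x - 1) * ((1 + Y) ^ p - 1) := by
          linear_combination (-1 : L) * haP + hbin + hYp + hpY
        rw [hE]
        have hT1 : v ((a + y ^ p - y) * P) < v π ^ (p * i) := by
          rw [map_mul, hvP]
          apply mul_lt_of_lt_one_left (pow_pos hpos _)
          have : a + y ^ p - y = (a - o) + (y ^ p - y - -o) := by ring
          rw [this]
          exact Valuation.map_add_lt v hao hy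
        have hT3 : v ((p : L) * Y ^ 2 * s) < v π ^ (p * i) := by
          refine lt_of_le_of_lt hvpY2 ?_
          rw [← hei]
          calc v ((p : L) * Y) * v Y ≤ v π ^ (e + i) * v Y := mul_le_mul_left hvpY _
            _ < v π ^ (e + i) := mul_lt_of_lt_one_right (pow_pos hpos _) hvY1
        exact Valuation.map_add_lt v (Valuation.map_add_lt v hT1 hT3) hT4
  rcases Nat.lt_or_ge (i * (p - 1)) e with hlt | hge
  · obtain ⟨y, hyfix, hy⟩ := hR.perf (-o) hnofix hvno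
    exact hmain y hyfix (s56kt_int_of_perf hvno hp.ne_zero hy) (Or.inl ⟨hlt, hy⟩)
  · obtain ⟨y, hyfix, hy⟩ := hR.as (-o) hnofix hvno
    exact hmain y hyfix (s56kt_int_of_as hvno hp.one_lt hy) (Or.inr ⟨le_antisymm hie hge, hy⟩)

end Setting2

section Setting3

variable (hS : s56kt_Setting v Γ p) {e : ℕ} (he : 0 < e) {π : L} (hπ : π ^ e = -(p : L))

include hS he hπ

/-- the iteration over the principal units. -/
theorem s56kt_knf_iter (hR : s56kt_Res v Γ p) {ζ : L} (hζ : IsPrimitiveRoot ζ p)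
    (hζK : s56kt_Kt Γ π ζ) : ∀ (d j : ℕ), j + d = e * p + 1 → 0 < j → ∀ β : L, β ≠ 0 →
      s56kt_Kt Γ π (β ^ p) → v (β ^ p - 1) ≤ v π ^ j →
      ∃ z : L, s56kt_Kt Γ π z ∧ z ≠ 0 ∧ (s56kt_Kt Γ π (β * z) ∨
        ∃ j' : ℕ, 0 < j' ∧ ¬ p ∣ j' ∧ j' * (p - 1) < e * p ∧ v ((β * z) ^ p - 1) = v π ^ j') := by
  have hp := hS.hp
  have hp2 : 2 ≤ p := hp.two_le
  intro d
  induction d with
  | zero =>
    intro j hj _ β hβ0 hβ hle
    refine ⟨1, s56kt_Kt_one π, one_ne_zero, Or.inl ?_⟩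
    rw [mul_one]
    refine s56kt_knf_deep hS he hπ hR hζ hζK hβ0 hβ (j := j) ?_ hle
    have : j = e * p + 1 := by omega
    rw [this]
    have h1 : 1 ≤ p - 1 := by omega
    calc e * p < (e * p + 1) * 1 := by omega
      _ ≤ (e * p + 1) * (p - 1) := Nat.mul_le_mul_left _ h1
  | succ d ih =>
    intro j hj hj0 β hβ0 hβ hle
    by_cases hdeep : e * p < j * (p - 1)
    · refine ⟨1, s56kt_Kt_one π, one_ne_zero, Or.inl ?_⟩
      rw [mul_one]
      exact s56kt_knf_deep hS he hπ hR hζ hζK hβ0 hβ hdeep hle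
    rw [not_lt] at hdeep
    have hK1 : s56kt_Kt Γ π (β ^ p - 1) := s56kt_Kt_sub hβ (s56kt_Kt_one π)
    rcases lt_or_eq_of_le hle with hlt | heq
    · exact ih (j + 1) (by omega) (by omega) β hβ0 hβ (s56kt_Kt_val_succ hS he hπ hK1 hlt)
    by_cases hpj : p ∣ j
    · obtain ⟨i, rfl⟩ := hpj
      have hi : 0 < i := Nat.pos_of_mul_pos_left hj0 |> fun h => by
        rcases Nat.eq_zero_or_pos i with h0 | h0
        · rw [h0, mul_zero] at hj0; exact absurd hj0 (lt_irrefl _)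
        · exact h0
      have hie : i * (p - 1) ≤ e := by
        have : p * (i * (p - 1)) ≤ p * e := by
          calc p * (i * (p - 1)) = p * i * (p - 1) := by ring
            _ ≤ e * p := hdeep
            _ = p * e := by ring
        exact Nat.le_of_mul_le_mul_left this hp.pos
      obtain ⟨z₁, hz₁K, hvz₁, hz₁⟩ := s56kt_knf_step hS he hπ hR hi hie heq
      have hz₁0 : z₁ ≠ 0 := by
        intro h0
        rw [h0, map_zero] at hvz₁
        exact zero_ne_one hvz₁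
      have hpow : (β * z₁) ^ p = β ^ p * z₁ ^ p := mul_pow _ _ _
      have hK2 : s56kt_Kt Γ π ((β * z₁) ^ p) := by
        rw [hpow]; exact s56kt_Kt_mul hβ (s56kt_Kt_pow hz₁K p)
      have hK3 : s56kt_Kt Γ π ((β * z₁) ^ p - 1) := s56kt_Kt_sub hK2 (s56kt_Kt_one π)
      have hlt' : v ((β * z₁) ^ p - 1) < v π ^ (p * i) := by rw [hpow]; exact hz₁
      obtain ⟨z₂, hz₂K, hz₂0, hz₂⟩ := ih (p * i + 1) (by omega) (by omega) (β * z₁)
        (mul_ne_zero hβ0 hz₁0) hK2 (s56kt_Kt_val_succ hS he hπ hK3 hlt')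
      refine ⟨z₁ * z₂, s56kt_Kt_mul hz₁K hz₂K, mul_ne_zero hz₁0 hz₂0, ?_⟩
      rw [← mul_assoc]
      exact hz₂
    · refine ⟨1, s56kt_Kt_one π, one_ne_zero, Or.inr ⟨j, hj0, hpj, ?_, ?_⟩⟩
      · rcases lt_or_eq_of_le hdeep with h | h
        · exact h
        · exfalso
          have h1 : p ∣ j * (p - 1) := ⟨e, by rw [h]; ring⟩
          rcases (Nat.Prime.dvd_mul hp).mp h1 with h2 | h2
          · exact hpj h2
          · have := Nat.le_of_dvd (by omega) h2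
            omega
      · rw [mul_one]; exact heq

/-- **(KNF-EX)**: existence of the Kummer normal form of a radical `β` over `K_t`. -/
theorem s56kt_knf_exists (hR : s56kt_Res v Γ p) {ζ : L} (hζ : IsPrimitiveRoot ζ p)
    (hζK : s56kt_Kt Γ π ζ) {β : L} (hβ0 : β ≠ 0) (hβ : s56kt_Kt Γ π (β ^ p)) :
    ∃ z : L, s56kt_Kt Γ π z ∧ z ≠ 0 ∧ (s56kt_Kt Γ π (β * z) ∨
      (∃ i : ℕ, ¬ p ∣ i ∧ v ((β * z) ^ p) = v π ^ i) ∨
      ∃ j : ℕ, 0 < j ∧ ¬ p ∣ j ∧ j * (p - 1) < e * p ∧ v ((β * z) ^ p - 1) = v π ^ j) := by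
  have hp := hS.hp
  have hp0 : (0 : ℤ) < p := by exact_mod_cast hp.pos
  have hpos := s56kt_val_pi_pos hS he hπ
  have hlt1 := s56kt_val_pi_lt hS he hπ
  have hπ0 := s56kt_pi_ne_zero hS he hπ
  have hu0 : β ^ p ≠ 0 := pow_ne_zero _ hβ0
  obtain ⟨n, hn⟩ := s56kt_tame_val hS he hπ (β ^ p) hβ hu0
  -- step A: the valuation
  set q := n / (p : ℤ) with hq
  set r := n % (p : ℤ) with hr
  have hr0 : 0 ≤ r := Int.emod_nonneg _ hp0.ne'
  have hrp : r < p := Int.emod_lt_of_pos _ hp0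
  have hnqr : n = p * q + r := (Int.mul_ediv_add_emod n p).symm
  set z₁ := π ^ (-q) with hz₁
  have hz₁0 : z₁ ≠ 0 := zpow_ne_zero _ hπ0
  have hz₁K : s56kt_Kt Γ π z₁ := s56kt_Kt_zpow (s56kt_Kt_pi π) _
  have hval₁ : v ((β * z₁) ^ p) = v π ^ r := by
    rw [mul_pow, map_mul, hn, hz₁, ← zpow_natCast (π ^ (-q)) p, ← zpow_mul, map_zpow₀,
      ← zpow_add₀ hpos.ne']
    congr 1
    rw [hnqr]; ring
  have hK₁ : s56kt_Kt Γ π ((β * z₁) ^ p) := by
    rw [mul_pow]; exact s56kt_Kt_mul hβ (s56kt_Kt_pow hz₁K p)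
  by_cases hr00 : r = 0
  swap
  · -- level `0`
    refine ⟨z₁, hz₁K, hz₁0, Or.inr (Or.inl ⟨r.toNat, ?_, ?_⟩)⟩
    · intro hd
      have h1 : (r.toNat : ℤ) = r := Int.toNat_of_nonneg hr0
      have h2 : r.toNat < p := by
        have : (r.toNat : ℤ) < p := by rw [h1]; exact hrp
        exact_mod_cast this
      have h3 : r.toNat ≠ 0 := by
        intro h0
        apply hr00
        rw [← h1, h0]; rfl
      exact h3 (Nat.eq_zero_of_dvd_of_lt hd h2)
    · rw [hval₁, ← zpow_natCast, Int.toNat_of_nonneg hr0]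
  -- step B: units
  rw [hr00, zpow_zero] at hval₁
  set β₁ := β * z₁ with hβ₁
  have hβ₁0 : β₁ ≠ 0 := mul_ne_zero hβ0 hz₁0
  obtain ⟨o, hofix, huo⟩ := hR.res (β₁ ^ p) hval₁.le
  have hvo : v o ≤ 1 := by
    have : o = β₁ ^ p - (β₁ ^ p - o) := by ring
    rw [this]
    exact le_trans (Valuation.map_sub v _ _) (max_le hval₁.le huo.le)
  obtain ⟨y, hyfix, hy⟩ := hR.perf o hofix hvo
  have hyu : v (y ^ p - β₁ ^ p) < 1 := by
    have : y ^ p - β₁ ^ p = (y ^ p - o) - (β₁ ^ p - o) := by ring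
    rw [this]
    exact Valuation.map_sub_lt v hy huo
  have hvyp : v (y ^ p) = 1 := by
    have : y ^ p = β₁ ^ p + (y ^ p - β₁ ^ p) := by ring
    rw [this, Valuation.map_add_eq_of_lt_left v (by rw [hval₁]; exact hyu), hval₁]
  have hy0 : y ≠ 0 := by
    intro h0
    rw [h0, zero_pow hp.ne_zero, map_zero] at hvyp
    exact zero_ne_one hvyp
  set z₂ := y⁻¹ with hz₂
  have hz₂0 : z₂ ≠ 0 := inv_ne_zero hy0
  have hz₂K : s56kt_Kt Γ π z₂ := s56kt_Kt_inv (s56kt_Kt_of_fixed hyfix)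
  have hK₂ : s56kt_Kt Γ π ((β₁ * z₂) ^ p) := by
    rw [mul_pow]; exact s56kt_Kt_mul hK₁ (s56kt_Kt_pow hz₂K p)
  have hval₂ : v ((β₁ * z₂) ^ p - 1) < v π ^ 0 := by
    have : (β₁ * z₂) ^ p - 1 = (β₁ ^ p - y ^ p) / y ^ p := by
      rw [mul_pow, hz₂, inv_pow]
      field_simp
    rw [this, map_div₀, hvyp, div_one, pow_zero, ← Valuation.map_neg, neg_sub]
    exact hyu
  have hle₂ := s56kt_Kt_val_succ hS he hπ (s56kt_Kt_sub hK₂ (s56kt_Kt_one π)) hval₂
  obtain ⟨z₃, hz₃K, hz₃0, hz₃⟩ := s56kt_knf_iter hS he hπ hR hζ hζK (e * p) 1 (by omega) one_pos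
    (β₁ * z₂) (mul_ne_zero hβ₁0 hz₂0) hK₂ hle₂
  refine ⟨z₁ * z₂ * z₃, s56kt_Kt_mul (s56kt_Kt_mul hz₁K hz₂K) hz₃K,
    mul_ne_zero (mul_ne_zero hz₁0 hz₂0) hz₃0, ?_⟩
  have hassoc : β * (z₁ * z₂ * z₃) = β₁ * z₂ * z₃ := by rw [hβ₁]; ring
  rw [hassoc]
  rcases hz₃ with h | h
  · exact Or.inl h
  · exact Or.inr (Or.inr h)

end Setting3

end Knf

end Fermat.Agent.S56
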