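/-
S56, node [S56-KUMT] (helper3), file (T2)+(T3): Artin's theorem "by hand" for a group `G` acting on
a field `L`, for one element `θ` which is a root of a monic `G`-invariant polynomial `g` of degree
`n` such that `1, θ, …, θ ^ (n - 1)` are linearly independent over the fixed field `L ^ G`.
Prefix `s56kt_`.  Mathlib only.

* `s56kt_orbit_card`   : `g` has `n` distinct roots (`g.roots.toFinset.card = g.natDegree`);
* `s56kt_orbit_roots`  : every root of `g` is `σ • θ` for some `σ : G`;
* `s56kt_fixed_eq_poly`: every `w : L` fixed by the stabiliser of `θ` is `∑ j < n, c j * θ ^ j`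
  with `G`-fixed coefficients `c j`;
* `s56kt_euler`        : Euler's identity `∑_{b root of g} b ^ j / g'(b) = [j = n - 1]` (`j < n`).
-/
import Mathlib

set_option autoImplicit false

open Polynomial

namespace Fermat.Agent.S56

section Orbit

variable {L : Type*} [Field L] {G : Type*} [Group G] [MulSemiringAction G L]

/-- the roots of a `G`-invariant polynomial are permuted by `G`. -/
theorem s56kt_smul_root (g : L[X]) (hfix : ∀ σ : G, σ • g = g) (σ : G) (b : L)
    (hb : g.eval b = 0) : g.eval (σ • b) = 0 := by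
  have h := Polynomial.smul_eval_smul L σ g b
  rw [hfix σ, hb, smul_zero] at h
  exact h

variable (G) in
/-- the orbit of `θ` inside the roots of `g`, as a finset. -/
noncomputable def s56kt_orb (θ : L) (g : L[X]) : Finset L := by
  classical
  exact g.roots.toFinset.filter (fun b => ∃ σ : G, σ • θ = b)

theorem s56kt_mem_orb {θ : L} {g : L[X]} (hg : g ≠ 0) (hroot : g.eval θ = 0)
    (hfix : ∀ σ : G, σ • g = g) (b : L) :
    b ∈ s56kt_orb G θ g ↔ ∃ σ : G, σ • θ = b := by
  classical
  unfold s56kt_orb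
  rw [Finset.mem_filter, Multiset.mem_toFinset, Polynomial.mem_roots hg]
  constructor
  · exact fun h => h.2
  · rintro ⟨σ, rfl⟩
    exact ⟨s56kt_smul_root g hfix σ θ hroot, σ, rfl⟩

/-- the orbit polynomial is `G`-invariant. -/
theorem s56kt_orb_prod_fixed {θ : L} {g : L[X]} (hg : g ≠ 0) (hroot : g.eval θ = 0)
    (hfix : ∀ σ : G, σ • g = g) (σ : G) :
    σ • (∏ b ∈ s56kt_orb G θ g, (X - C b)) = ∏ b ∈ s56kt_orb G θ g, (X - C b) := by
  classical
  rw [Finset.smul_prod']
  have h1 : ∀ b : L, σ • (X - C b : L[X]) = X - C (σ • b) := by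
    intro b
    rw [smul_sub, Polynomial.smul_X, Polynomial.smul_C]
  simp_rw [h1]
  refine Finset.prod_bij (fun b _ => σ • b) ?_ ?_ ?_ ?_
  · intro b hb
    rw [s56kt_mem_orb hg hroot hfix] at hb ⊢
    obtain ⟨τ, rfl⟩ := hb
    exact ⟨σ * τ, mul_smul σ τ θ⟩
  · intro a _ b _ hab
    exact smul_left_cancel σ hab
  · intro b hb
    refine ⟨σ⁻¹ • b, ?_, by rw [smul_inv_smul]⟩
    rw [s56kt_mem_orb hg hroot hfix] at hb ⊢
    obtain ⟨τ, rfl⟩ := hb
    exact ⟨σ⁻¹ * τ, mul_smul σ⁻¹ τ θ⟩
  · intro b _
    rfl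

/-- the independence hypothesis: `1, θ, …, θ ^ (n - 1)` are linearly independent over `L ^ G`. -/
def s56kt_Indep (G : Type*) [Group G] [MulSemiringAction G L] (θ : L) (n : ℕ) : Prop :=
  ∀ c : ℕ → L, (∀ j (σ : G), σ • c j = c j) → ∑ j ∈ Finset.range n, c j * θ ^ j = 0 →
    ∀ j < n, c j = 0

theorem s56kt_orb_prod_monic (θ : L) (g : L[X]) :
    (∏ b ∈ s56kt_orb G θ g, (X - C b)).Monic :=
  monic_prod_of_monic _ _ fun b _ => monic_X_sub_C b

theorem s56kt_orb_prod_natDegree (θ : L) (g : L[X]) :
    (∏ b ∈ s56kt_orb G θ g, (X - C b)).natDegree = (s56kt_orb G θ g).card := by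
  rw [natDegree_prod_of_monic _ _ fun b _ => monic_X_sub_C b]
  simp

/-- **the orbit of `θ` has exactly `n = deg g` elements.** -/
theorem s56kt_orb_card (θ : L) (g : L[X]) (hg : g.Monic) (hfix : ∀ σ : G, σ • g = g)
    (hroot : g.eval θ = 0) (hind : s56kt_Indep G θ g.natDegree) :
    (s56kt_orb G θ g).card = g.natDegree := by
  classical
  have hg0 : g ≠ 0 := hg.ne_zero
  set P : L[X] := ∏ b ∈ s56kt_orb G θ g, (X - C b) with hP
  have hle : (s56kt_orb G θ g).card ≤ g.natDegree := by
    refine le_trans (Finset.card_le_card (Finset.filter_subset _ _)) ?_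
    exact le_trans (Multiset.toFinset_card_le _) (Polynomial.card_roots' g)
  rcases lt_or_eq_of_le hle with hlt | heq
  · exfalso
    have hPdeg : P.natDegree = (s56kt_orb G θ g).card := s56kt_orb_prod_natDegree θ g
    have hθ : θ ∈ s56kt_orb G θ g := (s56kt_mem_orb hg0 hroot hfix θ).mpr ⟨1, one_smul _ _⟩
    have hPθ : P.eval θ = 0 := by
      rw [hP, eval_prod]
      exact Finset.prod_eq_zero hθ (by simp)
    have hrel : ∑ j ∈ Finset.range g.natDegree, P.coeff j * θ ^ j = 0 := by
      rw [← Polynomial.eval_eq_sum_range' (by rw [hPdeg]; exact hlt) θ, hPθ]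
    have hcfix : ∀ j (σ : G), σ • P.coeff j = P.coeff j := by
      intro j σ
      rw [← Polynomial.coeff_smul, s56kt_orb_prod_fixed hg0 hroot hfix σ]
    have h0 := hind (fun j => P.coeff j) hcfix hrel _ hlt
    have h1 : P.coeff (s56kt_orb G θ g).card = 1 := by
      rw [← hPdeg]
      exact (s56kt_orb_prod_monic θ g).coeff_natDegree
    rw [h1] at h0
    exact one_ne_zero h0
  · exact heq

open Classical in
/-- `g` has `n` distinct roots. -/
theorem s56kt_roots_card (θ : L) (g : L[X]) (hg : g.Monic) (hfix : ∀ σ : G, σ • g = g)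
    (hroot : g.eval θ = 0) (hind : s56kt_Indep G θ g.natDegree) :
    g.roots.toFinset.card = g.natDegree := by
  classical
  apply le_antisymm (le_trans (Multiset.toFinset_card_le _) (Polynomial.card_roots' g))
  rw [← s56kt_orb_card θ g hg hfix hroot hind]
  exact Finset.card_le_card (Finset.filter_subset _ _)

open Classical in
/-- the orbit is the set of all roots. -/
theorem s56kt_orb_eq (θ : L) (g : L[X]) (hg : g.Monic) (hfix : ∀ σ : G, σ • g = g)
    (hroot : g.eval θ = 0) (hind : s56kt_Indep G θ g.natDegree) :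
    s56kt_orb G θ g = g.roots.toFinset := by
  classical
  have h1 : s56kt_orb G θ g ⊆ g.roots.toFinset := by
    unfold s56kt_orb
    exact Finset.filter_subset _ _
  apply Finset.eq_of_subset_of_card_le h1
  rw [s56kt_orb_card θ g hg hfix hroot hind, s56kt_roots_card θ g hg hfix hroot hind]

/-- **every root of `g` is conjugate to `θ`.** -/
theorem s56kt_orbit_roots (θ : L) (g : L[X]) (hg : g.Monic) (hfix : ∀ σ : G, σ • g = g)
    (hroot : g.eval θ = 0) (hind : s56kt_Indep G θ g.natDegree) (b : L) (hb : g.eval b = 0) :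
    ∃ σ : G, σ • θ = b := by
  classical
  have hmem : b ∈ g.roots.toFinset := by
    rw [Multiset.mem_toFinset, Polynomial.mem_roots hg.ne_zero]
    exact hb
  rw [← s56kt_orb_eq θ g hg hfix hroot hind, s56kt_mem_orb hg.ne_zero hroot hfix] at hmem
  exact hmem

open Classical in
/-- `g` is the product of `X - b` over its roots. -/
theorem s56kt_eq_nodal (θ : L) (g : L[X]) (hg : g.Monic) (hfix : ∀ σ : G, σ • g = g)
    (hroot : g.eval θ = 0) (hind : s56kt_Indep G θ g.natDegree) :
    g = Lagrange.nodal g.roots.toFinset id := by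
  classical
  have hcard := s56kt_roots_card θ g hg hfix hroot hind
  have hcard' : g.roots.card = g.natDegree := by
    apply le_antisymm (Polynomial.card_roots' g)
    rw [← hcard]
    exact Multiset.toFinset_card_le _
  have hnodup : g.roots.Nodup := by
    rw [← Multiset.toFinset_card_eq_card_iff_nodup, hcard, hcard']
  have h := Polynomial.prod_multiset_X_sub_C_of_monic_of_roots_card_eq hg hcard'
  rw [Lagrange.nodal_eq]
  conv_lhs => rw [← h]
  rw [Finset.prod, Multiset.toFinset_val, hnodup.dedup]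
  rfl

/-- `σ • f` has the degree of `f`. -/
theorem s56kt_degree_smul (σ : G) (f : L[X]) : (σ • f).degree = f.degree := by
  rw [Polynomial.smul_eq_map]
  exact Polynomial.degree_map_eq_of_injective
    (MulSemiringAction.toRingHom G L σ).injective f

open Classical in
/-- **every element fixed by the stabiliser of `θ` is a polynomial in `θ` of degree `< n` with
`G`-fixed coefficients.** -/
theorem s56kt_fixed_eq_poly (θ : L) (g : L[X]) (hg : g.Monic) (hfix : ∀ σ : G, σ • g = g)
    (hroot : g.eval θ = 0) (hind : s56kt_Indep G θ g.natDegree)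
    (w : L) (hw : ∀ σ : G, σ • θ = θ → σ • w = w) :
    ∃ c : ℕ → L, (∀ j (σ : G), σ • c j = c j) ∧
      ∀ σ : G, σ • w = ∑ j ∈ Finset.range g.natDegree, c j * (σ • θ) ^ j := by
  have hg0 : g ≠ 0 := hg.ne_zero
  set S : Finset L := g.roots.toFinset with hS
  have hScard : S.card = g.natDegree := s56kt_roots_card θ g hg hfix hroot hind
  have hSmem : ∀ b, b ∈ S ↔ ∃ σ : G, σ • θ = b := by
    intro b
    rw [hS, ← s56kt_orb_eq θ g hg hfix hroot hind, s56kt_mem_orb hg0 hroot hfix]
  -- the value function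
  let r : L → L := fun b => if h : ∃ σ : G, σ • θ = b then h.choose • w else 0
  have hr : ∀ σ : G, r (σ • θ) = σ • w := by
    intro σ
    have h : ∃ τ : G, τ • θ = σ • θ := ⟨σ, rfl⟩
    have h1 : r (σ • θ) = h.choose • w := dif_pos h
    rw [h1]
    have h2 : (σ⁻¹ * h.choose) • θ = θ := by
      rw [mul_smul, h.choose_spec, inv_smul_smul]
    have h3 := hw _ h2
    rw [mul_smul] at h3
    calc h.choose • w = σ • (σ⁻¹ • h.choose • w) := by rw [smul_inv_smul]
      _ = σ • w := by rw [h3]
  have hinj : Set.InjOn (id : L → L) (S : Set L) := Function.injective_id.injOn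
  set I : L[X] := Lagrange.interpolate S id r with hI
  have hIdeg : I.degree < S.card := Lagrange.degree_interpolate_lt r hinj
  have hIfix : ∀ σ : G, σ • I = I := by
    intro σ
    apply Lagrange.eq_interpolate_of_eval_eq r hinj
    · rw [s56kt_degree_smul]; exact hIdeg
    · intro b hb
      obtain ⟨τ, rfl⟩ := (hSmem b).mp hb
      rw [id, Polynomial.smul_eval, ← mul_smul]
      have hmem : (σ⁻¹ * τ) • θ ∈ S := (hSmem _).mpr ⟨_, rfl⟩
      have := Lagrange.eval_interpolate_at_node r hinj hmem
      rw [id] at this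
      rw [hI, this, hr, ← mul_smul, mul_inv_cancel_left, hr]
  refine ⟨fun j => I.coeff j, fun j σ => ?_, fun σ => ?_⟩
  · rw [← Polynomial.coeff_smul, hIfix σ]
  · have hmem : σ • θ ∈ S := (hSmem _).mpr ⟨_, rfl⟩
    have h1 := Lagrange.eval_interpolate_at_node r hinj hmem
    rw [id, hr] at h1
    rw [← h1, ← hI]
    apply Polynomial.eval_eq_sum_range'
    rw [← hScard]
    have hpos : 0 < S.card := Finset.card_pos.mpr ⟨θ, (hSmem θ).mpr ⟨1, one_smul _ _⟩⟩
    by_cases hI0 : I = 0
    · rw [hI0, natDegree_zero]; exact hpos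
    · exact (Polynomial.natDegree_lt_iff_degree_lt hI0).mpr hIdeg

open Classical in
/-- **Euler's identity**: for `P` of degree `< n`, `∑_{b root of g} P(b) / g'(b)` is the
coefficient of `X ^ (n - 1)` in `P`. -/
theorem s56kt_euler (θ : L) (g : L[X]) (hg : g.Monic) (hfix : ∀ σ : G, σ • g = g)
    (hroot : g.eval θ = 0) (hind : s56kt_Indep G θ g.natDegree)
    (P : L[X]) (hP : P.natDegree < g.natDegree) :
    ∑ b ∈ g.roots.toFinset, P.eval b / (derivative g).eval b = P.coeff (g.natDegree - 1) := by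
  set S : Finset L := g.roots.toFinset with hS
  have hScard : S.card = g.natDegree := s56kt_roots_card θ g hg hfix hroot hind
  have hnod : g = Lagrange.nodal S id := s56kt_eq_nodal θ g hg hfix hroot hind
  have hinj : Set.InjOn (id : L → L) (S : Set L) := Function.injective_id.injOn
  have hPdeg : P.degree < S.card := by
    rw [hScard]
    exact lt_of_le_of_lt Polynomial.degree_le_natDegree (by exact_mod_cast hP)
  have h := Lagrange.coeff_eq_sum hinj hPdeg
  rw [hScard] at h
  rw [h]
  refine Finset.sum_congr rfl fun b hb => ?_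
  congr 1
  conv_lhs => rw [hnod]
  have := Lagrange.eval_nodal_derivative_eval_node_eq (v := (id : L → L)) hb
  rw [id] at this
  rw [this, Lagrange.eval_nodal]
  rfl

open Classical in
/-- **one trace step**: for `w` fixed by the stabiliser of `θ`, with expansion
`σ • w = ∑ j < n, c j * (σ • θ) ^ j`, and any function `F` on the roots of `g` with
`F (σ • θ) = σ • w`: `∑_{b root of g} F b / g'(b) = c (n - 1)`. -/
theorem s56kt_step (θ : L) (g : L[X]) (hg : g.Monic) (hfix : ∀ σ : G, σ • g = g)
    (hroot : g.eval θ = 0) (hind : s56kt_Indep G θ g.natDegree)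
    (w : L) (c : ℕ → L)
    (hc : ∀ σ : G, σ • w = ∑ j ∈ Finset.range g.natDegree, c j * (σ • θ) ^ j)
    (F : L → L) (hF : ∀ σ : G, F (σ • θ) = σ • w) :
    ∑ b ∈ g.roots.toFinset, F b / (derivative g).eval b = c (g.natDegree - 1) := by
  have hn : 0 < g.natDegree := by
    rcases Nat.eq_zero_or_pos g.natDegree with h | h
    · have : g = 1 := hg.natDegree_eq_zero.mp h
      rw [this] at hroot
      simp at hroot
    · exact h
  set P : L[X] := ∑ j ∈ Finset.range g.natDegree, C (c j) * X ^ j with hP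
  have hPdeg : P.natDegree < g.natDegree := by
    have h1 : P.degree < (g.natDegree : WithBot ℕ) := by
      rw [hP]
      refine lt_of_le_of_lt (Polynomial.degree_sum_le _ _) ?_
      rw [Finset.sup_lt_iff (WithBot.bot_lt_coe _)]
      intro j hj
      refine lt_of_le_of_lt (Polynomial.degree_C_mul_X_pow_le j (c j)) ?_
      exact_mod_cast Finset.mem_range.mp hj
    by_cases hP0 : P = 0
    · rw [hP0, natDegree_zero]; exact hn
    · exact (Polynomial.natDegree_lt_iff_degree_lt hP0).mpr h1
  have hPcoeff : P.coeff (g.natDegree - 1) = c (g.natDegree - 1) := by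
    rw [hP, Polynomial.finsetSum_coeff]
    simp only [Polynomial.coeff_C_mul, Polynomial.coeff_X_pow]
    rw [Finset.sum_eq_single (g.natDegree - 1)]
    · simp
    · intro j _ hj
      rw [if_neg (Ne.symm hj), mul_zero]
    · intro h
      exact absurd (Finset.mem_range.mpr (by omega)) h
  have hPeval : ∀ σ : G, P.eval (σ • θ) = σ • w := by
    intro σ
    rw [hc σ, hP, Polynomial.eval_finsetSum]
    refine Finset.sum_congr rfl fun j _ => ?_
    simp
  rw [← hPcoeff, ← s56kt_euler θ g hg hfix hroot hind P hPdeg]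
  refine Finset.sum_congr rfl fun b hb => ?_
  obtain ⟨σ, rfl⟩ := s56kt_orbit_roots θ g hg hfix hroot hind b (by
    rw [Multiset.mem_toFinset, Polynomial.mem_roots hg.ne_zero] at hb
    exact hb)
  rw [hF σ, hPeval σ]

open Classical in
/-- **fibrewise trace step**: `X` a finite `G`-set, `ϑ : X → L` equivariant with values among the
roots of `g`, `F : X → L` equivariant.  If `c` is an equivariant expansion of the fibre sum
`w = ∑_{ϑ x = θ} F x`, then `∑ x, F x / g'(ϑ x) = c (n - 1)`. -/
theorem s56kt_fib {X : Type*} [Fintype X] [MulAction G X]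
    (θ : L) (g : L[X]) (hg : g.Monic) (hfix : ∀ σ : G, σ • g = g)
    (hroot : g.eval θ = 0) (hind : s56kt_Indep G θ g.natDegree)
    (ϑ : X → L) (hϑ : ∀ (σ : G) (x : X), ϑ (σ • x) = σ • ϑ x) (hϑroot : ∀ x, g.eval (ϑ x) = 0)
    (F : X → L) (hF : ∀ (σ : G) (x : X), F (σ • x) = σ • F x) (c : ℕ → L)
    (hc : ∀ σ : G, σ • (∑ x ∈ Finset.univ.filter (fun x => ϑ x = θ), F x) =
      ∑ j ∈ Finset.range g.natDegree, c j * (σ • θ) ^ j) :
    ∑ x, F x / (derivative g).eval (ϑ x) = c (g.natDegree - 1) := by
  set F₁ : L → L := fun b => ∑ x ∈ Finset.univ.filter (fun x => ϑ x = b), F x with hF₁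
  have hF₁eq : ∀ σ : G, F₁ (σ • θ) =
      σ • (∑ x ∈ Finset.univ.filter (fun x => ϑ x = θ), F x) := by
    intro σ
    rw [hF₁, Finset.smul_sum]
    symm
    refine Finset.sum_bij (fun x _ => σ • x) ?_ ?_ ?_ ?_
    · intro x hx
      rw [Finset.mem_filter] at hx ⊢
      exact ⟨Finset.mem_univ _, by rw [hϑ, hx.2]⟩
    · intro a _ b _ hab
      exact smul_left_cancel σ hab
    · intro x hx
      rw [Finset.mem_filter] at hx
      refine ⟨σ⁻¹ • x, ?_, by rw [smul_inv_smul]⟩
      rw [Finset.mem_filter]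
      exact ⟨Finset.mem_univ _, by rw [hϑ, hx.2, inv_smul_smul]⟩
    · intro x _
      rw [hF]
  have hstep := s56kt_step θ g hg hfix hroot hind _ c hc F₁ hF₁eq
  rw [← hstep]
  have hmaps : ∀ x ∈ (Finset.univ : Finset X), ϑ x ∈ g.roots.toFinset := by
    intro x _
    rw [Multiset.mem_toFinset, Polynomial.mem_roots hg.ne_zero]
    exact hϑroot x
  rw [← Finset.sum_fiberwise_of_maps_to hmaps]
  refine Finset.sum_congr rfl fun b _ => ?_
  rw [hF₁, Finset.sum_div]
  refine Finset.sum_congr rfl fun x hx => ?_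
  rw [(Finset.mem_filter.mp hx).2]

open Classical in
/-- fibre sums of an equivariant function are permuted by the group. -/
theorem s56kt_fibre_sum_smul {X : Type*} [Fintype X] [MulAction G X]
    (ϑ : X → L) (hϑ : ∀ (σ : G) (x : X), ϑ (σ • x) = σ • ϑ x)
    (F : X → L) (hF : ∀ (σ : G) (x : X), F (σ • x) = σ • F x) (σ : G) (b : L) :
    σ • (∑ x ∈ Finset.univ.filter (fun x => ϑ x = b), F x) =
      ∑ x ∈ Finset.univ.filter (fun x => ϑ x = σ • b), F x := by
  rw [Finset.smul_sum]
  refine Finset.sum_bij (fun x _ => σ • x) ?_ ?_ ?_ ?_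
  · intro x hx
    rw [Finset.mem_filter] at hx ⊢
    exact ⟨Finset.mem_univ _, by rw [hϑ, hx.2]⟩
  · intro a _ b _ hab
    exact smul_left_cancel σ hab
  · intro x hx
    rw [Finset.mem_filter] at hx
    refine ⟨σ⁻¹ • x, ?_, by rw [smul_inv_smul]⟩
    rw [Finset.mem_filter]
    exact ⟨Finset.mem_univ _, by rw [hϑ, hx.2, inv_smul_smul]⟩
  · intro x _
    rw [hF]

end Orbit

end Fermat.Agent.S56
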