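/-
S56, node [S56-KUMT] (helper3): the two explicit polynomials `X ^ e + p` (tame step) and
`(X + 1) ^ p - x` (Kummer step): monic, degree, invariance, derivative.  Prefix `s56kt_`.
-/
import Mathlib

set_option autoImplicit false

open Polynomial

namespace Fermat.Agent.S56

section Poly

variable {L : Type*} [Field L]

/-- the tame polynomial `X ^ e + a`. -/
noncomputable def s56kt_tamePoly (e : ℕ) (a : L) : L[X] := X ^ e + C a

theorem s56kt_tamePoly_monic {e : ℕ} (he : 0 < e) (a : L) : (s56kt_tamePoly e a).Monic :=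
  monic_X_pow_add_C a he.ne'

theorem s56kt_tamePoly_natDegree (e : ℕ) (a : L) :
    (s56kt_tamePoly e a).natDegree = e :=
  natDegree_X_pow_add_C

theorem s56kt_tamePoly_eval (e : ℕ) (a b : L) : (s56kt_tamePoly e a).eval b = b ^ e + a := by
  simp [s56kt_tamePoly]

theorem s56kt_tamePoly_deriv_eval (e : ℕ) (a b : L) :
    (derivative (s56kt_tamePoly e a)).eval b = (e : L) * b ^ (e - 1) := by
  simp [s56kt_tamePoly, derivative_X_pow]

theorem s56kt_tamePoly_smul {G : Type*} [Group G] [MulSemiringAction G L] (e : ℕ) (a : L)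
    (σ : G) (ha : σ • a = a) : σ • s56kt_tamePoly e a = s56kt_tamePoly e a := by
  unfold s56kt_tamePoly
  rw [smul_add, smul_pow', Polynomial.smul_X, Polynomial.smul_C, ha]

/-- the Kummer polynomial `(X + 1) ^ p - x` (minimal polynomial of `α - 1`, `α ^ p = x`). -/
noncomputable def s56kt_kumPoly (p : ℕ) (x : L) : L[X] := (X + 1) ^ p - C x

theorem s56kt_kumPoly_eval (p : ℕ) (x b : L) : (s56kt_kumPoly p x).eval b = (b + 1) ^ p - x := by
  simp [s56kt_kumPoly]

theorem s56kt_kumPoly_deriv_eval (p : ℕ) (x b : L) :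
    (derivative (s56kt_kumPoly p x)).eval b = (p : L) * (b + 1) ^ (p - 1) := by
  simp [s56kt_kumPoly, derivative_pow]

theorem s56kt_kumPoly_eq (p : ℕ) (x : L) :
    s56kt_kumPoly p x = (X ^ p - C x).comp (X + 1) := by
  simp [s56kt_kumPoly]

theorem s56kt_kumPoly_monic {p : ℕ} (hp : 0 < p) (x : L) : (s56kt_kumPoly p x).Monic := by
  rw [s56kt_kumPoly_eq]
  have h1 : (X ^ p - C x : L[X]).Monic := monic_X_pow_sub_C x hp.ne'
  have h2 : (X + 1 : L[X]).Monic := by
    have := monic_X_add_C (1 : L)
    simpa using this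
  exact h1.comp h2 (by
    have : (X + 1 : L[X]).natDegree = 1 := by
      have := natDegree_X_add_C (1 : L)
      simpa using this
    rw [this]; exact one_ne_zero)

theorem s56kt_kumPoly_natDegree (p : ℕ) (x : L) :
    (s56kt_kumPoly p x).natDegree = p := by
  rw [s56kt_kumPoly_eq, natDegree_comp]
  have h1 : (X ^ p - C x : L[X]).natDegree = p := natDegree_X_pow_sub_C
  have h2 : (X + 1 : L[X]).natDegree = 1 := by
    have := natDegree_X_add_C (1 : L)
    simpa using this
  rw [h1, h2, mul_one]

theorem s56kt_kumPoly_smul {G : Type*} [Group G] [MulSemiringAction G L] (p : ℕ) (x : L)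
    (σ : G) (hx : σ • x = x) : σ • s56kt_kumPoly p x = s56kt_kumPoly p x := by
  unfold s56kt_kumPoly
  rw [smul_sub, smul_pow', smul_add, Polynomial.smul_X, Polynomial.smul_C, hx, smul_one]

end Poly

end Fermat.Agent.S56
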