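/-
S56, node [S56-KUMT] (helper3), file (T1): valuation lemmas for Kummer extensions of degree `p`.
Prefix `s56kt_`.  Mathlib only.

* `s56kt_val_sum_eq_sup` : a finite sum whose nonzero terms have pairwise distinct valuations has
  valuation the supremum of the valuations of its terms;
* `s56kt_val_le_sum`, `s56kt_sum_eq_zero`, `s56kt_exists_val_sum_eq` : consequences;
* `s56kt_val_root` : if `α ^ p = x`, `v (x - 1) < 1` and `v p ^ p < v (x - 1) ^ (p - 1)`
  (additively: `v (x - 1) < p v(p) / (p - 1)`) then `v (α - 1) ^ p = v (x - 1)`;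
* `s56kt_val_pow_distinct` : the terms `c j * Π ^ j` (`j < n`) have pairwise distinct valuations
  when `v Π ^ n = v ϖ < 1` and the `c j` have valuations in `v ϖ ^ ℤ`.
-/
import Mathlib

set_option autoImplicit false

namespace Fermat.Agent.S56

section Val

variable {L : Type*} [Field L] {Γ₀ : Type*} [LinearOrderedCommGroupWithZero Γ₀]
  (v : Valuation L Γ₀)

/-- a finite sum whose nonzero terms have pairwise distinct valuations has valuation the supremum
of the valuations of its terms. -/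
theorem s56kt_val_sum_eq_sup {ι : Type*} [DecidableEq ι] (s : Finset ι) (f : ι → L)
    (hd : ∀ i ∈ s, ∀ j ∈ s, i ≠ j → f i ≠ 0 → f j ≠ 0 → v (f i) ≠ v (f j)) :
    v (∑ i ∈ s, f i) = s.sup (fun i => v (f i)) := by
  induction s using Finset.induction_on with
  | empty => simp [bot_eq_zero]
  | insert a s ha ih =>
    have ih' := ih (fun i hi j hj => hd i (Finset.mem_insert_of_mem hi) j
      (Finset.mem_insert_of_mem hj))
    rw [Finset.sum_insert ha, Finset.sup_insert]
    by_cases hfa : f a = 0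
    · rw [hfa, zero_add, map_zero, ih']
      exact (sup_of_le_right zero_le).symm
    by_cases hs0 : s.sup (fun i => v (f i)) = 0
    · have hsum : v (∑ i ∈ s, f i) = 0 := by rw [ih', hs0]
      rw [hs0]
      have h0 : ∑ i ∈ s, f i = 0 := (map_eq_zero v).mp hsum
      rw [h0, add_zero]
      exact (sup_of_le_left zero_le).symm
    · have hne : s.Nonempty := by
        by_contra h
        rw [Finset.not_nonempty_iff_eq_empty] at h
        subst h
        exact hs0 (by simp [bot_eq_zero])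
      obtain ⟨i, hi, hsup⟩ := Finset.exists_mem_eq_sup s hne (fun i => v (f i))
      have hfi : f i ≠ 0 := by
        intro h
        apply hs0
        rw [hsup]
        simp [h]
      have hai : a ≠ i := fun h => ha (h ▸ hi)
      have hdist : v (f a) ≠ v (∑ i ∈ s, f i) := by
        rw [ih', hsup]
        exact hd a (Finset.mem_insert_self a s) i (Finset.mem_insert_of_mem hi) hai hfa hfi
      rw [Valuation.map_add_of_distinct_val v hdist, ih']

/-- every term is bounded by the sum. -/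
theorem s56kt_val_le_sum {ι : Type*} [DecidableEq ι] (s : Finset ι) (f : ι → L)
    (hd : ∀ i ∈ s, ∀ j ∈ s, i ≠ j → f i ≠ 0 → f j ≠ 0 → v (f i) ≠ v (f j)) (i : ι) (hi : i ∈ s) :
    v (f i) ≤ v (∑ i ∈ s, f i) := by
  rw [s56kt_val_sum_eq_sup v s f hd]
  exact Finset.le_sup (f := fun i => v (f i)) hi

/-- a vanishing sum with pairwise distinct valuations has all its terms zero. -/
theorem s56kt_sum_eq_zero {ι : Type*} [DecidableEq ι] (s : Finset ι) (f : ι → L)
    (hd : ∀ i ∈ s, ∀ j ∈ s, i ≠ j → f i ≠ 0 → f j ≠ 0 → v (f i) ≠ v (f j))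
    (h0 : ∑ i ∈ s, f i = 0) (i : ι) (hi : i ∈ s) : f i = 0 := by
  have h := s56kt_val_le_sum v s f hd i hi
  rw [h0, map_zero] at h
  exact (map_eq_zero v).mp (le_antisymm h zero_le)

/-- the valuation of the sum is attained. -/
theorem s56kt_exists_val_sum_eq {ι : Type*} [DecidableEq ι] (s : Finset ι) (hs : s.Nonempty)
    (f : ι → L)
    (hd : ∀ i ∈ s, ∀ j ∈ s, i ≠ j → f i ≠ 0 → f j ≠ 0 → v (f i) ≠ v (f j)) :
    ∃ i ∈ s, v (∑ i ∈ s, f i) = v (f i) := by
  obtain ⟨i, hi, hsup⟩ := Finset.exists_mem_eq_sup s hs (fun i => v (f i))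
  exact ⟨i, hi, by rw [s56kt_val_sum_eq_sup v s f hd, hsup]⟩

/-- **the level of a `p`-th root**: if `α ^ p = x`, `v (x - 1) < 1` and
`v p ^ p < v (x - 1) ^ (p - 1)`, then `v (α - 1) ^ p = v (x - 1)`. -/
theorem s56kt_val_root {p : ℕ} (hp : p.Prime) (α x : L) (hα : α ^ p = x)
    (hbig : v (p : L) ^ p < v (x - 1) ^ (p - 1)) :
    v (α - 1) ^ p = v (x - 1) := by
  have hp1 : 1 ≤ p - 1 := by have := hp.two_le; omega
  by_cases hα1 : 1 < v α
  · -- `v α > 1`: everything is dominated by `α`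
    have h1 : v (α - 1) = v α := by
      rw [sub_eq_add_neg]
      apply Valuation.map_add_eq_of_lt_left
      rw [Valuation.map_neg, map_one]
      exact hα1
    have hx : 1 < v x := by
      rw [← hα, map_pow]
      exact one_lt_pow₀ hα1 hp.ne_zero
    have h2 : v (x - 1) = v x := by
      rw [sub_eq_add_neg]
      apply Valuation.map_add_eq_of_lt_left
      rw [Valuation.map_neg, map_one]
      exact hx
    rw [h1, h2, ← hα, map_pow]
  · rw [not_lt] at hα1
    set β : L := α - 1 with hβ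
    have hβ1 : v β ≤ 1 := by
      rw [hβ, sub_eq_add_neg]
      refine le_trans (v.map_add _ _) (max_le hα1 ?_)
      rw [Valuation.map_neg, map_one]
    obtain ⟨r, hr⟩ := exists_add_pow_prime_eq hp (⟨β, hβ1⟩ : v.integer) (1 : v.integer)
    have hr' : (β + 1) ^ p = β ^ p + 1 + (p : L) * β * 1 * (r : L) := by
      have := congrArg (Subring.subtype v.integer) hr
      simpa using this
    have hy : x - 1 = β ^ p + (p : L) * β * (r : L) := by
      have : β + 1 = α := by rw [hβ]; ring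
      rw [this, hα] at hr'
      rw [hr']; ring
    have hrv : v (r : L) ≤ 1 := r.2
    have hrest : v ((p : L) * β * (r : L)) ≤ v (p : L) * v β := by
      rw [map_mul, map_mul]
      exact mul_le_of_le_one_right zero_le hrv
    by_cases hcase : v (p : L) * v β < v β ^ p
    · rw [hy]
      have : v (β ^ p + (p : L) * β * (r : L)) = v (β ^ p) := by
        apply Valuation.map_add_eq_of_lt_left
        rw [map_pow]
        exact lt_of_le_of_lt hrest hcase
      rw [this, map_pow]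
    · exfalso
      rw [not_lt] at hcase
      have hβ0 : β ≠ 0 := by
        intro h0
        rw [hy, h0] at hbig
        simp [hp.ne_zero] at hbig
        have : (0 : Γ₀) ^ (p - 1) = 0 := zero_pow (by omega)
        rw [this] at hbig
        exact not_lt_zero hbig
      have hvβ : 0 < v β := by
        rw [Valuation.pos_iff]; exact hβ0
      have hβp : v β ^ (p - 1) ≤ v (p : L) := by
        have h1 : v β ^ p = v β ^ (p - 1) * v β := by
          rw [← pow_succ]; congr 1; omega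
        rw [h1] at hcase
        exact le_of_mul_le_mul_right hcase hvβ
      have hyle : v (x - 1) ≤ v (p : L) * v β := by
        rw [hy]
        refine le_trans (v.map_add _ _) (max_le ?_ hrest)
        rw [map_pow]; exact hcase
      have : v (x - 1) ^ (p - 1) ≤ v (p : L) ^ p := by
        calc v (x - 1) ^ (p - 1) ≤ (v (p : L) * v β) ^ (p - 1) := pow_le_pow_left₀ zero_le hyle _
          _ = v (p : L) ^ (p - 1) * v β ^ (p - 1) := mul_pow _ _ _
          _ ≤ v (p : L) ^ (p - 1) * v (p : L) := mul_le_mul_right hβp _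
          _ = v (p : L) ^ p := by rw [← pow_succ]; congr 1; omega
      exact absurd hbig (not_lt.mpr this)

/-- **distinct valuations**: if `v B ^ n = v ϖ ^ i` with `i` prime to `n`, `v ϖ < 1`, and the
coefficients `c j` have valuations in `v ϖ ^ ℤ`, then the nonzero terms `c j * B ^ j`, `j < n`, have
pairwise distinct valuations. -/
theorem s56kt_val_pow_distinct (ϖ B : L) (n i : ℕ) (hϖ0 : ϖ ≠ 0) (hϖ : v ϖ < 1)
    (hB : v B ^ n = v ϖ ^ i) (hcop : Nat.Coprime i n) (c : ℕ → L)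
    (hc : ∀ j, c j ≠ 0 → ∃ m : ℤ, v (c j) = v ϖ ^ m) (j k : ℕ) (hj : j < n) (hk : k < n)
    (hjk : j ≠ k) (hcj : c j ≠ 0) (hck : c k ≠ 0) : v (c j * B ^ j) ≠ v (c k * B ^ k) := by
  intro h
  obtain ⟨mj, hmj⟩ := hc j hcj
  obtain ⟨mk, hmk⟩ := hc k hck
  have hpos : 0 < v ϖ := by rw [Valuation.pos_iff]; exact hϖ0
  have key : ∀ (l : ℕ) (m : ℤ), v (c l) = v ϖ ^ m →
      v (c l * B ^ l) ^ n = v ϖ ^ ((n : ℤ) * m + (i : ℤ) * (l : ℤ)) := by
    intro l m hm
    rw [map_mul, map_pow, mul_pow, ← pow_mul, mul_comm l n, pow_mul, hB, hm,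
      zpow_add₀ hpos.ne', ← zpow_natCast (v ϖ ^ m) n, ← zpow_mul, mul_comm m (n : ℤ),
      ← pow_mul, ← zpow_natCast (v ϖ) (i * l)]
    push_cast
    rfl
  have h1 := key j mj hmj
  have h2 := key k mk hmk
  rw [h] at h1
  have h3 := zpow_right_injective₀ hpos hϖ.ne (h1.symm.trans h2)
  -- `n * mj + i * j = n * mk + i * k`
  have hdvd : (n : ℤ) ∣ (i : ℤ) * ((j : ℤ) - (k : ℤ)) := ⟨mk - mj, by linarith⟩
  have hcop' : IsCoprime (n : ℤ) (i : ℤ) := by
    rw [Int.isCoprime_iff_gcd_eq_one, Int.gcd_natCast_natCast]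
    exact hcop.symm
  have hdvd' : (n : ℤ) ∣ (j : ℤ) - (k : ℤ) := hcop'.dvd_of_dvd_mul_left hdvd
  have hlt : |(j : ℤ) - (k : ℤ)| < (n : ℤ) := by
    rw [abs_lt]; constructor <;> omega
  have := Int.eq_zero_of_abs_lt_dvd hdvd' hlt
  omega

/-- every term `c j * B ^ j` is bounded by the sum (setting of `s56kt_val_pow_distinct`). -/
theorem s56kt_term_le_sum (ϖ B : L) (n i : ℕ) (hϖ0 : ϖ ≠ 0) (hϖ : v ϖ < 1)
    (hB : v B ^ n = v ϖ ^ i) (hcop : Nat.Coprime i n) (c : ℕ → L)
    (hc : ∀ j, c j ≠ 0 → ∃ m : ℤ, v (c j) = v ϖ ^ m) (j : ℕ) (hj : j < n) :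
    v (c j * B ^ j) ≤ v (∑ j ∈ Finset.range n, c j * B ^ j) := by
  have hpos : 0 < v ϖ := by rw [Valuation.pos_iff]; exact hϖ0
  have hB0 : B ≠ 0 := by
    intro h0
    rw [h0, map_zero] at hB
    have hn : n ≠ 0 := by omega
    rw [zero_pow hn] at hB
    exact (pow_pos hpos i).ne hB
  refine s56kt_val_le_sum v (Finset.range n) (fun j => c j * B ^ j) ?_ j (Finset.mem_range.mpr hj)
  intro a ha b hb hab h1 h2
  refine s56kt_val_pow_distinct v ϖ B n i hϖ0 hϖ hB hcop c hc a b (Finset.mem_range.mp ha)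
    (Finset.mem_range.mp hb) hab ?_ ?_
  · exact fun h => h1 (by simp [h])
  · exact fun h => h2 (by simp [h])

/-- the sum vanishes only if all coefficients vanish. -/
theorem s56kt_coeff_eq_zero (ϖ B : L) (n i : ℕ) (hϖ0 : ϖ ≠ 0) (hϖ : v ϖ < 1)
    (hB : v B ^ n = v ϖ ^ i) (hcop : Nat.Coprime i n) (c : ℕ → L)
    (hc : ∀ j, c j ≠ 0 → ∃ m : ℤ, v (c j) = v ϖ ^ m)
    (h0 : ∑ j ∈ Finset.range n, c j * B ^ j = 0) (j : ℕ) (hj : j < n) : c j = 0 := by
  have hpos : 0 < v ϖ := by rw [Valuation.pos_iff]; exact hϖ0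
  have hB0 : B ≠ 0 := by
    intro hB0
    rw [hB0, map_zero] at hB
    have hn : n ≠ 0 := by omega
    rw [zero_pow hn] at hB
    exact (pow_pos hpos i).ne hB
  have h := s56kt_term_le_sum v ϖ B n i hϖ0 hϖ hB hcop c hc j hj
  rw [h0, map_zero] at h
  have h1 : c j * B ^ j = 0 := (map_eq_zero v).mp (le_antisymm h zero_le)
  rcases mul_eq_zero.mp h1 with h2 | h2
  · exact h2
  · exact absurd (eq_zero_of_pow_eq_zero h2) hB0

/-- the valuation of a nonzero sum is `v ϖ ^ a * v B ^ j` for some `a : ℤ`, `j < n`. -/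
theorem s56kt_val_sum_mem (ϖ B : L) (n i : ℕ) (hn : 0 < n) (hϖ0 : ϖ ≠ 0) (hϖ : v ϖ < 1)
    (hB : v B ^ n = v ϖ ^ i) (hcop : Nat.Coprime i n) (c : ℕ → L)
    (hc : ∀ j, c j ≠ 0 → ∃ m : ℤ, v (c j) = v ϖ ^ m)
    (hne : ∑ j ∈ Finset.range n, c j * B ^ j ≠ 0) :
    ∃ (a : ℤ) (j : ℕ), j < n ∧ v (∑ j ∈ Finset.range n, c j * B ^ j) = v ϖ ^ a * v B ^ j := by
  have hd : ∀ a ∈ Finset.range n, ∀ b ∈ Finset.range n, a ≠ b → c a * B ^ a ≠ 0 →
      c b * B ^ b ≠ 0 → v (c a * B ^ a) ≠ v (c b * B ^ b) := by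
    intro a ha b hb hab h1 h2
    refine s56kt_val_pow_distinct v ϖ B n i hϖ0 hϖ hB hcop c hc a b (Finset.mem_range.mp ha)
      (Finset.mem_range.mp hb) hab ?_ ?_
    · exact fun h => h1 (by simp [h])
    · exact fun h => h2 (by simp [h])
  obtain ⟨j, hj, hjv⟩ := s56kt_exists_val_sum_eq v (Finset.range n)
    (Finset.nonempty_range_iff.mpr hn.ne') (fun j => c j * B ^ j) hd
  have hcj : c j ≠ 0 := by
    intro h0
    apply hne
    have : v (∑ j ∈ Finset.range n, c j * B ^ j) = 0 := by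
      rw [hjv]; simp [h0]
    exact (map_eq_zero v).mp this
  obtain ⟨a, ha⟩ := hc j hcj
  exact ⟨a, j, Finset.mem_range.mp hj, by rw [hjv, map_mul, map_pow, ha]⟩

end Val

end Fermat.Agent.S56
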