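/-
S56, node [S56-KUMT] (helper3): the tame step `K(π)/K`, `π ^ e = -p`, and the Kummer step
`K(π, α)/K(π)`, `α ^ p = x`, `v (x - 1) = v π ^ i`, `p ∤ i`: independence, value groups, integrality
of coefficients.  Prefix `s56kt_`.
-/
import Fermat.Agent.S56.KumT.Val
import Fermat.Agent.S56.KumT.Orbit
import Fermat.Agent.S56.KumT.Poly

set_option autoImplicit false
set_option linter.unusedSectionVars false

open Polynomial

namespace Fermat.Agent.S56

section Tame

variable {L : Type*} [Field L] {Γ₀ : Type*} [LinearOrderedCommGroupWithZero Γ₀]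

/-- **the setting**: `v` a valuation on `L`, `Γ` acting on `L`, the fixed field `K = L ^ Γ` has
value group `v p ^ ℤ`, `v p < 1`. -/
structure s56kt_Setting (v : Valuation L Γ₀) (Γ : Type*) [Group Γ] [MulSemiringAction Γ L]
    (p : ℕ) : Prop where
  hp : p.Prime
  vp : v (p : L) < 1
  p_ne : (p : L) ≠ 0
  valK : ∀ a : L, (∀ σ : Γ, σ • a = a) → a ≠ 0 → ∃ m : ℤ, v a = v (p : L) ^ m

variable {v : Valuation L Γ₀} {Γ : Type*} [Group Γ] [MulSemiringAction Γ L] {p : ℕ}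

theorem s56kt_smul_natCast (σ : Γ) (n : ℕ) : σ • (n : L) = n :=
  map_natCast (MulSemiringAction.toRingHom Γ L σ) n

section TameStep

variable (hS : s56kt_Setting v Γ p) {e : ℕ} (he : 0 < e) {π : L} (hπ : π ^ e = -(p : L))

include hS he hπ

theorem s56kt_val_pi_pow : v π ^ e = v (p : L) ^ 1 := by
  rw [← map_pow, hπ, Valuation.map_neg, pow_one]

theorem s56kt_pi_ne_zero : π ≠ 0 := by
  intro h
  rw [h, zero_pow he.ne'] at hπ
  exact hS.p_ne (neg_eq_zero.mp hπ.symm)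

theorem s56kt_val_pi_lt : v π < 1 := by
  have h := s56kt_val_pi_pow hS he hπ
  rw [pow_one] at h
  by_contra hge
  rw [not_lt] at hge
  have : 1 ≤ v π ^ e := one_le_pow₀ hge
  rw [h] at this
  exact absurd hS.vp (not_lt.mpr this)

theorem s56kt_val_pi_pos : 0 < v π := by
  rw [Valuation.pos_iff]
  exact s56kt_pi_ne_zero hS he hπ

/-- `1, π, …, π ^ (e - 1)` are linearly independent over `K`. -/
theorem s56kt_tame_indep : s56kt_Indep Γ π e := by
  intro c hc h0 j hj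
  exact s56kt_coeff_eq_zero v (p : L) π e 1 hS.p_ne hS.vp (s56kt_val_pi_pow hS he hπ)
    (Nat.coprime_one_left e) c (fun j hj0 => hS.valK (c j) (hc j) hj0) h0 j hj

theorem s56kt_tame_root : (s56kt_tamePoly e (p : L)).eval π = 0 := by
  rw [s56kt_tamePoly_eval, hπ, neg_add_cancel]

theorem s56kt_tame_fix (σ : Γ) : σ • s56kt_tamePoly e (p : L) = s56kt_tamePoly e (p : L) :=
  s56kt_tamePoly_smul e _ σ (s56kt_smul_natCast σ p)

theorem s56kt_tame_indep' : s56kt_Indep Γ π (s56kt_tamePoly e (p : L)).natDegree := by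
  rw [s56kt_tamePoly_natDegree]
  exact s56kt_tame_indep hS he hπ

/-- **the value group of `K(π) = L ^ Stab(π)` is `v π ^ ℤ`.** -/
theorem s56kt_tame_val (a : L) (ha : ∀ σ : Γ, σ • π = π → σ • a = a) (ha0 : a ≠ 0) :
    ∃ m : ℤ, v a = v π ^ m := by
  obtain ⟨c, hc, hexp⟩ := s56kt_fixed_eq_poly π (s56kt_tamePoly e (p : L))
    (s56kt_tamePoly_monic he _) (s56kt_tame_fix hS he hπ) (s56kt_tame_root hS he hπ)
    (s56kt_tame_indep' hS he hπ) a ha
  have h1 := hexp 1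
  rw [one_smul, one_smul, s56kt_tamePoly_natDegree] at h1
  have hne : ∑ j ∈ Finset.range e, c j * π ^ j ≠ 0 := by rw [← h1]; exact ha0
  obtain ⟨m, j, _, hv⟩ := s56kt_val_sum_mem v (p : L) π e 1 he hS.p_ne hS.vp
    (s56kt_val_pi_pow hS he hπ) (Nat.coprime_one_left e) c
    (fun j hj0 => hS.valK (c j) (hc j) hj0) hne
  refine ⟨(e : ℤ) * m + j, ?_⟩
  have hpos := s56kt_val_pi_pos hS he hπ
  have hp1 := s56kt_val_pi_pow hS he hπ
  rw [pow_one] at hp1
  rw [h1, hv, ← hp1, zpow_add₀ hpos.ne', zpow_mul, zpow_natCast, zpow_natCast]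

/-- **integrality of the coefficients** in the tame step. -/
theorem s56kt_tame_int (c : ℕ → L) (hc : ∀ j (σ : Γ), σ • c j = c j)
    (hle : v (∑ j ∈ Finset.range e, c j * π ^ j) ≤ 1) (j : ℕ) (hj : j < e) : v (c j) ≤ 1 := by
  by_cases hcj : c j = 0
  · rw [hcj, map_zero]; exact zero_le_one
  have h1 := s56kt_term_le_sum v (p : L) π e 1 hS.p_ne hS.vp (s56kt_val_pi_pow hS he hπ)
    (Nat.coprime_one_left e) c (fun j hj0 => hS.valK (c j) (hc j) hj0) j hj
  have h2 : v (c j * π ^ j) ≤ 1 := le_trans h1 hle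
  obtain ⟨m, hm⟩ := hS.valK (c j) (hc j) hcj
  have hpos := s56kt_val_pi_pos hS he hπ
  have hlt := s56kt_val_pi_lt hS he hπ
  have hp1 := s56kt_val_pi_pow hS he hπ
  rw [pow_one] at hp1
  -- `v (c j * π ^ j) = v π ^ (e * m + j) ≤ 1`, so `0 ≤ e * m + j`, so `0 ≤ m`
  have h3 : v (c j * π ^ j) = v π ^ ((e : ℤ) * m + j) := by
    rw [map_mul, map_pow, hm, ← hp1, zpow_add₀ hpos.ne', zpow_mul, zpow_natCast, zpow_natCast]
  rw [h3, zpow_le_one_iff_right_of_lt_one₀ hpos hlt] at h2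
  have hm0 : 0 ≤ m := by
    by_contra hneg
    rw [not_le] at hneg
    have : (e : ℤ) * m ≤ -(e : ℤ) := by nlinarith
    have hj' : (j : ℤ) < e := by exact_mod_cast hj
    omega
  rw [hm]
  have hppos : 0 < v (p : L) := by rw [Valuation.pos_iff]; exact hS.p_ne
  exact (zpow_le_one_iff_right_of_lt_one₀ hppos hS.vp).mpr hm0

end TameStep

section KummerStep

variable (hS : s56kt_Setting v Γ p) {e : ℕ} (he : 0 < e) {π : L} (hπ : π ^ e = -(p : L))
  {x α : L} (hx : ∀ σ : Γ, σ • π = π → σ • x = x) {i : ℕ} (hi : v (x - 1) = v π ^ i)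
  (hip : ¬ p ∣ i) (hi1 : i * (p - 1) < e * p) (hα : α ^ p = x)

include hS he hπ hx hi hip hi1 hα

/-- `v (α - 1) ^ p = v π ^ i`. -/
theorem s56kt_kum_val : v (α - 1) ^ p = v π ^ i := by
  rw [← hi]
  apply s56kt_val_root v hS.hp α x hα
  have hp1 := s56kt_val_pi_pow hS he hπ
  rw [pow_one] at hp1
  rw [hi, ← hp1, ← pow_mul, ← pow_mul]
  have hpos := s56kt_val_pi_pos hS he hπ
  have hlt := s56kt_val_pi_lt hS he hπ
  exact pow_lt_pow_right_of_lt_one₀ hpos hlt hi1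

theorem s56kt_kum_coprime : Nat.Coprime i p :=
  ((Nat.Prime.coprime_iff_not_dvd hS.hp).mpr hip).symm

theorem s56kt_kum_root : (s56kt_kumPoly p x).eval (α - 1) = 0 := by
  rw [s56kt_kumPoly_eval, sub_add_cancel, hα, sub_self]

theorem s56kt_kum_fix (σ : MulAction.stabilizer Γ π) :
    σ • s56kt_kumPoly p x = s56kt_kumPoly p x :=
  s56kt_kumPoly_smul p x σ (hx σ.1 σ.2)

/-- the value group of the fixed field of `Stab(π)` (as a group acting on `L`). -/
theorem s56kt_kum_valG (a : L) (ha : ∀ σ : MulAction.stabilizer Γ π, σ • a = a) (ha0 : a ≠ 0) :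
    ∃ m : ℤ, v a = v π ^ m :=
  s56kt_tame_val hS he hπ a (fun σ hσ => ha ⟨σ, hσ⟩) ha0

/-- `1, β, …, β ^ (p - 1)` (`β = α - 1`) are linearly independent over `K(π)`. -/
theorem s56kt_kum_indep : s56kt_Indep (MulAction.stabilizer Γ π) (α - 1) p := by
  intro c hc h0 j hj
  exact s56kt_coeff_eq_zero v π (α - 1) p i (s56kt_pi_ne_zero hS he hπ)
    (s56kt_val_pi_lt hS he hπ) (s56kt_kum_val hS he hπ hx hi hip hi1 hα)
    (s56kt_kum_coprime hS he hπ hx hi hip hi1 hα) c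
    (fun j hj0 => s56kt_kum_valG hS he hπ hx hi hip hi1 hα (c j) (hc j) hj0) h0 j hj

theorem s56kt_kum_indep' :
    s56kt_Indep (MulAction.stabilizer Γ π) (α - 1) (s56kt_kumPoly p x).natDegree := by
  rw [s56kt_kumPoly_natDegree]
  exact s56kt_kum_indep hS he hπ hx hi hip hi1 hα

/-- **integrality in the Kummer step**: if `∑ k < p, d k * β ^ k` is integral (`d k ∈ K(π)`), then
`d k * π ^ (i * k / p)` is integral. -/
theorem s56kt_kum_int (d : ℕ → L) (hd : ∀ k (σ : MulAction.stabilizer Γ π), σ • d k = d k)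
    (hle : v (∑ k ∈ Finset.range p, d k * (α - 1) ^ k) ≤ 1) (k : ℕ) (hk : k < p) :
    v (d k * π ^ (i * k / p)) ≤ 1 := by
  by_cases hdk : d k = 0
  · rw [hdk, zero_mul, map_zero]; exact zero_le_one
  have hpos := s56kt_val_pi_pos hS he hπ
  have hlt := s56kt_val_pi_lt hS he hπ
  have hval := s56kt_kum_val hS he hπ hx hi hip hi1 hα
  have h1 := s56kt_term_le_sum v π (α - 1) p i (s56kt_pi_ne_zero hS he hπ) hlt hval
    (s56kt_kum_coprime hS he hπ hx hi hip hi1 hα) d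
    (fun j hj0 => s56kt_kum_valG hS he hπ hx hi hip hi1 hα (d j) (hd j) hj0) k hk
  have h2 : v (d k * (α - 1) ^ k) ≤ 1 := le_trans h1 hle
  obtain ⟨m, hm⟩ := s56kt_kum_valG hS he hπ hx hi hip hi1 hα (d k) (hd k) hdk
  -- `p`-th power: `v π ^ (p * m + i * k) ≤ 1`
  have h3 : v (d k * (α - 1) ^ k) ^ p = v π ^ ((p : ℤ) * m + (i * k : ℕ)) := by
    rw [map_mul, map_pow, mul_pow, ← pow_mul, mul_comm k p, pow_mul, hval, hm, ← pow_mul,
      zpow_add₀ hpos.ne', zpow_natCast, ← zpow_natCast (v π ^ m) p, ← zpow_mul, mul_comm m]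
  have h4 : v π ^ ((p : ℤ) * m + (i * k : ℕ)) ≤ 1 := by
    rw [← h3]; exact pow_le_one₀ zero_le h2
  rw [zpow_le_one_iff_right_of_lt_one₀ hpos hlt] at h4
  have h5 : v (d k * π ^ (i * k / p)) = v π ^ (m + ((i * k / p : ℕ) : ℤ)) := by
    rw [map_mul, map_pow, hm, zpow_add₀ hpos.ne', zpow_natCast]
  rw [h5, zpow_le_one_iff_right_of_lt_one₀ hpos hlt]
  -- `0 ≤ p m + i k` implies `0 ≤ m + ⌊i k / p⌋`
  have hp0 : 0 < p := hS.hp.pos
  set q := i * k / p with hq
  have hdiv : (i * k : ℕ) = p * q + (i * k) % p := (Nat.div_add_mod (i * k) p).symm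
  have hmod : (i * k) % p < p := Nat.mod_lt _ hp0
  by_contra hneg
  rw [not_le] at hneg
  have hmq : m + (q : ℤ) ≤ -1 := by omega
  have : (p : ℤ) * m + (p : ℤ) * q ≤ -(p : ℤ) := by nlinarith
  have hcast : ((i * k : ℕ) : ℤ) = (p : ℤ) * q + ((i * k) % p : ℕ) := by exact_mod_cast hdiv
  have hmod' : (((i * k) % p : ℕ) : ℤ) < p := by exact_mod_cast hmod
  omega

end KummerStep

end Tame

end Fermat.Agent.S56
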