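/-
S56, node [S56-KUMT] (helper3): the two integrality statements for traces:
* `s56kt_tame_trace` : `∑ x, F x / (e ϑ(x) ^ (e - 1))` is integral if the fibre sum over `π` is;
* `s56kt_kum_trace`  : `π ^ (i (p - 1) / p) * ∑ y, ψ y / (p (ϑ(y) + 1) ^ (p - 1))` is integral for
  integral equivariant `ψ`.
Prefix `s56kt_`.
-/
import Fermat.Agent.S56.KumT.Tame

set_option autoImplicit false
set_option linter.unusedSectionVars false

open Polynomial

namespace Fermat.Agent.S56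

section Trace

variable {L : Type*} [Field L] {Γ₀ : Type*} [LinearOrderedCommGroupWithZero Γ₀]
  {v : Valuation L Γ₀} {Γ : Type*} [Group Γ] [MulSemiringAction Γ L] {p : ℕ}

open Classical in
/-- **tame trace**: `X` a finite `Γ`-set with an equivariant map `ϑ` to the roots of `X ^ e + p`,
`F` equivariant with integral fibre sum over `π`: then `∑ x, F x / (e ϑ(x) ^ (e - 1))` is
integral. -/
theorem s56kt_tame_trace (hS : s56kt_Setting v Γ p) {e : ℕ} (he : 0 < e) {π : L}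
    (hπ : π ^ e = -(p : L)) {X : Type*} [Fintype X] [MulAction Γ X]
    (ϑ : X → L) (hϑ : ∀ (σ : Γ) (x : X), ϑ (σ • x) = σ • ϑ x) (hϑroot : ∀ x, ϑ x ^ e = -(p : L))
    (F : X → L) (hF : ∀ (σ : Γ) (x : X), F (σ • x) = σ • F x)
    (hint : v (∑ x ∈ Finset.univ.filter (fun x => ϑ x = π), F x) ≤ 1) :
    v (∑ x, F x / ((e : L) * ϑ x ^ (e - 1))) ≤ 1 := by
  set g := s56kt_tamePoly e (p : L) with hg
  have hmonic : g.Monic := s56kt_tamePoly_monic he _
  have hfix := s56kt_tame_fix hS he hπ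
  have hroot := s56kt_tame_root hS he hπ
  have hind := s56kt_tame_indep' hS he hπ
  set w := ∑ x ∈ Finset.univ.filter (fun x => ϑ x = π), F x with hw
  -- `w` is fixed by `Stab(π)`
  have hwfix : ∀ σ : Γ, σ • π = π → σ • w = w := by
    intro σ hσ
    rw [hw, Finset.smul_sum]
    refine Finset.sum_bij (fun x _ => σ • x) ?_ ?_ ?_ ?_
    · intro x hx
      rw [Finset.mem_filter] at hx ⊢
      exact ⟨Finset.mem_univ _, by rw [hϑ, hx.2, hσ]⟩
    · intro a _ b _ hab
      exact smul_left_cancel σ hab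
    · intro x hx
      rw [Finset.mem_filter] at hx
      refine ⟨σ⁻¹ • x, ?_, by rw [smul_inv_smul]⟩
      rw [Finset.mem_filter]
      refine ⟨Finset.mem_univ _, ?_⟩
      rw [hϑ, hx.2]
      rw [inv_smul_eq_iff, hσ]
    · intro x _
      rw [hF]
  obtain ⟨c, hcfix, hcexp⟩ := s56kt_fixed_eq_poly π g hmonic hfix hroot hind w hwfix
  have hfib := s56kt_fib π g hmonic hfix hroot hind ϑ hϑ
    (fun x => by rw [hg, s56kt_tamePoly_eval, hϑroot x, neg_add_cancel]) F hF c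
    hcexp
  have hsum : ∑ x, F x / ((e : L) * ϑ x ^ (e - 1)) = c (g.natDegree - 1) := by
    rw [← hfib]
    refine Finset.sum_congr rfl fun x _ => ?_
    rw [hg, s56kt_tamePoly_deriv_eval]
  rw [hsum]
  have h1 := hcexp 1
  rw [one_smul, one_smul, hg, s56kt_tamePoly_natDegree] at h1
  rw [hg, s56kt_tamePoly_natDegree]
  refine s56kt_tame_int hS he hπ c hcfix ?_ (e - 1) (by omega)
  rw [← h1]
  exact hint

open Classical in
/-- **Kummer trace**: `Y` a finite `Stab(π)`-set with an equivariant map `ϑ` to the roots of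
`(X + 1) ^ p - x`, `ψ` equivariant and integral: then
`π ^ (i (p - 1) / p) * ∑ y, ψ y / (p (ϑ(y) + 1) ^ (p - 1))` is integral. -/
theorem s56kt_kum_trace (hS : s56kt_Setting v Γ p) {e : ℕ} (he : 0 < e) {π : L}
    (hπ : π ^ e = -(p : L)) {x α : L} (hx : ∀ σ : Γ, σ • π = π → σ • x = x) {i : ℕ}
    (hi : v (x - 1) = v π ^ i) (hip : ¬ p ∣ i) (hi1 : i * (p - 1) < e * p) (hα : α ^ p = x)
    {Y : Type*} [Fintype Y] [MulAction (MulAction.stabilizer Γ π) Y]
    (ϑ : Y → L) (hϑ : ∀ (σ : MulAction.stabilizer Γ π) (y : Y), ϑ (σ • y) = σ • ϑ y)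
    (hϑroot : ∀ y, (ϑ y + 1) ^ p = x)
    (ψ : Y → L) (hψ : ∀ (σ : MulAction.stabilizer Γ π) (y : Y), ψ (σ • y) = σ • ψ y)
    (hψint : ∀ y, v (ψ y) ≤ 1) :
    v (π ^ (i * (p - 1) / p) * ∑ y, ψ y / ((p : L) * (ϑ y + 1) ^ (p - 1))) ≤ 1 := by
  set g := s56kt_kumPoly p x with hg
  have hp0 : 0 < p := hS.hp.pos
  have hmonic : g.Monic := s56kt_kumPoly_monic hp0 _
  have hfix := s56kt_kum_fix hS he hπ hx hi hip hi1 hα
  have hroot := s56kt_kum_root hS he hπ hx hi hip hi1 hα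
  have hind := s56kt_kum_indep' hS he hπ hx hi hip hi1 hα
  set w := ∑ y ∈ Finset.univ.filter (fun y => ϑ y = α - 1), ψ y with hw
  have hwint : v w ≤ 1 := by
    rw [hw]
    exact Valuation.map_sum_le v fun y _ => hψint y
  have hwfix : ∀ σ : MulAction.stabilizer Γ π, σ • (α - 1) = α - 1 → σ • w = w := by
    intro σ hσ
    rw [hw, s56kt_fibre_sum_smul ϑ hϑ ψ hψ σ (α - 1), hσ]
  obtain ⟨c, hcfix, hcexp⟩ := s56kt_fixed_eq_poly (α - 1) g hmonic hfix hroot hind w hwfix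
  have hfib := s56kt_fib (α - 1) g hmonic hfix hroot hind ϑ hϑ
    (fun y => by rw [hg, s56kt_kumPoly_eval, hϑroot y, sub_self]) ψ hψ c hcexp
  have hsum : ∑ y, ψ y / ((p : L) * (ϑ y + 1) ^ (p - 1)) = c (g.natDegree - 1) := by
    rw [← hfib]
    refine Finset.sum_congr rfl fun y _ => ?_
    rw [hg, s56kt_kumPoly_deriv_eval]
  rw [hsum]
  have h1 := hcexp 1
  rw [one_smul, one_smul, hg, s56kt_kumPoly_natDegree] at h1
  rw [hg, s56kt_kumPoly_natDegree, mul_comm]
  refine s56kt_kum_int hS he hπ hx hi hip hi1 hα c hcfix ?_ (p - 1) (by omega)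
  rw [← h1]
  exact hwint

end Trace

end Fermat.Agent.S56
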