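/-
S56, node [S56-KUMT] (helper3), file (T5): THE MAIN STATEMENT.

Setting: `v` a valuation on the field `L`, `Γ` acting on `L`, `K = L ^ Γ` with value group
`v p ^ ℤ`; `π ^ e = -p` (`v e = 1`); `x ∈ K(π)` with `v (x - 1) = v π ^ i`, `p ∤ i`,
`i (p - 1) < e p`; `α ^ p = x`.  Put `m := i (p - 1) / p`.

`s56kt_main_trans` : for every finite transitive `Γ`-set `X` with base point `Q` whose stabiliser
fixes `π` and `α`, the equivariant function `θ` on `X` with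
`θ Q = π ^ m / (e π ^ (e - 1) · p α ^ (p - 1))` lies in the INVERSE DIFFERENT: `∑ x, θ x * ψ x` is
integral for every integral equivariant `ψ : X → L`.
`s56kt_main` : the same for an arbitrary finite `Γ`-set (`θ` supported on the orbit of `Q`), and
`v (p ^ 3 * θ Q ^ 2) > 1` as soon as `2 m + 2 < e`.
Prefix `s56kt_`.
-/
import Fermat.Agent.S56.KumT.Trace

set_option autoImplicit false
set_option linter.unusedSectionVars false
set_option linter.style.haveILetI false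

open Polynomial

namespace Fermat.Agent.S56

section Main

variable {L : Type*} [Field L] {Γ₀ : Type*} [LinearOrderedCommGroupWithZero Γ₀]
  {v : Valuation L Γ₀} {Γ : Type*} [Group Γ] [MulSemiringAction Γ L] {p : ℕ}

/-- transport of an element along a transitive `Γ`-set: `x = σ • Q ↦ σ • a`. -/
noncomputable def s56kt_pt {X : Type*} [MulAction Γ X] (Q : X) (htr : ∀ x : X, ∃ σ : Γ, σ • Q = x)
    (a : L) (x : X) : L := (htr x).choose • a

theorem s56kt_pt_spec {X : Type*} [MulAction Γ X] (Q : X) (htr : ∀ x : X, ∃ σ : Γ, σ • Q = x)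
    (a : L) (ha : ∀ σ : Γ, σ • Q = Q → σ • a = a) (σ : Γ) (x : X) (hσ : σ • Q = x) :
    s56kt_pt Q htr a x = σ • a := by
  unfold s56kt_pt
  have h1 := (htr x).choose_spec
  have h2 : (σ⁻¹ * (htr x).choose) • Q = Q := by
    rw [mul_smul, h1, ← hσ, inv_smul_smul]
  have h3 := ha _ h2
  rw [mul_smul] at h3
  calc (htr x).choose • a = σ • (σ⁻¹ • (htr x).choose • a) := by rw [smul_inv_smul]
    _ = σ • a := by rw [h3]

theorem s56kt_pt_smul {X : Type*} [MulAction Γ X] (Q : X) (htr : ∀ x : X, ∃ σ : Γ, σ • Q = x)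
    (a : L) (ha : ∀ σ : Γ, σ • Q = Q → σ • a = a) (σ : Γ) (x : X) :
    s56kt_pt Q htr a (σ • x) = σ • s56kt_pt Q htr a x := by
  obtain ⟨τ, hτ⟩ := htr x
  rw [s56kt_pt_spec Q htr a ha (σ * τ) (σ • x) (by rw [mul_smul, hτ]),
    s56kt_pt_spec Q htr a ha τ x hτ, mul_smul]

theorem s56kt_pt_base {X : Type*} [MulAction Γ X] (Q : X) (htr : ∀ x : X, ∃ σ : Γ, σ • Q = x)
    (a : L) (ha : ∀ σ : Γ, σ • Q = Q → σ • a = a) : s56kt_pt Q htr a Q = a := by
  rw [s56kt_pt_spec Q htr a ha 1 Q (one_smul _ _), one_smul]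

open Classical in
/-- **MAIN, transitive form.** -/
theorem s56kt_main_trans (hS : s56kt_Setting v Γ p) {e : ℕ} (he : 0 < e) {π : L}
    (hπ : π ^ e = -(p : L)) {x α : L} (hx : ∀ σ : Γ, σ • π = π → σ • x = x) {i : ℕ}
    (hi : v (x - 1) = v π ^ i) (hip : ¬ p ∣ i) (hi1 : i * (p - 1) < e * p) (hα : α ^ p = x)
    {X : Type*} [Fintype X] [MulAction Γ X] (Q : X) (htr : ∀ x : X, ∃ σ : Γ, σ • Q = x)
    (hQ : ∀ σ : Γ, σ • Q = Q → σ • π = π ∧ σ • α = α) :
    ∃ θ : X → L, (∀ (σ : Γ) (x : X), θ (σ • x) = σ • θ x) ∧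
      (∀ ψ : X → L, (∀ (σ : Γ) (x : X), ψ (σ • x) = σ • ψ x) → (∀ x, v (ψ x) ≤ 1) →
        v (∑ x, θ x * ψ x) ≤ 1) ∧
      θ Q = π ^ (i * (p - 1) / p) / ((e : L) * π ^ (e - 1) * ((p : L) * α ^ (p - 1))) := by
  set m := i * (p - 1) / p with hm
  have hQπ : ∀ σ : Γ, σ • Q = Q → σ • π = π := fun σ h => (hQ σ h).1
  have hQα : ∀ σ : Γ, σ • Q = Q → σ • α = α := fun σ h => (hQ σ h).2
  set ϑπ : X → L := s56kt_pt Q htr π with hϑπ
  set ϑα : X → L := s56kt_pt Q htr α with hϑα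
  have hϑπs : ∀ (σ : Γ) (x : X), ϑπ (σ • x) = σ • ϑπ x := s56kt_pt_smul Q htr π hQπ
  have hϑαs : ∀ (σ : Γ) (x : X), ϑα (σ • x) = σ • ϑα x := s56kt_pt_smul Q htr α hQα
  have hϑπQ : ϑπ Q = π := s56kt_pt_base Q htr π hQπ
  have hϑαQ : ϑα Q = α := s56kt_pt_base Q htr α hQα
  have hnat : ∀ (σ : Γ) (n : ℕ), σ • (n : L) = n := s56kt_smul_natCast
  -- the roots
  have hϑπroot : ∀ x, ϑπ x ^ e = -(p : L) := by
    intro x
    obtain ⟨σ, rfl⟩ := htr x
    rw [hϑπs, hϑπQ, ← smul_pow', hπ, smul_neg, hnat]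
  refine ⟨fun x => ϑπ x ^ m / ((e : L) * ϑπ x ^ (e - 1) * ((p : L) * ϑα x ^ (p - 1))), ?_, ?_, ?_⟩
  · intro σ x
    simp only [hϑπs, hϑαs, smul_div₀', smul_mul', smul_pow', hnat]
  · intro ψ hψ hψint
    -- first step: the tame trace
    set FA : X → L := fun x => ϑπ x ^ m * (ψ x / ((p : L) * ϑα x ^ (p - 1))) with hFA
    have hFAs : ∀ (σ : Γ) (x : X), FA (σ • x) = σ • FA x := by
      intro σ x
      simp only [hFA, hϑπs, hϑαs, hψ, smul_div₀', smul_mul', smul_pow', hnat]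
    have hrew : ∑ x, ϑπ x ^ m / ((e : L) * ϑπ x ^ (e - 1) * ((p : L) * ϑα x ^ (p - 1))) * ψ x
        = ∑ x, FA x / ((e : L) * ϑπ x ^ (e - 1)) := by
      refine Finset.sum_congr rfl fun x _ => ?_
      rw [hFA]
      ring
    rw [hrew]
    refine s56kt_tame_trace hS he hπ ϑπ hϑπs hϑπroot FA hFAs ?_
    -- second step: the Kummer trace on the fibre over `π`
    let Y := {x : X // ϑπ x = π}
    letI : MulAction (MulAction.stabilizer Γ π) Y :=
      { smul := fun σ y => ⟨(σ : Γ) • y.1, by rw [hϑπs, y.2]; exact σ.2⟩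
        one_smul := fun y => Subtype.ext (one_smul Γ y.1)
        mul_smul := fun σ τ y => Subtype.ext (mul_smul (σ : Γ) (τ : Γ) y.1) }
    have hsm : ∀ (σ : MulAction.stabilizer Γ π) (y : Y), (σ • y).1 = (σ : Γ) • y.1 :=
      fun _ _ => rfl
    have hfib : ∑ x ∈ Finset.univ.filter (fun x => ϑπ x = π), FA x
        = π ^ m * ∑ y : Y, ψ y.1 / ((p : L) * ((ϑα y.1 - 1) + 1) ^ (p - 1)) := by
      rw [Finset.sum_subtype (Finset.univ.filter (fun x => ϑπ x = π)) (p := fun x => ϑπ x = π)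
        (fun x => by simp) FA, Finset.mul_sum]
      refine Finset.sum_congr rfl fun y _ => ?_
      rw [hFA]
      simp only
      rw [y.2, sub_add_cancel]
    rw [hfib, hm]
    refine s56kt_kum_trace hS he hπ hx hi hip hi1 hα (fun y : Y => ϑα y.1 - 1) ?_ ?_
      (fun y : Y => ψ y.1) ?_ (fun y => hψint y.1)
    · intro σ y
      rw [hsm, hϑαs, Subgroup.smul_def, smul_sub, smul_one]
    · intro y
      rw [sub_add_cancel]
      obtain ⟨σ, hσ⟩ := htr y.1
      have h1 : ϑπ y.1 = σ • π := by rw [← hσ, hϑπs, hϑπQ]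
      have h2 : σ • π = π := by rw [← h1, y.2]
      rw [← hσ, hϑαs, hϑαQ, ← smul_pow', hα, hx σ h2]
    · intro σ y
      rw [hsm, hψ, Subgroup.smul_def]
  · simp only [hϑπQ, hϑαQ]

open Classical in
/-- **MAIN, general form**: `X` any finite `Γ`-set, `Q : X` with stabiliser fixing `π` and `α`. -/
theorem s56kt_main_gen (hS : s56kt_Setting v Γ p) {e : ℕ} (he : 0 < e) {π : L}
    (hπ : π ^ e = -(p : L)) {x α : L} (hx : ∀ σ : Γ, σ • π = π → σ • x = x) {i : ℕ}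
    (hi : v (x - 1) = v π ^ i) (hip : ¬ p ∣ i) (hi1 : i * (p - 1) < e * p) (hα : α ^ p = x)
    {X : Type*} [Fintype X] [MulAction Γ X] (Q : X)
    (hQ : ∀ σ : Γ, σ • Q = Q → σ • π = π ∧ σ • α = α) :
    ∃ θ : X → L, (∀ (σ : Γ) (x : X), θ (σ • x) = σ • θ x) ∧
      (∀ ψ : X → L, (∀ (σ : Γ) (x : X), ψ (σ • x) = σ • ψ x) → (∀ x, v (ψ x) ≤ 1) →
        v (∑ x, θ x * ψ x) ≤ 1) ∧
      θ Q = π ^ (i * (p - 1) / p) / ((e : L) * π ^ (e - 1) * ((p : L) * α ^ (p - 1))) := by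
  let O := MulAction.orbit Γ Q
  let Q' : O := ⟨Q, MulAction.mem_orbit_self Q⟩
  have htr : ∀ y : O, ∃ σ : Γ, σ • Q' = y := by
    rintro ⟨y, hy⟩
    obtain ⟨σ, hσ⟩ := MulAction.mem_orbit_iff.mp hy
    exact ⟨σ, Subtype.ext hσ⟩
  have hQ' : ∀ σ : Γ, σ • Q' = Q' → σ • π = π ∧ σ • α = α := by
    intro σ hσ
    exact hQ σ (congrArg Subtype.val hσ)
  obtain ⟨θ', hθ's, hθ'int, hθ'Q⟩ := s56kt_main_trans hS he hπ hx hi hip hi1 hα Q' htr hQ'
  refine ⟨fun y => if h : y ∈ O then θ' ⟨y, h⟩ else 0, ?_, ?_, ?_⟩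
  · intro σ y
    by_cases hy : y ∈ O
    · have hσy : σ • y ∈ O := MulAction.mem_orbit_of_mem_orbit σ hy
      simp only [dif_pos hy, dif_pos hσy]
      rw [← hθ's σ ⟨y, hy⟩]
      rfl
    · have hσy : σ • y ∉ O := by
        intro h
        apply hy
        have := MulAction.mem_orbit_of_mem_orbit σ⁻¹ h
        rwa [inv_smul_smul] at this
      simp only [dif_neg hy, dif_neg hσy, smul_zero]
  · intro ψ hψ hψint
    have hsum : ∑ y, (if h : y ∈ O then θ' ⟨y, h⟩ else 0) * ψ y = ∑ y : O, θ' y * ψ y.1 := by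
      set g : X → L := fun y => (if h : y ∈ O then θ' ⟨y, h⟩ else 0) * ψ y with hg
      have h1 : ∑ y, g y = ∑ y ∈ Finset.univ.filter (fun y => y ∈ O), g y := by
        rw [Finset.sum_filter]
        refine Finset.sum_congr rfl fun y _ => ?_
        by_cases hy : y ∈ O
        · simp [hy]
        · simp [hg, hy]
      rw [h1, Finset.sum_subtype (Finset.univ.filter (fun y => y ∈ O)) (p := fun y => y ∈ O)
        (fun y => by simp) g]
      refine Finset.sum_congr rfl fun y _ => ?_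
      simp only [hg, dif_pos y.2]
    rw [hsum]
    have h2 : ∑ y : O, θ' y * ψ y.1 = ∑ y : O, θ' y * (fun y : O => ψ y.1) y := rfl
    rw [h2]
    exact hθ'int (fun y : O => ψ y.1) (fun σ y => hψ σ y.1) (fun y => hψint y.1)
  · have hQO : Q ∈ O := MulAction.mem_orbit_self Q
    simp only [dif_pos hQO]
    exact hθ'Q

/-- **MAIN, with the numerical conclusion**: if `2 m + 2 < e`, `m = i (p - 1) / p`, then the element
`θ` of the inverse different has `v (p ^ 3 * θ Q ^ 2) > 1`: incompatible with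
`p · p ^ 2 ∈ (different) ^ 2`. -/
theorem s56kt_main (hS : s56kt_Setting v Γ p) {e : ℕ} (he : 0 < e) (hve : v (e : L) = 1) {π : L}
    (hπ : π ^ e = -(p : L)) {x α : L} (hx : ∀ σ : Γ, σ • π = π → σ • x = x) {i : ℕ}
    (hi : v (x - 1) = v π ^ i) (hip : ¬ p ∣ i) (hi1 : i * (p - 1) < e * p) (hα : α ^ p = x)
    (hnum : 2 * (i * (p - 1) / p) + 2 < e)
    {X : Type*} [Fintype X] [MulAction Γ X] (Q : X)
    (hQ : ∀ σ : Γ, σ • Q = Q → σ • π = π ∧ σ • α = α) :
    ∃ θ : X → L, (∀ (σ : Γ) (x : X), θ (σ • x) = σ • θ x) ∧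
      (∀ ψ : X → L, (∀ (σ : Γ) (x : X), ψ (σ • x) = σ • ψ x) → (∀ x, v (ψ x) ≤ 1) →
        v (∑ x, θ x * ψ x) ≤ 1) ∧
      1 < v ((p : L) ^ 3 * θ Q ^ 2) := by
  obtain ⟨θ, hθs, hθint, hθQ⟩ := s56kt_main_gen hS he hπ hx hi hip hi1 hα Q hQ
  refine ⟨θ, hθs, hθint, ?_⟩
  set m := i * (p - 1) / p with hm
  have hpos := s56kt_val_pi_pos hS he hπ
  have hlt := s56kt_val_pi_lt hS he hπ
  have hp1 := s56kt_val_pi_pow hS he hπ
  rw [pow_one] at hp1
  have hi0 : i ≠ 0 := by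
    intro h0
    exact hip (h0 ▸ dvd_zero p)
  -- `v α = 1`
  have hx1 : v (x - 1) < 1 := by
    rw [hi]
    exact pow_lt_one₀ zero_le hlt hi0
  have hvx : v x = 1 := by
    have h1 : x = 1 + (x - 1) := by ring
    rw [h1]
    have := Valuation.map_add_eq_of_lt_left v (x := (1 : L)) (y := x - 1) (by rwa [map_one])
    rw [this, map_one]
  have hvα : v α = 1 := by
    have h1 : v α ^ p = 1 := by rw [← map_pow, hα, hvx]
    rcases lt_trichotomy (v α) 1 with h | h | h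
    · exact absurd h1 (pow_lt_one₀ zero_le h hS.hp.ne_zero).ne
    · exact h
    · exact absurd h1 (one_lt_pow₀ h hS.hp.ne_zero).ne'
  have hval : v ((p : L) ^ 3 * θ Q ^ 2) = v π ^ (3 * e + 2 * m) / v π ^ (4 * e - 2) := by
    rw [hθQ, map_mul, map_pow, map_pow, map_div₀, map_mul, map_mul, map_mul, map_pow, map_pow,
      map_pow, hve, hvα, ← hp1, one_pow, mul_one, one_mul, div_pow, ← pow_mul, ← pow_mul,
      ← pow_add, ← pow_mul, mul_div_assoc', ← pow_add]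
    congr 2 <;> omega
  rw [hval, lt_div_iff₀ (pow_pos hpos _), one_mul]
  exact pow_lt_pow_right_of_lt_one₀ hpos hlt (by omega)

end Main

end Fermat.Agent.S56
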